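import Fermat.Agent.Corollaries.QuatE.Level21
import Fermat.Agent.Corollaries.GenusZero

/-!
# The elliptic curve `y² + xy + y = x³ - x` and the quaternary form
`x² + xy + 2y² + 2(z² + zw + 2w²)` of level `14`

The coefficient at the bad prime `2` comes from the explicit cusp form of level `14` attached to
the genus of the forms `x² + 14y²`, `2x² + 7y²` and from `dim S₂(Γ₀(14)) = 1`.
-/

set_option autoImplicit false

noncomputable section

namespace Fermat.Agent.Cor.QuatE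

open UpperHalfPlane ModularForm CongruenceSubgroup ModularFormClass
open Fermat.Agent.LTF.Theta
open scoped MatrixGroups

/-! ### the explicit cusp form -/

/-- `x² + 14y²` -/
def P14 : BQ := ⟨1, 0, 14⟩

/-- `2x² + 7y²` -/
def R14 : BQ := ⟨2, 0, 7⟩

theorem P14_disc : P14.disc = -56 := by norm_num [P14, BQ.disc]

theorem R14_disc : R14.disc = -56 := by norm_num [R14, BQ.disc]

theorem P14_pos : P14.Pos := ⟨by norm_num [P14], by rw [P14_disc]; norm_num⟩

theorem R14_pos : R14.Pos := ⟨by norm_num [R14], by rw [R14_disc]; norm_num⟩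

theorem genus14 (m : ℤ) (hm : m ≠ 0) : Genus P14 R14 m := by
  have h3 : Prime (3 : ℤ) := Int.prime_three
  obtain ⟨m', hmm, hm'⟩ := (Int.finiteMultiplicity_iff.mpr
    ⟨by norm_num, hm⟩ : FiniteMultiplicity (3 : ℤ) m).exists_eq_pow_mul_and_not_dvd
  have hc3 : IsCoprime (3 : ℤ) m' := (h3.coprime_iff_not_dvd).mpr hm'
  set n : ℤ := 27 + m' * (6 + 5 * m') with hn
  set X : ℤ := 9 - 12 * m' - 3 * m' ^ 2 with hX
  set Y : ℤ := 9 + 6 * m' - m' ^ 2 with hY
  have hrel : 2 * X ^ 2 + 7 * Y ^ 2 = n ^ 2 := by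
    rw [hX, hY, hn]
    ring
  have hn3 : IsCoprime n 3 := by
    refine ((h3.coprime_iff_not_dvd).mpr fun h => ?_).symm
    have h1 : (3 : ℤ) ∣ 5 * m' ^ 2 := by
      have h2 : (5 * m' ^ 2 : ℤ) = n - 3 * (9 + 2 * m') := by rw [hn]; ring
      rw [h2]
      exact dvd_sub h (Dvd.intro _ rfl)
    rcases h3.dvd_or_dvd h1 with h2 | h2
    · norm_num at h2
    · exact hm' (h3.dvd_of_dvd_pow h2)
  have hnm' : IsCoprime n m' := by
    have h1 : IsCoprime (27 : ℤ) m' := by
      have := hc3.pow_left (m := 3)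
      norm_num at this
      exact this
    rw [hn]
    exact (IsCoprime.add_mul_left_left h1 (6 + 5 * m'))
  have hnm : IsCoprime n m := by
    rw [hmm]
    exact (hn3.pow_right).mul_right hnm'
  -- Bézout
  obtain ⟨T, V, hTV⟩ : ∃ T V : ℤ, X * V - Y * T = (Int.gcd X Y : ℤ) :=
    ⟨-(Int.gcdB X Y), Int.gcdA X Y, by rw [Int.gcd_eq_gcd_ab]; ring⟩
  set g : ℤ := (Int.gcd X Y : ℤ) with hg
  have hgn : g ∣ n ^ 2 := by
    rw [← hrel]
    exact dvd_add ((dvd_pow (Int.gcd_dvd_left X Y) two_ne_zero).mul_left 2)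
      ((dvd_pow (Int.gcd_dvd_right X Y) two_ne_zero).mul_left 7)
  have hgm : IsCoprime g m := IsCoprime.of_isCoprime_of_dvd_left (hnm.pow_left (m := 2)) hgn
  refine ⟨n, 2 * X * T + 7 * Y * V, 0, g, X, n * T, Y, n * V, ?_, ?_, ?_⟩
  · have e : n * g - (2 * X * T + 7 * Y * V) * 0 = n * g := by ring
    rw [e]
    exact hnm.mul_left hgm
  · have e : X * (n * V) - n * T * Y = n * g := by
      rw [← hTV]; ring
    rw [e]
    exact hnm.mul_left hgm
  · intro x y
    simp only [BQ.ev, P14, R14, Int.cast_id]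
    rw [← hTV]
    linear_combination (-x ^ 2 + (2 * T ^ 2 + 7 * V ^ 2) * y ^ 2) * hrel

theorem p14_rep (n : ℕ) (hn : n ≤ 8) : P14.rep n =
    ((Finset.Icc (-(2 : ℕ) : ℤ) (2 : ℕ) ×ˢ Finset.Icc (-(2 : ℕ) : ℤ) (2 : ℕ)).filter
      (fun x : ℤ × ℤ => P14.a * x.1 ^ 2 + P14.b * x.1 * x.2 + P14.c * x.2 ^ 2 = n)).card := by
  have hn' : (n : ℤ) ≤ 8 := by exact_mod_cast hn
  refine rep_eq_card P14_pos 2 n ?_ ?_
  · rw [P14_disc]
    simp only [P14]
    push_cast
    linarith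
  · rw [P14_disc]
    simp only [P14]
    push_cast
    linarith

theorem r14_rep (n : ℕ) (hn : n ≤ 8) : R14.rep n =
    ((Finset.Icc (-(2 : ℕ) : ℤ) (2 : ℕ) ×ˢ Finset.Icc (-(2 : ℕ) : ℤ) (2 : ℕ)).filter
      (fun x : ℤ × ℤ => R14.a * x.1 ^ 2 + R14.b * x.1 * x.2 + R14.c * x.2 ^ 2 = n)).card := by
  have hn' : (n : ℤ) ≤ 8 := by exact_mod_cast hn
  refine rep_eq_card R14_pos 2 n ?_ ?_
  · rw [R14_disc]
    simp only [R14]
    push_cast
    linarith
  · rw [R14_disc]
    simp only [R14]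
    push_cast
    linarith

theorem p14_0 : P14.rep 0 = 1 := by rw [p14_rep 0 (by norm_num)]; decide
theorem p14_1 : P14.rep 1 = 2 := by rw [p14_rep 1 (by norm_num)]; decide
theorem p14_2 : P14.rep 2 = 0 := by rw [p14_rep 2 (by norm_num)]; decide
theorem p14_3 : P14.rep 3 = 0 := by rw [p14_rep 3 (by norm_num)]; decide
theorem p14_4 : P14.rep 4 = 2 := by rw [p14_rep 4 (by norm_num)]; decide
theorem p14_5 : P14.rep 5 = 0 := by rw [p14_rep 5 (by norm_num)]; decide
theorem p14_6 : P14.rep 6 = 0 := by rw [p14_rep 6 (by norm_num)]; decide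
theorem p14_7 : P14.rep 7 = 0 := by rw [p14_rep 7 (by norm_num)]; decide
theorem p14_8 : P14.rep 8 = 0 := by rw [p14_rep 8 (by norm_num)]; decide
theorem r14_0 : R14.rep 0 = 1 := by rw [r14_rep 0 (by norm_num)]; decide
theorem r14_1 : R14.rep 1 = 0 := by rw [r14_rep 1 (by norm_num)]; decide
theorem r14_2 : R14.rep 2 = 2 := by rw [r14_rep 2 (by norm_num)]; decide
theorem r14_3 : R14.rep 3 = 0 := by rw [r14_rep 3 (by norm_num)]; decide
theorem r14_4 : R14.rep 4 = 0 := by rw [r14_rep 4 (by norm_num)]; decide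
theorem r14_5 : R14.rep 5 = 0 := by rw [r14_rep 5 (by norm_num)]; decide
theorem r14_6 : R14.rep 6 = 0 := by rw [r14_rep 6 (by norm_num)]; decide
theorem r14_7 : R14.rep 7 = 2 := by rw [r14_rep 7 (by norm_num)]; decide
theorem r14_8 : R14.rep 8 = 2 := by rw [r14_rep 8 (by norm_num)]; decide

theorem cpp4 : cf P14 P14 1 4 = 4 := by
  simp [cf, Finset.sum_filter, Finset.sum_range_succ, p14_0, p14_1, p14_2, p14_3, p14_4]
theorem crp4 : cf R14 P14 1 4 = 2 := by
  simp [cf, Finset.sum_filter, Finset.sum_range_succ, p14_0, p14_1, p14_2, p14_3, p14_4, r14_0,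
    r14_1, r14_2, r14_3, r14_4]
theorem cpp8 : cf P14 P14 1 8 = 4 := by
  simp [cf, Finset.sum_filter, Finset.sum_range_succ, p14_0, p14_1, p14_2, p14_3, p14_4, p14_5,
    p14_6, p14_7, p14_8]
theorem crp8 : cf R14 P14 1 8 = 6 := by
  simp [cf, Finset.sum_filter, Finset.sum_range_succ, p14_0, p14_1, p14_2, p14_3, p14_4, p14_5,
    p14_6, p14_7, p14_8, r14_0, r14_1, r14_2, r14_3, r14_4, r14_5, r14_6, r14_7, r14_8]

/-- an explicit cusp form of level `14` -/
theorem exists_cusp14 : ∃ F : CuspForm (Gamma0 14) 2, qCoeff F 1 = 2 ∧ qCoeff F 2 = -2 := by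
  obtain ⟨F, hF⟩ := exists_cuspForm_diff_four (N := 14) (c := 1) P14_pos R14_pos P14_pos
    (by norm_num) (by rw [P14_disc]; norm_num) (by rw [R14_disc]; norm_num)
    (by rw [P14_disc]; norm_num) genus14 one_pos 1
  refine ⟨F, ?_, ?_⟩
  · have := hF 1
    rw [show 4 * 1 = 4 from rfl, cpp4, crp4] at this
    rw [this]
    norm_num
  · have := hF 2
    rw [show 4 * 2 = 8 from rfl, cpp8, crp8] at this
    rw [this]
    norm_num

/-- the coefficient at `2` of a normalised form of level `14` -/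
theorem qCoeff_two_14 {f : CuspForm (Gamma0 14) 2} (hf : qCoeff f 1 = 1) : qCoeff f 2 = -1 := by
  obtain ⟨F, h1, h2⟩ := exists_cusp14
  have hd : Module.finrank ℂ (CuspForm (Gamma0 14) 2) = 1 :=
    (finrank_eq_one_iff 14).mpr (by decide)
  have hf0 : f ≠ 0 := by
    rintro rfl
    have h0 : qCoeff ((0 : CuspForm (Gamma0 14) 2) : ℍ → ℂ) 1 = 0 := by
      unfold qCoeff
      rw [show (((0 : CuspForm (Gamma0 14) 2) : ℍ → ℂ)) = 0 from rfl, qExpansion_zero]
      simp
    rw [h0] at hf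
    exact zero_ne_one hf
  obtain ⟨c, hc⟩ := (finrank_eq_one_iff_of_nonzero' f hf0).mp hd F
  have hq : ∀ n, qCoeff F n = c * qCoeff f n := by
    intro n
    rw [← hc]
    have h3 : qExpansion 1 (c • f) = c • qExpansion 1 f :=
      ModularForm.qExpansion_smul one_pos (one_mem_strictPeriods_Gamma0 14) c f
    unfold qCoeff
    rw [show (qExpansion 1 ((c • f : CuspForm (Gamma0 14) 2) : ℍ → ℂ)) =
      c • qExpansion 1 f from h3, map_smul, smul_eq_mul]
  have e1 := hq 1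
  rw [h1, hf, mul_one] at e1
  have e2 := hq 2
  rw [h2, ← e1] at e2
  linear_combination (-1 / 2 : ℂ) * e2

/-! ### the curve -/

/-- `y² + xy + y = x³ - x` -/
def W14 : WeierstrassCurve ℤ := ⟨1, 0, 1, -1, 0⟩

theorem W14_Δ : W14.Δ = -(28 : ℕ) := by
  norm_num [W14, WeierstrassCurve.Δ, WeierstrassCurve.b₂, WeierstrassCurve.b₄,
    WeierstrassCurve.b₆, WeierstrassCurve.b₈]

theorem W14_c₄ : W14.c₄ = 25 := by
  norm_num [W14, WeierstrassCurve.c₄, WeierstrassCurve.b₂, WeierstrassCurve.b₄]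

theorem dvd_W14 {q : ℕ} (hq : q.Prime) : q ∣ 14 ↔ (q : ℤ) ∣ W14.Δ := by
  rw [W14_Δ, dvd_neg, Int.natCast_dvd_natCast, show (28 : ℕ) = 2 * 14 from rfl,
    hq.dvd_mul]
  constructor
  · exact Or.inr
  · rintro (h | h)
    · exact h.trans (by norm_num)
    · exact h

theorem W14_semistable : W14.IsSemistableModel := by
  intro p hp h1 h
  rw [← dvd_W14 hp, show (14 : ℕ) = 2 * 7 from rfl, hp.dvd_mul,
    Nat.prime_dvd_prime_iff_eq hp (by norm_num), Nat.prime_dvd_prime_iff_eq hp (by norm_num)] at h1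
  rw [W14_c₄] at h
  rcases h1 with rfl | rfl <;> norm_num at h

theorem psi14 : ModularCurve.dedekindPsi 14 = 24 := by
  rw [show (14 : ℕ) = 2 * 7 from rfl, P1Count.dedekindPsi_mul 2 7 (by norm_num),
    dedekindPsi_prime (by norm_num), dedekindPsi_prime (by norm_num)]

theorem pts14_three : Nat.card {q : ZMod 3 × ZMod 3 //
    q.2 ^ 2 + (W14.a₁ : ZMod 3) * q.1 * q.2 + (W14.a₃ : ZMod 3) * q.2 =
      q.1 ^ 3 + (W14.a₂ : ZMod 3) * q.1 ^ 2 + (W14.a₄ : ZMod 3) * q.1 + (W14.a₆ : ZMod 3)} =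
    5 := by
  rw [Nat.card_eq_fintype_card]
  simp only [W14]
  decide

theorem ap14_three : W14.apOfModel 3 = -2 := by
  have : Fact (Nat.Prime 3) := ⟨Nat.prime_three⟩
  have h2 : ¬ ((3 : ℕ) : ℤ) ∣ W14.Δ := by
    rw [← dvd_W14 Nat.prime_three]
    norm_num
  rw [apOfModel_eq h2, pts14_three]
  norm_num

theorem c14_0 : cf Q7 Q7 2 0 = 1 := by
  simp [cf, q7_0]
theorem c14_1 : cf Q7 Q7 2 1 = 2 := by
  simp [cf, Finset.sum_filter, Finset.sum_range_succ, q7_0, q7_1]
theorem c14_2 : cf Q7 Q7 2 2 = 6 := by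
  simp [cf, Finset.sum_filter, Finset.sum_range_succ, q7_0, q7_1, q7_2]
theorem c14_3 : cf Q7 Q7 2 3 = 4 := by
  simp [cf, Finset.sum_filter, Finset.sum_range_succ, q7_0, q7_1, q7_3]
theorem c14_4 : cf Q7 Q7 2 4 = 18 := by
  simp [cf, Finset.sum_filter, Finset.sum_range_succ, q7_0, q7_1, q7_2, q7_4]

/-- **The newform of the curve `y² + xy + y = x³ - x`** in terms of the quaternary form
`x² + xy + 2y² + 2(z² + zw + 2w²)` and Eisenstein series. -/
theorem exists_newform_fourteen : ∃ f : CuspForm (Gamma0 14) 2, f.IsNormalizedEigenform ∧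
    (∀ q : ℕ, q.Prime → ¬ q ∣ 14 → qCoeff f q = (W14.apOfModel q : ℂ)) ∧
    ∀ n : ℕ, 2 * qCoeff f n = 3 * (repc Q7 Q7 2 n : ℂ) +
      (eis 2 n - eis 7 n - eis 14 n) / 6 := by
  obtain ⟨f, hf, hap⟩ := exists_form (W := W14) (N := 14) (by
      rw [show (14 : ℕ) = 2 * 7 from rfl, Nat.squarefree_mul (by norm_num)]
      exact ⟨Nat.prime_two.squarefree, (show Nat.Prime 7 by norm_num).squarefree⟩)
    (by rw [W14_Δ]; norm_num) W14_semistable (fun q hq => dvd_W14 hq)
  refine ⟨f, hf, hap, ?_⟩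
  have h0 : qCoeff f 0 = 0 := CuspFormClass.qExpansion_coeff_zero f one_pos
    (one_mem_strictPeriods_Gamma0 14)
  have h2 : qCoeff f 2 = -1 := qCoeff_two_14 hf.qCoeff_one
  have h3 : qCoeff f 3 = -2 := by
    rw [hap 3 Nat.prime_three (by norm_num), ap14_three]
    norm_num
  have h4 : qCoeff f 4 = 1 := by
    have := hf.qCoeff_prime_pow_of_dvd 2 0 Nat.prime_two (by norm_num)
    norm_num at this
    rw [this, h2]
    norm_num
  have e2 := IsMF.eis (N := 14) (D := 2) (by norm_num)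
  have e7 := IsMF.eis (N := 14) (D := 7) (by norm_num)
  have e14 := IsMF.eis (N := 14) (D := 14) (by norm_num)
  have hMF : IsMF 14 (fun n => 2 * qCoeff f n - 3 * (cf Q7 Q7 2 n : ℂ) -
      1 / 6 * (eis 2 n - eis 7 n - eis 14 n)) :=
    (((IsMF.cusp f).smul 2).sub ((IsMF.theta Q7_pos Q7_pos rfl (c := 2) (by norm_num)
      (by rw [Q7_disc]; norm_num)).smul 3)).sub (((e2.sub e7).sub e14).smul (1 / 6))
  have hz := hMF.eq_zero (fun n hn => by
    rw [psi14] at hn
    have hn' : n ≤ 4 := by omega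
    interval_cases n
    · rw [h0, c14_0, eis, eis, eis, if_pos rfl, if_pos rfl, if_pos rfl]
      norm_num
    · rw [hf.qCoeff_one, c14_1, eis_val (D := 2) (s := 1) (by norm_num) (by decide),
        eis_val (D := 7) (s := 1) (by norm_num) (by decide),
        eis_val (D := 14) (s := 1) (by norm_num) (by decide)]
      norm_num
    · rw [h2, c14_2, eis_val (D := 2) (s := 1) (by norm_num) (by decide),
        eis_val (D := 7) (s := 3) (by norm_num) (by decide),
        eis_val (D := 14) (s := 3) (by norm_num) (by decide)]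
      norm_num
    · rw [h3, c14_3, eis_val (D := 2) (s := 4) (by norm_num) (by decide),
        eis_val (D := 7) (s := 4) (by norm_num) (by decide),
        eis_val (D := 14) (s := 4) (by norm_num) (by decide)]
      norm_num
    · rw [h4, c14_4, eis_val (D := 2) (s := 1) (by norm_num) (by decide),
        eis_val (D := 7) (s := 7) (by norm_num) (by decide),
        eis_val (D := 14) (s := 7) (by norm_num) (by decide)]
      norm_num)
  intro n
  have h := hz n
  rw [cf_eq_repc Q7_pos Q7_pos (by norm_num)] at h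
  linear_combination h

/-- **Number of points of `y² + xy + y = x³ - x` modulo `p`** and representations of `p` by
`x² + xy + 2y² + 2(z² + zw + 2w²)`. -/
theorem fourteen {p : ℕ} [hp : Fact p.Prime] (h : ¬ p ∣ 14) :
    2 * Nat.card {q : ZMod p × ZMod p // q.2 ^ 2 + q.1 * q.2 + q.2 = q.1 ^ 3 - q.1} +
      3 * Nat.card {v : Fin 4 → ℤ // v 0 ^ 2 + v 0 * v 1 + 2 * v 1 ^ 2 +
        2 * (v 2 ^ 2 + v 2 * v 3 + 2 * v 3 ^ 2) = p} = 6 * p + 4 := by
  obtain ⟨f, hf, hap, hrel⟩ := exists_newform_fourteen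
  have h1 := hrel p
  have h2' : ¬ p ∣ 2 := fun hd => h (hd.trans (by norm_num))
  have h7' : ¬ p ∣ 7 := fun hd => h (hd.trans (by norm_num))
  rw [hap p hp.out h, apOfModel_eq (by rw [← dvd_W14 hp.out]; exact h),
    eis_prime (by norm_num) hp.out h2', eis_prime (by norm_num) hp.out h7',
    eis_prime (by norm_num) hp.out h] at h1
  have h2 : Nat.card {q : ZMod p × ZMod p //
      q.2 ^ 2 + (W14.a₁ : ZMod p) * q.1 * q.2 + (W14.a₃ : ZMod p) * q.2 =
        q.1 ^ 3 + (W14.a₂ : ZMod p) * q.1 ^ 2 + (W14.a₄ : ZMod p) * q.1 + (W14.a₆ : ZMod p)} =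
      Nat.card {q : ZMod p × ZMod p // q.2 ^ 2 + q.1 * q.2 + q.2 = q.1 ^ 3 - q.1} := by
    refine Nat.card_congr (Equiv.subtypeEquivRight fun q => ?_)
    simp only [W14]
    push_cast
    ring_nf
  rw [h2] at h1
  have h3 : repc Q7 Q7 2 p = Nat.card {v : Fin 4 → ℤ // v 0 ^ 2 + v 0 * v 1 + 2 * v 1 ^ 2 +
        2 * (v 2 ^ 2 + v 2 * v 3 + 2 * v 3 ^ 2) = p} := by
    rw [repc_eq_card]
    refine Nat.card_congr (Equiv.subtypeEquivRight fun v => ?_)
    simp only [Q7]
    push_cast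
    ring_nf
  rw [← h3]
  have h5 : ((2 * Nat.card {q : ZMod p × ZMod p // q.2 ^ 2 + q.1 * q.2 + q.2 = q.1 ^ 3 - q.1} +
      3 * repc Q7 Q7 2 p : ℕ) : ℂ) = ((6 * p + 4 : ℕ) : ℂ) := by
    push_cast at h1 ⊢
    linear_combination -h1
  exact_mod_cast h5

end Fermat.Agent.Cor.QuatE

end
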