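import Fermat.Agent.Corollaries.QuatE.Base

/-!
# The elliptic curve `y² + y = x³ - x²` and the quaternary form `x² + xy + 3y² + z² + zw + 3w²`

The theta series of the quaternary form is the sum of an Eisenstein series and of a multiple of
the newform of level `11` attached to the curve by the modularity theorem.
-/

set_option autoImplicit false

noncomputable section

namespace Fermat.Agent.Cor.QuatE

open UpperHalfPlane ModularForm CongruenceSubgroup ModularFormClass
open Fermat.Agent.LTF.Theta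
open scoped MatrixGroups

/-- `x² + xy + 3y²` -/
def Q11 : BQ := ⟨1, 1, 3⟩

theorem Q11_disc : Q11.disc = -11 := by norm_num [Q11, BQ.disc]

theorem Q11_pos : Q11.Pos := ⟨by norm_num [Q11], by rw [Q11_disc]; norm_num⟩

/-- `y² + y = x³ - x²` -/
def W11 : WeierstrassCurve ℤ := ⟨0, -1, 1, 0, 0⟩

theorem W11_Δ : W11.Δ = -(11 : ℕ) := by
  norm_num [W11, WeierstrassCurve.Δ, WeierstrassCurve.b₂, WeierstrassCurve.b₄,
    WeierstrassCurve.b₆, WeierstrassCurve.b₈]

theorem W11_c₄ : W11.c₄ = 16 := by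
  norm_num [W11, WeierstrassCurve.c₄, WeierstrassCurve.b₂, WeierstrassCurve.b₄]

/-- number of solutions of `y² + y = x³ - x²` modulo `p` -/
def pts11 (p : ℕ) : ℕ := Nat.card {q : ZMod p × ZMod p // q.2 ^ 2 + q.2 = q.1 ^ 3 - q.1 ^ 2}

theorem ap11 {p : ℕ} [hp : Fact p.Prime] (h : p ≠ 11) : W11.apOfModel p = p - pts11 p := by
  have hΔ : (W11.reductionMod p).Δ ≠ 0 := by
    unfold WeierstrassCurve.reductionMod
    rw [WeierstrassCurve.map_Δ, W11_Δ]
    intro h0
    have h1 : ((11 : ℕ) : ZMod p) = 0 := by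
      have : ((Int.castRingHom (ZMod p)) (-(11 : ℕ) : ℤ)) = -((11 : ℕ) : ZMod p) := by
        simp
      rw [this] at h0
      exact neg_eq_zero.mp h0
    rw [ZMod.natCast_eq_zero_iff, Nat.prime_dvd_prime_iff_eq hp.out (by norm_num)] at h1
    exact h h1
  unfold WeierstrassCurve.apOfModel WeierstrassCurve.traceOfFrobenius
  rw [card_eq _ hΔ, Nat.card_zmod]
  have h2 : Nat.card {q : ZMod p × ZMod p // q.2 ^ 2 + (W11.reductionMod p).a₁ * q.1 * q.2 +
      (W11.reductionMod p).a₃ * q.2 = q.1 ^ 3 + (W11.reductionMod p).a₂ * q.1 ^ 2 +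
      (W11.reductionMod p).a₄ * q.1 + (W11.reductionMod p).a₆} = pts11 p := by
    refine Nat.card_congr (Equiv.subtypeEquivRight fun q => ?_)
    have e1 : (W11.reductionMod p).a₁ = 0 := by simp [WeierstrassCurve.reductionMod, W11]
    have e2 : (W11.reductionMod p).a₂ = -1 := by simp [WeierstrassCurve.reductionMod, W11]
    have e3 : (W11.reductionMod p).a₃ = 1 := by simp [WeierstrassCurve.reductionMod, W11]
    have e4 : (W11.reductionMod p).a₄ = 0 := by simp [WeierstrassCurve.reductionMod, W11]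
    have e6 : (W11.reductionMod p).a₆ = 0 := by simp [WeierstrassCurve.reductionMod, W11]
    rw [e1, e2, e3, e4, e6]
    ring_nf
  rw [h2]
  push_cast
  ring

theorem pts11_two : pts11 2 = 4 := by
  unfold pts11
  rw [Nat.card_eq_fintype_card]
  decide

theorem ap11_two : W11.apOfModel 2 = -2 := by
  have : Fact (Nat.Prime 2) := ⟨Nat.prime_two⟩
  rw [ap11 (by norm_num), pts11_two]
  norm_num

/-- **`5 θ² = 12 E + 8 f`**: the number of representations of `n ≥ 1` by
`x² + xy + 3y² + z² + zw + 3w²`, in terms of the newform of the curve `y² + y = x³ - x²`. -/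
theorem exists_newform_eleven : ∃ f : CuspForm (Gamma0 11) 2, f.IsNormalizedEigenform ∧
    (∀ q : ℕ, q.Prime → q ≠ 11 → qCoeff f q = (W11.apOfModel q : ℂ)) ∧
    ∀ n : ℕ, n ≠ 0 → 5 * (rep4 Q11 n : ℂ) =
      12 * (∑ d ∈ n.divisors with ¬ 11 ∣ d, (d : ℂ)) + 8 * qCoeff f n := by
  obtain ⟨f, hf, hap⟩ := exists_form_of_prime_Δ (W := W11) (p := 11) (by norm_num) W11_Δ
    (by rw [W11_c₄]; norm_num)
  refine ⟨f, hf, hap, fun n hn => ?_⟩
  have h0 : qCoeff f 0 = 0 := CuspFormClass.qExpansion_coeff_zero f one_pos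
    (one_mem_strictPeriods_Gamma0 11)
  have h := relation_of_sturm (D := 11) Q11_pos (by rw [Q11_disc]; norm_num) f 5 (1 / 2) 8
    (fun m hm => ?_) n
  · rw [h, eis, if_neg hn]
    ring
  · rw [dedekindPsi_prime (by norm_num)] at hm
    have hm' : m ≤ 2 := by omega
    interval_cases m
    · rw [rep4_zero Q11_pos rfl, eis, if_pos rfl, h0]
      norm_num
    · rw [rep4_one Q11_pos rfl (by rw [Q11_disc]; norm_num), eis, if_neg one_ne_zero, hf.qCoeff_one]
      have : ∑ d ∈ (1 : ℕ).divisors with ¬ 11 ∣ d, (d : ℂ) = 1 := by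
        rw [Nat.divisors_one, Finset.filter_singleton]
        norm_num
      rw [this]
      norm_num
    · rw [rep4_two Q11_pos rfl (by rw [Q11_disc]; norm_num), eis, if_neg two_ne_zero,
        hap 2 Nat.prime_two (by norm_num), ap11_two]
      have : ∑ d ∈ (2 : ℕ).divisors with ¬ 11 ∣ d, (d : ℂ) = 3 := by
        rw [Nat.prime_two.divisors, Finset.filter_insert, Finset.filter_singleton]
        norm_num
      rw [this]
      norm_num

/-- **Number of points of `y² + y = x³ - x²` modulo `p` and representations of `p` by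
`x² + xy + 3y² + z² + zw + 3w²`.** -/
theorem eleven {p : ℕ} [hp : Fact p.Prime] (h : p ≠ 11) :
    8 * Nat.card {q : ZMod p × ZMod p // q.2 ^ 2 + q.2 = q.1 ^ 3 - q.1 ^ 2} +
      5 * Nat.card {v : Fin 4 → ℤ // v 0 ^ 2 + v 0 * v 1 + 3 * v 1 ^ 2 +
        v 2 ^ 2 + v 2 * v 3 + 3 * v 3 ^ 2 = p} = 20 * p + 12 := by
  obtain ⟨f, hf, hap, hrel⟩ := exists_newform_eleven
  have h1 := hrel p hp.out.ne_zero
  rw [hap p hp.out h, ap11 h] at h1
  have h2 : ∑ d ∈ p.divisors with ¬ 11 ∣ d, (d : ℂ) = p + 1 :=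
    sum_divisors_prime (by norm_num) hp.out h
  rw [h2] at h1
  have h3 : rep4 Q11 p = Nat.card {v : Fin 4 → ℤ // v 0 ^ 2 + v 0 * v 1 + 3 * v 1 ^ 2 +
        v 2 ^ 2 + v 2 * v 3 + 3 * v 3 ^ 2 = p} := by
    rw [rep4_eq_card]
    refine Nat.card_congr (Equiv.subtypeEquivRight fun v => ?_)
    simp only [Q11]
    ring_nf
  rw [← h3]
  change 8 * pts11 p + _ = _
  have h4 : ((8 * pts11 p + 5 * rep4 Q11 p : ℕ) : ℂ) = ((20 * p + 12 : ℕ) : ℂ) := by
    push_cast
    rw [h1]
    push_cast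
    ring
  exact_mod_cast h4

end Fermat.Agent.Cor.QuatE

end
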