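import Fermat.Agent.Corollaries.QuatE.Lin
import Fermat.Agent.Corollaries.QuatE.Level11
import Fermat.Agent.Oldforms.Vq

/-!
# The quaternary form `x² + xy + 3y² + 3(z² + zw + 3w²)` of level `33`

Its theta series is a linear combination of Eisenstein series, of the newform of level `33`
attached to the curve `y² + xy = x³ + x² - 11x`, of the newform `g` of level `11` attached to the
curve `y² + y = x³ - x²` and of the oldform `g(3z)`. Hence the number of representations of a
prime by this form is expressed by the numbers of points of two elliptic curves.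
-/

set_option autoImplicit false

noncomputable section

namespace Fermat.Agent.Cor.QuatE

open UpperHalfPlane ModularForm CongruenceSubgroup ModularFormClass
open Fermat.Agent.LTF.Theta
open scoped MatrixGroups

/-- `y² + xy = x³ + x² - 11x` -/
def W33 : WeierstrassCurve ℤ := ⟨1, 1, 0, -11, 0⟩

theorem W33_Δ : W33.Δ = (88209 : ℕ) := by
  norm_num [W33, WeierstrassCurve.Δ, WeierstrassCurve.b₂, WeierstrassCurve.b₄,
    WeierstrassCurve.b₆, WeierstrassCurve.b₈]

theorem W33_c₄ : W33.c₄ = 553 := by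
  norm_num [W33, WeierstrassCurve.c₄, WeierstrassCurve.b₂, WeierstrassCurve.b₄]

theorem dvd_W33 {q : ℕ} (hq : q.Prime) : q ∣ 33 ↔ (q : ℤ) ∣ W33.Δ := by
  rw [W33_Δ, Int.natCast_dvd_natCast]
  constructor
  · intro h
    exact h.trans (by norm_num)
  · intro h
    rw [show (88209 : ℕ) = 3 ^ 6 * 11 ^ 2 by norm_num, hq.dvd_mul] at h
    rcases h with h | h
    · exact (hq.dvd_of_dvd_pow h).trans (by norm_num)
    · exact (hq.dvd_of_dvd_pow h).trans (by norm_num)

theorem W33_semistable : W33.IsSemistableModel := by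
  intro p hp h1 h
  rw [← dvd_W33 hp, show (33 : ℕ) = 3 * 11 from rfl, hp.dvd_mul,
    Nat.prime_dvd_prime_iff_eq hp (by norm_num), Nat.prime_dvd_prime_iff_eq hp (by norm_num)] at h1
  rw [W33_c₄] at h
  rcases h1 with rfl | rfl <;> norm_num at h

theorem psi33 : ModularCurve.dedekindPsi 33 = 48 := by
  rw [show (33 : ℕ) = 3 * 11 from rfl, P1Count.dedekindPsi_mul 3 11 (by norm_num),
    dedekindPsi_prime (by norm_num), dedekindPsi_prime (by norm_num)]

theorem pts33_two : Nat.card {q : ZMod 2 × ZMod 2 //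
    q.2 ^ 2 + (W33.a₁ : ZMod 2) * q.1 * q.2 + (W33.a₃ : ZMod 2) * q.2 =
      q.1 ^ 3 + (W33.a₂ : ZMod 2) * q.1 ^ 2 + (W33.a₄ : ZMod 2) * q.1 + (W33.a₆ : ZMod 2)} =
    1 := by
  rw [Nat.card_eq_fintype_card]
  simp only [W33]
  decide

theorem pts33_five : Nat.card {q : ZMod 5 × ZMod 5 //
    q.2 ^ 2 + (W33.a₁ : ZMod 5) * q.1 * q.2 + (W33.a₃ : ZMod 5) * q.2 =
      q.1 ^ 3 + (W33.a₂ : ZMod 5) * q.1 ^ 2 + (W33.a₄ : ZMod 5) * q.1 + (W33.a₆ : ZMod 5)} =
    7 := by
  rw [Nat.card_eq_fintype_card]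
  simp only [W33]
  decide

theorem pts33_seven : Nat.card {q : ZMod 7 × ZMod 7 //
    q.2 ^ 2 + (W33.a₁ : ZMod 7) * q.1 * q.2 + (W33.a₃ : ZMod 7) * q.2 =
      q.1 ^ 3 + (W33.a₂ : ZMod 7) * q.1 ^ 2 + (W33.a₄ : ZMod 7) * q.1 + (W33.a₆ : ZMod 7)} =
    3 := by
  rw [Nat.card_eq_fintype_card]
  simp only [W33]
  decide

theorem ap33_two : W33.apOfModel 2 = 1 := by
  have : Fact (Nat.Prime 2) := ⟨Nat.prime_two⟩
  have h2 : ¬ ((2 : ℕ) : ℤ) ∣ W33.Δ := by
    rw [← dvd_W33 Nat.prime_two]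
    norm_num
  rw [apOfModel_eq h2, pts33_two]
  norm_num

theorem ap33_five : W33.apOfModel 5 = -2 := by
  have : Fact (Nat.Prime 5) := ⟨Nat.prime_five⟩
  have h2 : ¬ ((5 : ℕ) : ℤ) ∣ W33.Δ := by
    rw [← dvd_W33 Nat.prime_five]
    norm_num
  rw [apOfModel_eq h2, pts33_five]
  norm_num

theorem ap33_seven : W33.apOfModel 7 = 4 := by
  have hp7 : Nat.Prime 7 := by norm_num
  have : Fact (Nat.Prime 7) := ⟨hp7⟩
  have h2 : ¬ ((7 : ℕ) : ℤ) ∣ W33.Δ := by
    rw [← dvd_W33 hp7]
    norm_num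
  rw [apOfModel_eq h2, pts33_seven]
  norm_num

section reps

theorem q11_rep (n : ℕ) (hn : n ≤ 12) : Q11.rep n =
    ((Finset.Icc (-(4 : ℕ) : ℤ) (4 : ℕ) ×ˢ Finset.Icc (-(4 : ℕ) : ℤ) (4 : ℕ)).filter
      (fun x : ℤ × ℤ => Q11.a * x.1 ^ 2 + Q11.b * x.1 * x.2 + Q11.c * x.2 ^ 2 = n)).card := by
  have hn' : (n : ℤ) ≤ 12 := by exact_mod_cast hn
  refine rep_eq_card Q11_pos 4 n ?_ ?_
  · rw [Q11_disc]
    simp only [Q11]
    push_cast
    linarith
  · rw [Q11_disc]
    simp only [Q11]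
    push_cast
    linarith

theorem q11_0 : Q11.rep 0 = 1 := by rw [q11_rep 0 (by norm_num)]; decide
theorem q11_1 : Q11.rep 1 = 2 := by rw [q11_rep 1 (by norm_num)]; decide
theorem q11_2 : Q11.rep 2 = 0 := by rw [q11_rep 2 (by norm_num)]; decide
theorem q11_3 : Q11.rep 3 = 4 := by rw [q11_rep 3 (by norm_num)]; decide
theorem q11_4 : Q11.rep 4 = 2 := by rw [q11_rep 4 (by norm_num)]; decide
theorem q11_5 : Q11.rep 5 = 4 := by rw [q11_rep 5 (by norm_num)]; decide
theorem q11_6 : Q11.rep 6 = 0 := by rw [q11_rep 6 (by norm_num)]; decide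
theorem q11_7 : Q11.rep 7 = 0 := by rw [q11_rep 7 (by norm_num)]; decide
theorem q11_8 : Q11.rep 8 = 0 := by rw [q11_rep 8 (by norm_num)]; decide
theorem q11_9 : Q11.rep 9 = 6 := by rw [q11_rep 9 (by norm_num)]; decide
theorem q11_10 : Q11.rep 10 = 0 := by rw [q11_rep 10 (by norm_num)]; decide
theorem q11_11 : Q11.rep 11 = 2 := by rw [q11_rep 11 (by norm_num)]; decide
theorem q11_12 : Q11.rep 12 = 4 := by rw [q11_rep 12 (by norm_num)]; decide

theorem c11_0 : cf Q11 Q11 1 0 = 1 := by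
  simp [cf, q11_0]
theorem c11_1 : cf Q11 Q11 1 1 = 4 := by
  simp [cf, Finset.sum_filter, Finset.sum_range_succ, q11_0, q11_1]
theorem c11_2 : cf Q11 Q11 1 2 = 4 := by
  simp [cf, Finset.sum_filter, Finset.sum_range_succ, q11_0, q11_1, q11_2]
theorem c11_3 : cf Q11 Q11 1 3 = 8 := by
  simp [cf, Finset.sum_filter, Finset.sum_range_succ, q11_0, q11_1, q11_2, q11_3]
theorem c11_4 : cf Q11 Q11 1 4 = 20 := by
  simp [cf, Finset.sum_filter, Finset.sum_range_succ, q11_0, q11_1, q11_2, q11_3, q11_4]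
theorem c11_5 : cf Q11 Q11 1 5 = 16 := by
  simp [cf, Finset.sum_filter, Finset.sum_range_succ, q11_0, q11_1, q11_2, q11_3, q11_4, q11_5]
theorem c11_6 : cf Q11 Q11 1 6 = 32 := by
  simp [cf, Finset.sum_filter, Finset.sum_range_succ, q11_0, q11_1, q11_2, q11_3, q11_4, q11_5, q11_6]
theorem c11_7 : cf Q11 Q11 1 7 = 16 := by
  simp [cf, Finset.sum_filter, Finset.sum_range_succ, q11_0, q11_1, q11_2, q11_3, q11_4, q11_5, q11_6, q11_7]
theorem c11_8 : cf Q11 Q11 1 8 = 36 := by
  simp [cf, Finset.sum_filter, Finset.sum_range_succ, q11_0, q11_1, q11_2, q11_3, q11_4, q11_5, q11_6, q11_7, q11_8]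
theorem c11_12 : cf Q11 Q11 1 12 = 64 := by
  simp [cf, Finset.sum_filter, Finset.sum_range_succ, q11_0, q11_1, q11_2, q11_3, q11_4, q11_5, q11_6, q11_7, q11_8, q11_9, q11_10, q11_11, q11_12]
theorem c33_0 : cf Q11 Q11 3 0 = 1 := by
  simp [cf, q11_0]
theorem c33_1 : cf Q11 Q11 3 1 = 2 := by
  simp [cf, Finset.sum_filter, Finset.sum_range_succ, q11_0, q11_1]
theorem c33_2 : cf Q11 Q11 3 2 = 0 := by
  simp [cf, Finset.sum_filter, Finset.sum_range_succ, q11_0, q11_2]
theorem c33_3 : cf Q11 Q11 3 3 = 6 := by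
  simp [cf, Finset.sum_filter, Finset.sum_range_succ, q11_0, q11_1, q11_3]
theorem c33_4 : cf Q11 Q11 3 4 = 6 := by
  simp [cf, Finset.sum_filter, Finset.sum_range_succ, q11_0, q11_1, q11_4]
theorem c33_5 : cf Q11 Q11 3 5 = 4 := by
  simp [cf, Finset.sum_filter, Finset.sum_range_succ, q11_0, q11_1, q11_2, q11_5]
theorem c33_6 : cf Q11 Q11 3 6 = 8 := by
  simp [cf, Finset.sum_filter, Finset.sum_range_succ, q11_0, q11_1, q11_2, q11_3, q11_6]
theorem c33_7 : cf Q11 Q11 3 7 = 4 := by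
  simp [cf, Finset.sum_filter, Finset.sum_range_succ, q11_0, q11_1, q11_2, q11_4, q11_7]
theorem c33_8 : cf Q11 Q11 3 8 = 8 := by
  simp [cf, Finset.sum_filter, Finset.sum_range_succ, q11_0, q11_1, q11_2, q11_5, q11_8]
theorem c33_12 : cf Q11 Q11 3 12 = 34 := by
  simp [cf, Finset.sum_filter, Finset.sum_range_succ, q11_0, q11_1, q11_2, q11_3, q11_4, q11_6, q11_9, q11_12]

end reps

/-- the coefficients of the newform of level `11` -/
theorem g11_val {g : CuspForm (Gamma0 11) 2} (hrel : ∀ n : ℕ, n ≠ 0 → 5 * (rep4 Q11 n : ℂ) =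
    12 * (∑ d ∈ n.divisors with ¬ 11 ∣ d, (d : ℂ)) + 8 * qCoeff g n) {n s r : ℕ} (hn : n ≠ 0)
    (hs : ∑ d ∈ n.divisors with ¬ 11 ∣ d, d = s) (hr : cf Q11 Q11 1 n = r) :
    qCoeff g n = (5 * (r : ℂ) - 12 * s) / 8 := by
  have h := hrel n hn
  rw [← cf_eq_rep4 Q11_pos, hr] at h
  rw [← hs]
  push_cast at h ⊢
  linear_combination (-1 / 8 : ℂ) * h

/-- **The theta series of `x² + xy + 3y² + 3(z² + zw + 3w²)`** is a combination of the newforms
of the elliptic curves `y² + xy = x³ + x² - 11x` (level `33`) and `y² + y = x³ - x²` (level `11`)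
and of Eisenstein series. -/
theorem exists_newform_thirtythree : ∃ (f : CuspForm (Gamma0 33) 2) (g : CuspForm (Gamma0 11) 2),
    f.IsNormalizedEigenform ∧ g.IsNormalizedEigenform ∧
    (∀ q : ℕ, q.Prime → ¬ q ∣ 33 → qCoeff f q = (W33.apOfModel q : ℂ)) ∧
    (∀ q : ℕ, q.Prime → q ≠ 11 → qCoeff g q = (W11.apOfModel q : ℂ)) ∧
    ∀ n : ℕ, 15 * (repc Q11 Q11 3 n : ℂ) = 5 * qCoeff f n + 16 * qCoeff g n +
      48 * (if 3 ∣ n then qCoeff g (n / 3) else 0) +
      3 / 8 * (eis 11 n + eis 33 n - eis 3 n) := by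
  obtain ⟨f, hf, hap⟩ := exists_form (W := W33) (N := 33) (by
      rw [show (33 : ℕ) = 3 * 11 from rfl, Nat.squarefree_mul (by norm_num)]
      exact ⟨Nat.prime_three.squarefree, (show Nat.Prime 11 by norm_num).squarefree⟩)
    (by rw [W33_Δ]; norm_num) W33_semistable (fun q hq => dvd_W33 hq)
  obtain ⟨g, hg, hapg, hrel⟩ := exists_newform_eleven
  refine ⟨f, g, hf, hg, hap, hapg, ?_⟩
  set t : ℂ := qCoeff f 3 with ht
  have h0 : qCoeff f 0 = 0 := CuspFormClass.qExpansion_coeff_zero f one_pos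
    (one_mem_strictPeriods_Gamma0 33)
  have h2 : qCoeff f 2 = 1 := by
    rw [hap 2 Nat.prime_two (by norm_num), ap33_two]
    norm_num
  have h5 : qCoeff f 5 = -2 := by
    rw [hap 5 Nat.prime_five (by norm_num), ap33_five]
    norm_num
  have h7 : qCoeff f 7 = 4 := by
    rw [hap 7 (by norm_num) (by norm_num), ap33_seven]
    norm_num
  have h4 : qCoeff f 4 = -1 := by
    have := hf.qCoeff_prime_pow_of_not_dvd 2 0 Nat.prime_two (by norm_num)
    norm_num at this
    rw [this, h2, hf.qCoeff_one]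
    norm_num
  have h8 : qCoeff f 8 = -3 := by
    have := hf.qCoeff_prime_pow_of_not_dvd 2 1 Nat.prime_two (by norm_num)
    norm_num at this
    rw [this, h2, h4]
    norm_num
  have h6 : qCoeff f 6 = t := by
    have := hf.qCoeff_mul_of_coprime 2 3 (by norm_num)
    norm_num at this
    rw [this, h2]
    ring
  have h12 : qCoeff f 12 = -t := by
    have := hf.qCoeff_mul_of_coprime 3 4 (by norm_num)
    norm_num at this
    rw [this, h4]
    ring
  have g0 : qCoeff g 0 = 0 := CuspFormClass.qExpansion_coeff_zero g one_pos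
    (one_mem_strictPeriods_Gamma0 11)
  have g1 := g11_val hrel (n := 1) (s := 1) (by norm_num) (by decide) c11_1
  have g2 := g11_val hrel (n := 2) (s := 3) (by norm_num) (by decide) c11_2
  have g3 := g11_val hrel (n := 3) (s := 4) (by norm_num) (by decide) c11_3
  have g4 := g11_val hrel (n := 4) (s := 7) (by norm_num) (by decide) c11_4
  have g5 := g11_val hrel (n := 5) (s := 6) (by norm_num) (by decide) c11_5
  have g6 := g11_val hrel (n := 6) (s := 12) (by norm_num) (by decide) c11_6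
  have g7 := g11_val hrel (n := 7) (s := 8) (by norm_num) (by decide) c11_7
  have g8 := g11_val hrel (n := 8) (s := 15) (by norm_num) (by decide) c11_8
  have g12 := g11_val hrel (n := 12) (s := 28) (by norm_num) (by decide) c11_12
  have e3 := IsMF.eis (N := 33) (D := 3) (by norm_num)
  have e11 := IsMF.eis (N := 33) (D := 11) (by norm_num)
  have e33 := IsMF.eis (N := 33) (D := 33) (by norm_num)
  have eg : IsMF 33 (fun n => qCoeff g n) := IsMF.of_dvd (by norm_num) (IsMF.cusp g)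
  have eV : IsMF 33 (fun n => if 3 ∣ n then qCoeff g (n / 3) else 0) :=
    (IsMF.cusp (Oldforms.V 2 three_ne_zero (show 33 = 3 * 11 from rfl) g)).congr fun n =>
      Oldforms.qCoeff_V 2 three_ne_zero (show 33 = 3 * 11 from rfl) g n
  have hMF : IsMF 33 (fun n => ((((cf Q11 Q11 3 n : ℂ) -
      (((t - 8) / 360 * eis 3 n + (28 - 5 * t) / 1320 * eis 11 n) +
        (103 + 4 * t) / 3960 * eis 33 n)) - 1 / 3 * qCoeff f n) - 16 / 15 * qCoeff g n) -
      (46 - 2 * t) / 15 * (if 3 ∣ n then qCoeff g (n / 3) else 0)) :=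
    ((((IsMF.theta Q11_pos Q11_pos rfl (c := 3) (by norm_num)
      (by rw [Q11_disc]; norm_num)).sub (((e3.smul _).add (e11.smul _)).add (e33.smul _))).sub
      ((IsMF.cusp f).smul _)).sub (eg.smul _)).sub (eV.smul _)
  have hz := hMF.eq_zero (fun n hn => by
    rw [psi33] at hn
    have hn' : n ≤ 8 := by omega
    interval_cases n
    · rw [h0, g0, c33_0, eis, eis, eis, if_pos rfl, if_pos rfl, if_pos rfl, if_pos (by norm_num)]
      push_cast
      ring
    · rw [hf.qCoeff_one, g1, c33_1, eis_val (D := 3) (s := 1) (by norm_num) (by decide),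
        eis_val (D := 11) (s := 1) (by norm_num) (by decide),
        eis_val (D := 33) (s := 1) (by norm_num) (by decide), if_neg (by norm_num)]
      push_cast
      ring
    · rw [h2, g2, c33_2, eis_val (D := 3) (s := 3) (by norm_num) (by decide),
        eis_val (D := 11) (s := 3) (by norm_num) (by decide),
        eis_val (D := 33) (s := 3) (by norm_num) (by decide), if_neg (by norm_num)]
      push_cast
      ring
    · rw [← ht, g3, c33_3, eis_val (D := 3) (s := 1) (by norm_num) (by decide),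
        eis_val (D := 11) (s := 4) (by norm_num) (by decide),
        eis_val (D := 33) (s := 4) (by norm_num) (by decide), if_pos (by norm_num),
        show 3 / 3 = 1 from rfl, g1]
      push_cast
      ring
    · rw [h4, g4, c33_4, eis_val (D := 3) (s := 7) (by norm_num) (by decide),
        eis_val (D := 11) (s := 7) (by norm_num) (by decide),
        eis_val (D := 33) (s := 7) (by norm_num) (by decide), if_neg (by norm_num)]
      push_cast
      ring
    · rw [h5, g5, c33_5, eis_val (D := 3) (s := 6) (by norm_num) (by decide),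
        eis_val (D := 11) (s := 6) (by norm_num) (by decide),
        eis_val (D := 33) (s := 6) (by norm_num) (by decide), if_neg (by norm_num)]
      push_cast
      ring
    · rw [h6, g6, c33_6, eis_val (D := 3) (s := 3) (by norm_num) (by decide),
        eis_val (D := 11) (s := 12) (by norm_num) (by decide),
        eis_val (D := 33) (s := 12) (by norm_num) (by decide), if_pos (by norm_num),
        show 6 / 3 = 2 from rfl, g2]
      push_cast
      ring
    · rw [h7, g7, c33_7, eis_val (D := 3) (s := 8) (by norm_num) (by decide),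
        eis_val (D := 11) (s := 8) (by norm_num) (by decide),
        eis_val (D := 33) (s := 8) (by norm_num) (by decide), if_neg (by norm_num)]
      push_cast
      ring
    · rw [h8, g8, c33_8, eis_val (D := 3) (s := 15) (by norm_num) (by decide),
        eis_val (D := 11) (s := 15) (by norm_num) (by decide),
        eis_val (D := 33) (s := 15) (by norm_num) (by decide), if_neg (by norm_num)]
      push_cast
      ring)
  have ht1 : t = -1 := by
    have h := hz 12
    rw [h12, g12, c33_12, eis_val (D := 3) (s := 7) (by norm_num) (by decide),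
        eis_val (D := 11) (s := 28) (by norm_num) (by decide),
        eis_val (D := 33) (s := 28) (by norm_num) (by decide), if_pos (by norm_num),
        show 12 / 3 = 4 from rfl, g4] at h
    push_cast at h
    linear_combination (1 / 2 : ℂ) * h
  intro n
  have h := hz n
  rw [ht1, cf_eq_repc Q11_pos Q11_pos (by norm_num)] at h
  linear_combination 15 * h

/-- **Numbers of points of two elliptic curves modulo `p`, of conductors `11` and `33`**, and
representations of `p` by `x² + xy + 3y² + 3(z² + zw + 3w²)`. -/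
theorem thirtythree {p : ℕ} [hp : Fact p.Prime] (h : ¬ p ∣ 33) :
    5 * Nat.card {q : ZMod p × ZMod p // q.2 ^ 2 + q.1 * q.2 = q.1 ^ 3 + q.1 ^ 2 - 11 * q.1} +
      16 * Nat.card {q : ZMod p × ZMod p // q.2 ^ 2 + q.2 = q.1 ^ 3 - q.1 ^ 2} +
      15 * Nat.card {v : Fin 4 → ℤ // v 0 ^ 2 + v 0 * v 1 + 3 * v 1 ^ 2 +
        3 * (v 2 ^ 2 + v 2 * v 3 + 3 * v 3 ^ 2) = p} = 30 * p + 9 := by
  obtain ⟨f, g, -, -, hap, hapg, hrel⟩ := exists_newform_thirtythree
  have h3' : ¬ p ∣ 3 := fun hd => h (hd.trans (by norm_num))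
  have h11' : ¬ p ∣ 11 := fun hd => h (hd.trans (by norm_num))
  have h11 : p ≠ 11 := fun h1 => h11' (h1 ▸ dvd_rfl)
  have h1 := hrel p
  have h3 : ¬ 3 ∣ p := fun hd => h3' (by
    rw [(Nat.prime_dvd_prime_iff_eq Nat.prime_three hp.out).mp hd])
  rw [hap p hp.out h, hapg p hp.out h11, apOfModel_eq (by rw [← dvd_W33 hp.out]; exact h),
    ap11 h11, if_neg h3, eis_prime (by norm_num) hp.out h3', eis_prime (by norm_num) hp.out h11',
    eis_prime (by norm_num) hp.out h] at h1
  have h2 : Nat.card {q : ZMod p × ZMod p //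
      q.2 ^ 2 + (W33.a₁ : ZMod p) * q.1 * q.2 + (W33.a₃ : ZMod p) * q.2 =
        q.1 ^ 3 + (W33.a₂ : ZMod p) * q.1 ^ 2 + (W33.a₄ : ZMod p) * q.1 + (W33.a₆ : ZMod p)} =
      Nat.card {q : ZMod p × ZMod p //
        q.2 ^ 2 + q.1 * q.2 = q.1 ^ 3 + q.1 ^ 2 - 11 * q.1} := by
    refine Nat.card_congr (Equiv.subtypeEquivRight fun q => ?_)
    simp only [W33]
    push_cast
    ring_nf
  rw [h2] at h1
  have h4 : repc Q11 Q11 3 p = Nat.card {v : Fin 4 → ℤ // v 0 ^ 2 + v 0 * v 1 + 3 * v 1 ^ 2 +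
        3 * (v 2 ^ 2 + v 2 * v 3 + 3 * v 3 ^ 2) = p} := by
    rw [repc_eq_card]
    refine Nat.card_congr (Equiv.subtypeEquivRight fun v => ?_)
    simp only [Q11]
    push_cast
    ring_nf
  rw [← h4]
  change _ + 16 * pts11 p + _ = _
  have h5 : ((5 * Nat.card {q : ZMod p × ZMod p //
        q.2 ^ 2 + q.1 * q.2 = q.1 ^ 3 + q.1 ^ 2 - 11 * q.1} + 16 * pts11 p +
      15 * repc Q11 Q11 3 p : ℕ) : ℂ) = ((30 * p + 9 : ℕ) : ℂ) := by
    push_cast at h1 ⊢
    linear_combination h1
  exact_mod_cast h5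

end Fermat.Agent.Cor.QuatE

end
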