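import Fermat.Agent.Corollaries.QuatE.Level15Forms
import Fermat.Agent.Corollaries.QuatE.Level19
import Fermat.Agent.Corollaries.QuatE.Level14
import Fermat.Agent.Corollaries.QuatE.Level33
import Fermat.Agent.Corollaries.HW.Hasse

/-!
# Numbers of representations by quaternary forms, with the optimal error term

For the quaternary forms of levels `11`, `14`, `15`, `19`, `21`, `33` the number of
representations of `n ≥ 1` is a divisor sum (the coefficient of an Eisenstein series) up to an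
error `O(d(n) √n)` with explicit constants: the coefficients of the newforms satisfy Hasse's bound
`|a_p| ≤ 2 √p`, because these newforms are attached to elliptic curves.
-/

set_option autoImplicit false

noncomputable section

namespace Fermat.Agent.Cor.QuatE

open UpperHalfPlane ModularForm CongruenceSubgroup ModularFormClass
open Fermat.Agent.LTF.Theta
open scoped MatrixGroups

/-- an eigenform with the coefficients of an elliptic curve at the good primes and bounded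
coefficients at the bad primes satisfies Hasse's bound -/
theorem isHasse_of {N : ℕ} {W : WeierstrassCurve ℤ} {f : CuspForm (Gamma0 N) 2}
    (h : ∀ q : ℕ, q.Prime → (q : ℤ) ∣ W.Δ → q ∣ N)
    (hgood : ∀ q : ℕ, q.Prime → ¬ q ∣ N → qCoeff f q = (W.apOfModel q : ℂ))
    (hbad : ∀ q : ℕ, q.Prime → q ∣ N → ‖qCoeff f q‖ ≤ 1) : HW.IsHasse f := by
  intro p hp
  by_cases hN : p ∣ N
  · refine ⟨qCoeff f p, 0, (hbad p hp hN).trans ?_, by rw [norm_zero]; positivity, add_zero _, ?_⟩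
    · rw [Real.one_le_sqrt]
      exact_mod_cast hp.one_lt.le
    · rw [mul_zero, if_pos hN]
  · have h1 := HW.apOfModel_sq_le (W := W) hp fun hd => hN (h p hp hd)
    have h2 : ((W.apOfModel p : ℤ) : ℝ) ^ 2 ≤ 4 * (p : ℝ) := by exact_mod_cast h1
    obtain ⟨α, β, ha, hb, hs, hm⟩ := HW.exists_roots h2
    refine ⟨α, β, ha, hb, ?_, ?_⟩
    · rw [hs, hgood p hp hN]
      push_cast
      rfl
    · rw [hm, if_neg hN]
      push_cast
      rfl

theorem abs_le_of_norm {x : ℂ} {y B : ℝ} (h : x = (y : ℂ)) (hx : ‖x‖ ≤ B) : |y| ≤ B := by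
  rw [h, Complex.norm_real, Real.norm_eq_abs] at hx
  exact hx

/-! ### level 11 -/

theorem c11_11 : cf Q11 Q11 1 11 = 4 := by
  simp [cf, Finset.sum_filter, Finset.sum_range_succ, q11_0, q11_1, q11_2, q11_3, q11_4, q11_5,
    q11_6, q11_7, q11_8, q11_9, q11_10, q11_11]

theorem isHasse_eleven {f : CuspForm (Gamma0 11) 2}
    (hap : ∀ q : ℕ, q.Prime → q ≠ 11 → qCoeff f q = (W11.apOfModel q : ℂ))
    (hrel : ∀ n : ℕ, n ≠ 0 → 5 * (rep4 Q11 n : ℂ) =
      12 * (∑ d ∈ n.divisors with ¬ 11 ∣ d, (d : ℂ)) + 8 * qCoeff f n) : HW.IsHasse f := by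
  have hp11 : Nat.Prime 11 := by norm_num
  refine isHasse_of (W := W11) (fun q hq h => ?_) (fun q hq h => hap q hq ?_) fun q hq h => ?_
  · rw [W11_Δ, dvd_neg, Int.natCast_dvd_natCast] at h
    exact h
  · rintro rfl
    exact h dvd_rfl
  · rw [(Nat.prime_dvd_prime_iff_eq hq hp11).mp h,
      g11_val hrel (n := 11) (s := 1) (by norm_num) (by decide) c11_11]
    norm_num

/-- **Representations by `x² + xy + 3y² + z² + zw + 3w²`.** -/
theorem asymp_eleven {n : ℕ} (hn : n ≠ 0) :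
    |5 * (Nat.card {v : Fin 4 → ℤ // v 0 ^ 2 + v 0 * v 1 + 3 * v 1 ^ 2 +
        v 2 ^ 2 + v 2 * v 3 + 3 * v 3 ^ 2 = n} : ℝ) -
      12 * ∑ d ∈ n.divisors with ¬ 11 ∣ d, (d : ℝ)| ≤ 8 * (n.divisors.card * √n) := by
  obtain ⟨f, hf, hap, hrel⟩ := exists_newform_eleven
  have h1 := HW.norm_qCoeff_le hf (isHasse_eleven hap hrel) n
  have h3 : rep4 Q11 n = Nat.card {v : Fin 4 → ℤ // v 0 ^ 2 + v 0 * v 1 + 3 * v 1 ^ 2 +
        v 2 ^ 2 + v 2 * v 3 + 3 * v 3 ^ 2 = n} := by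
    rw [rep4_eq_card]
    refine Nat.card_congr (Equiv.subtypeEquivRight fun v => ?_)
    simp only [Q11]
    ring_nf
  have h2 := hrel n hn
  rw [h3] at h2
  have h4 := abs_le_of_norm (y := (5 * (Nat.card {v : Fin 4 → ℤ // v 0 ^ 2 + v 0 * v 1 +
      3 * v 1 ^ 2 + v 2 ^ 2 + v 2 * v 3 + 3 * v 3 ^ 2 = n} : ℝ) -
      12 * ∑ d ∈ n.divisors with ¬ 11 ∣ d, (d : ℝ)) / 8) (by
    push_cast
    linear_combination (-1 / 8 : ℂ) * h2) h1
  rw [abs_div, abs_of_pos (show (0 : ℝ) < 8 by norm_num), div_le_iff₀ (by norm_num)] at h4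
  linarith

/-! ### level 19 -/

theorem q19_rep (n : ℕ) (hn : n ≤ 19) : Q19.rep n =
    ((Finset.Icc (-(5 : ℕ) : ℤ) (5 : ℕ) ×ˢ Finset.Icc (-(5 : ℕ) : ℤ) (5 : ℕ)).filter
      (fun x : ℤ × ℤ => Q19.a * x.1 ^ 2 + Q19.b * x.1 * x.2 + Q19.c * x.2 ^ 2 = n)).card := by
  have hn' : (n : ℤ) ≤ 19 := by exact_mod_cast hn
  refine rep_eq_card Q19_pos 5 n ?_ ?_
  · rw [Q19_disc]
    simp only [Q19]
    push_cast
    linarith
  · rw [Q19_disc]
    simp only [Q19]
    push_cast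
    linarith

theorem q19_0 : Q19.rep 0 = 1 := by rw [q19_rep 0 (by norm_num)]; decide
theorem q19_1 : Q19.rep 1 = 2 := by rw [q19_rep 1 (by norm_num)]; decide
theorem q19_2 : Q19.rep 2 = 0 := by rw [q19_rep 2 (by norm_num)]; decide
theorem q19_3 : Q19.rep 3 = 0 := by rw [q19_rep 3 (by norm_num)]; decide
theorem q19_4 : Q19.rep 4 = 2 := by rw [q19_rep 4 (by norm_num)]; decide
theorem q19_5 : Q19.rep 5 = 4 := by rw [q19_rep 5 (by norm_num)]; decide
theorem q19_6 : Q19.rep 6 = 0 := by rw [q19_rep 6 (by norm_num)]; decide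
theorem q19_7 : Q19.rep 7 = 4 := by rw [q19_rep 7 (by norm_num)]; decide
theorem q19_8 : Q19.rep 8 = 0 := by rw [q19_rep 8 (by norm_num)]; decide
theorem q19_9 : Q19.rep 9 = 2 := by rw [q19_rep 9 (by norm_num)]; decide
theorem q19_10 : Q19.rep 10 = 0 := by rw [q19_rep 10 (by norm_num)]; decide
theorem q19_11 : Q19.rep 11 = 4 := by rw [q19_rep 11 (by norm_num)]; decide
theorem q19_12 : Q19.rep 12 = 0 := by rw [q19_rep 12 (by norm_num)]; decide
theorem q19_13 : Q19.rep 13 = 0 := by rw [q19_rep 13 (by norm_num)]; decide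
theorem q19_14 : Q19.rep 14 = 0 := by rw [q19_rep 14 (by norm_num)]; decide
theorem q19_15 : Q19.rep 15 = 0 := by rw [q19_rep 15 (by norm_num)]; decide
theorem q19_16 : Q19.rep 16 = 2 := by rw [q19_rep 16 (by norm_num)]; decide
theorem q19_17 : Q19.rep 17 = 4 := by rw [q19_rep 17 (by norm_num)]; decide
theorem q19_18 : Q19.rep 18 = 0 := by rw [q19_rep 18 (by norm_num)]; decide
theorem q19_19 : Q19.rep 19 = 2 := by rw [q19_rep 19 (by norm_num)]; decide

theorem c19_19 : cf Q19 Q19 1 19 = 4 := by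
  simp [cf, Finset.sum_filter, Finset.sum_range_succ, q19_0, q19_1, q19_2, q19_3, q19_4, q19_5, q19_6, q19_7, q19_8, q19_9, q19_10, q19_11, q19_12, q19_13, q19_14, q19_15, q19_16, q19_17, q19_18, q19_19]

theorem isHasse_nineteen {f : CuspForm (Gamma0 19) 2}
    (hap : ∀ q : ℕ, q.Prime → q ≠ 19 → qCoeff f q = (W19.apOfModel q : ℂ))
    (hrel : ∀ n : ℕ, n ≠ 0 → 3 * (rep4 Q19 n : ℂ) =
      4 * (∑ d ∈ n.divisors with ¬ 19 ∣ d, (d : ℂ)) + 8 * qCoeff f n) : HW.IsHasse f := by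
  have hp19 : Nat.Prime 19 := by norm_num
  refine isHasse_of (W := W19) (fun q hq h => ?_) (fun q hq h => hap q hq ?_) fun q hq h => ?_
  · rw [W19_Δ, dvd_neg, Int.natCast_dvd_natCast] at h
    exact h
  · rintro rfl
    exact h dvd_rfl
  · rw [(Nat.prime_dvd_prime_iff_eq hq hp19).mp h]
    have h1 := hrel 19 (by norm_num)
    have h2 : ∑ d ∈ (19 : ℕ).divisors with ¬ 19 ∣ d, (d : ℂ) = 1 := by
      have h3 : ∑ d ∈ (19 : ℕ).divisors with ¬ 19 ∣ d, d = 1 := by decide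
      have h4 := congrArg (Nat.cast : ℕ → ℂ) h3
      push_cast at h4
      exact h4
    rw [← cf_eq_rep4 Q19_pos, c19_19, h2] at h1
    have h4 : qCoeff f 19 = 1 := by
      push_cast at h1
      linear_combination (-1 / 8 : ℂ) * h1
    rw [h4, norm_one]

/-- **Representations by `x² + xy + 5y² + z² + zw + 5w²`.** -/
theorem asymp_nineteen {n : ℕ} (hn : n ≠ 0) :
    |3 * (Nat.card {v : Fin 4 → ℤ // v 0 ^ 2 + v 0 * v 1 + 5 * v 1 ^ 2 +
        v 2 ^ 2 + v 2 * v 3 + 5 * v 3 ^ 2 = n} : ℝ) -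
      4 * ∑ d ∈ n.divisors with ¬ 19 ∣ d, (d : ℝ)| ≤ 8 * (n.divisors.card * √n) := by
  obtain ⟨f, hf, hap, hrel⟩ := exists_newform_nineteen
  have h1 := HW.norm_qCoeff_le hf (isHasse_nineteen hap hrel) n
  have h3 : rep4 Q19 n = Nat.card {v : Fin 4 → ℤ // v 0 ^ 2 + v 0 * v 1 + 5 * v 1 ^ 2 +
        v 2 ^ 2 + v 2 * v 3 + 5 * v 3 ^ 2 = n} := by
    rw [rep4_eq_card]
    refine Nat.card_congr (Equiv.subtypeEquivRight fun v => ?_)
    simp only [Q19]
    ring_nf
  have h2 := hrel n hn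
  rw [h3] at h2
  have h4 := abs_le_of_norm (y := (3 * (Nat.card {v : Fin 4 → ℤ // v 0 ^ 2 + v 0 * v 1 +
      5 * v 1 ^ 2 + v 2 ^ 2 + v 2 * v 3 + 5 * v 3 ^ 2 = n} : ℝ) -
      4 * ∑ d ∈ n.divisors with ¬ 19 ∣ d, (d : ℝ)) / 8) (by
    push_cast
    linear_combination (-1 / 8 : ℂ) * h2) h1
  rw [abs_div, abs_of_pos (show (0 : ℝ) < 8 by norm_num), div_le_iff₀ (by norm_num)] at h4
  linarith

/-! ### level 15 -/

/-- the divisor sum `∑_{d ∣ n, D ∤ d} d` -/
def sg (D n : ℕ) : ℕ := ∑ d ∈ n.divisors with ¬ D ∣ d, d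

theorem eis_eq_sg {D n : ℕ} (hn : n ≠ 0) : eis D n = 24 * (sg D n : ℂ) := eis_val hn rfl

theorem cq15_5 : cf Q15 Q15 1 5 = 24 := by
  simp [cf, Finset.sum_filter, Finset.sum_range_succ, q15_0, q15_1, q15_2, q15_3, q15_4, q15_5]

theorem cr15_5 : cf R15 R15 1 5 = 20 := by
  simp [cf, Finset.sum_filter, Finset.sum_range_succ, r15_0, r15_1, r15_2, r15_3, r15_4, r15_5]

theorem isHasse_fifteen {f : CuspForm (Gamma0 15) 2}
    (hap : ∀ q : ℕ, q.Prime → ¬ q ∣ 15 → qCoeff f q = (W15.apOfModel q : ℂ))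
    (hrel : ∀ n : ℕ, 4 * qCoeff f n = (repc Q15 Q15 1 n : ℂ) - (repc R15 R15 1 n : ℂ)) :
    HW.IsHasse f := by
  refine isHasse_of (W := W15) (fun q _ h => (dvd_W15 q).mpr h) (fun q hq h => hap q hq h)
    fun q hq h => ?_
  rw [show (15 : ℕ) = 3 * 5 from rfl, hq.dvd_mul, Nat.prime_dvd_prime_iff_eq hq (by norm_num),
    Nat.prime_dvd_prime_iff_eq hq (by norm_num)] at h
  rcases h with rfl | rfl
  · have h1 := hrel 3
    rw [← cf_eq_repc Q15_pos Q15_pos one_pos, ← cf_eq_repc R15_pos R15_pos one_pos, cq15_3,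
      cr15_3] at h1
    have h4 : qCoeff f 3 = -1 := by
      push_cast at h1
      linear_combination (1 / 4 : ℂ) * h1
    rw [h4, norm_neg, norm_one]
  · have h1 := hrel 5
    rw [← cf_eq_repc Q15_pos Q15_pos one_pos, ← cf_eq_repc R15_pos R15_pos one_pos, cq15_5,
      cr15_5] at h1
    have h4 : qCoeff f 5 = 1 := by
      push_cast at h1
      linear_combination (1 / 4 : ℂ) * h1
    rw [h4, norm_one]

/-- **Representations by `x² + xy + 4y² + z² + zw + 4w²`.** -/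
theorem asymp_fifteen_one {n : ℕ} (hn : n ≠ 0) :
    |(Nat.card {v : Fin 4 → ℤ // v 0 ^ 2 + v 0 * v 1 + 4 * v 1 ^ 2 +
        v 2 ^ 2 + v 2 * v 3 + 4 * v 3 ^ 2 = n} : ℝ) -
      2 * (∑ d ∈ n.divisors with ¬ 3 ∣ d, (d : ℝ) - ∑ d ∈ n.divisors with ¬ 5 ∣ d, (d : ℝ) +
        ∑ d ∈ n.divisors with ¬ 15 ∣ d, (d : ℝ))| ≤ 2 * (n.divisors.card * √n) := by
  obtain ⟨f, hf, hap, hrel⟩ := exists_newform_fifteen
  have h1 := HW.norm_qCoeff_le hf (isHasse_fifteen hap hrel) n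
  have h2 := hrel n
  have h3 := sum_fifteen n
  rw [eis_eq_sg hn, eis_eq_sg hn, eis_eq_sg hn] at h3
  have h5 := repc_15a n
  unfold F15a at h5
  have h4 := abs_le_of_norm (y := ((repc Q15 Q15 1 n : ℝ) -
      2 * ((sg 3 n : ℝ) - (sg 5 n : ℝ) + (sg 15 n : ℝ))) / 2) (by
    push_cast
    linear_combination (1 / 4 : ℂ) * h2 - (1 / 4 : ℂ) * h3) h1
  rw [abs_div, abs_of_pos (show (0 : ℝ) < 2 by norm_num), div_le_iff₀ (by norm_num), h5] at h4
  unfold sg at h4
  push_cast at h4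
  linarith

/-- **Representations by `2x² + xy + 2y² + 2z² + zw + 2w²`.** -/
theorem asymp_fifteen_two {n : ℕ} (hn : n ≠ 0) :
    |(Nat.card {v : Fin 4 → ℤ // 2 * v 0 ^ 2 + v 0 * v 1 + 2 * v 1 ^ 2 +
        2 * v 2 ^ 2 + v 2 * v 3 + 2 * v 3 ^ 2 = n} : ℝ) -
      2 * (∑ d ∈ n.divisors with ¬ 3 ∣ d, (d : ℝ) - ∑ d ∈ n.divisors with ¬ 5 ∣ d, (d : ℝ) +
        ∑ d ∈ n.divisors with ¬ 15 ∣ d, (d : ℝ))| ≤ 2 * (n.divisors.card * √n) := by
  obtain ⟨f, hf, hap, hrel⟩ := exists_newform_fifteen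
  have h1 := HW.norm_qCoeff_le hf (isHasse_fifteen hap hrel) n
  have h2 := hrel n
  have h3 := sum_fifteen n
  rw [eis_eq_sg hn, eis_eq_sg hn, eis_eq_sg hn] at h3
  have h5 := repc_15b n
  unfold F15b at h5
  have h4 := abs_le_of_norm (y := (2 * ((sg 3 n : ℝ) - (sg 5 n : ℝ) + (sg 15 n : ℝ)) -
      (repc R15 R15 1 n : ℝ)) / 2) (by
    push_cast
    linear_combination (1 / 4 : ℂ) * h2 + (1 / 4 : ℂ) * h3) h1
  rw [abs_div, abs_of_pos (show (0 : ℝ) < 2 by norm_num), div_le_iff₀ (by norm_num), h5,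
    abs_sub_comm] at h4
  unfold sg at h4
  push_cast at h4
  linarith

/-! ### levels 14 and 21 -/

theorem q7_7 : Q7.rep 7 = 2 := by
  rw [rep_eq_card Q7_pos 2 7 (by rw [Q7_disc]; norm_num [Q7]) (by rw [Q7_disc]; norm_num [Q7])]
  decide

theorem c14_7 : cf Q7 Q7 2 7 = 2 := by
  simp [cf, Finset.sum_filter, Finset.sum_range_succ, q7_0, q7_1, q7_2, q7_3, q7_5, q7_7]

theorem c21_7 : cf Q7 Q7 3 7 = 22 := by
  simp [cf, Finset.sum_filter, Finset.sum_range_succ, q7_0, q7_1, q7_2, q7_4, q7_7]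

theorem isHasse_fourteen {f : CuspForm (Gamma0 14) 2}
    (hap : ∀ q : ℕ, q.Prime → ¬ q ∣ 14 → qCoeff f q = (W14.apOfModel q : ℂ))
    (hrel : ∀ n : ℕ, 2 * qCoeff f n = 3 * (repc Q7 Q7 2 n : ℂ) +
      (eis 2 n - eis 7 n - eis 14 n) / 6) : HW.IsHasse f := by
  refine isHasse_of (W := W14) (fun q hq h => (dvd_W14 hq).mpr h) (fun q hq h => hap q hq h)
    fun q hq h => ?_
  rw [show (14 : ℕ) = 2 * 7 from rfl, hq.dvd_mul, Nat.prime_dvd_prime_iff_eq hq (by norm_num),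
    Nat.prime_dvd_prime_iff_eq hq (by norm_num)] at h
  rcases h with rfl | rfl
  · have h1 := hrel 2
    rw [← cf_eq_repc Q7_pos Q7_pos (by norm_num), c14_2,
      eis_val (D := 2) (s := 1) (by norm_num) (by decide),
      eis_val (D := 7) (s := 3) (by norm_num) (by decide),
      eis_val (D := 14) (s := 3) (by norm_num) (by decide)] at h1
    have h4 : qCoeff f 2 = -1 := by
      push_cast at h1
      linear_combination (1 / 2 : ℂ) * h1
    rw [h4, norm_neg, norm_one]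
  · have h1 := hrel 7
    rw [← cf_eq_repc Q7_pos Q7_pos (by norm_num), c14_7,
      eis_val (D := 2) (s := 8) (by norm_num) (by decide),
      eis_val (D := 7) (s := 1) (by norm_num) (by decide),
      eis_val (D := 14) (s := 8) (by norm_num) (by decide)] at h1
    have h4 : qCoeff f 7 = 1 := by
      push_cast at h1
      linear_combination (1 / 2 : ℂ) * h1
    rw [h4, norm_one]

/-- **Representations by `x² + xy + 2y² + 2(z² + zw + 2w²)`.** -/
theorem asymp_fourteen {n : ℕ} (hn : n ≠ 0) :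
    |3 * (Nat.card {v : Fin 4 → ℤ // v 0 ^ 2 + v 0 * v 1 + 2 * v 1 ^ 2 +
        2 * (v 2 ^ 2 + v 2 * v 3 + 2 * v 3 ^ 2) = n} : ℝ) -
      4 * (∑ d ∈ n.divisors with ¬ 7 ∣ d, (d : ℝ) + ∑ d ∈ n.divisors with ¬ 14 ∣ d, (d : ℝ) -
        ∑ d ∈ n.divisors with ¬ 2 ∣ d, (d : ℝ))| ≤ 2 * (n.divisors.card * √n) := by
  obtain ⟨f, hf, hap, hrel⟩ := exists_newform_fourteen
  have h1 := HW.norm_qCoeff_le hf (isHasse_fourteen hap hrel) n
  have h2 := hrel n
  rw [eis_eq_sg hn, eis_eq_sg hn, eis_eq_sg hn] at h2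
  have h5 : repc Q7 Q7 2 n = Nat.card {v : Fin 4 → ℤ // v 0 ^ 2 + v 0 * v 1 + 2 * v 1 ^ 2 +
        2 * (v 2 ^ 2 + v 2 * v 3 + 2 * v 3 ^ 2) = n} := by
    rw [repc_eq_card]
    refine Nat.card_congr (Equiv.subtypeEquivRight fun v => ?_)
    simp only [Q7]
    push_cast
    ring_nf
  have h4 := abs_le_of_norm (y := (3 * (repc Q7 Q7 2 n : ℝ) -
      4 * ((sg 7 n : ℝ) + (sg 14 n : ℝ) - (sg 2 n : ℝ))) / 2) (by
    push_cast
    linear_combination (1 / 2 : ℂ) * h2) h1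
  rw [abs_div, abs_of_pos (show (0 : ℝ) < 2 by norm_num), div_le_iff₀ (by norm_num), h5] at h4
  unfold sg at h4
  push_cast at h4
  linarith

theorem isHasse_twentyone {f : CuspForm (Gamma0 21) 2}
    (hap : ∀ q : ℕ, q.Prime → ¬ q ∣ 21 → qCoeff f q = (W21.apOfModel q : ℂ))
    (hrel : ∀ n : ℕ, qCoeff f n = 2 * (repc Q7 Q7 3 n : ℂ) -
      (eis 3 n - eis 7 n + eis 21 n) / 8) : HW.IsHasse f := by
  refine isHasse_of (W := W21) (fun q hq h => (dvd_W21 hq).mpr h) (fun q hq h => hap q hq h)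
    fun q hq h => ?_
  rw [show (21 : ℕ) = 3 * 7 from rfl, hq.dvd_mul, Nat.prime_dvd_prime_iff_eq hq (by norm_num),
    Nat.prime_dvd_prime_iff_eq hq (by norm_num)] at h
  rcases h with rfl | rfl
  · have h1 := hrel 3
    rw [← cf_eq_repc Q7_pos Q7_pos (by norm_num), c21_3,
      eis_val (D := 3) (s := 1) (by norm_num) (by decide),
      eis_val (D := 7) (s := 4) (by norm_num) (by decide),
      eis_val (D := 21) (s := 4) (by norm_num) (by decide)] at h1
    have h4 : qCoeff f 3 = 1 := by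
      push_cast at h1
      linear_combination h1
    rw [h4, norm_one]
  · have h1 := hrel 7
    rw [← cf_eq_repc Q7_pos Q7_pos (by norm_num), c21_7,
      eis_val (D := 3) (s := 8) (by norm_num) (by decide),
      eis_val (D := 7) (s := 1) (by norm_num) (by decide),
      eis_val (D := 21) (s := 8) (by norm_num) (by decide)] at h1
    have h4 : qCoeff f 7 = -1 := by
      push_cast at h1
      linear_combination h1
    rw [h4, norm_neg, norm_one]

/-- **Representations by `x² + xy + 2y² + 3(z² + zw + 2w²)`.** -/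
theorem asymp_twentyone {n : ℕ} (hn : n ≠ 0) :
    |2 * (Nat.card {v : Fin 4 → ℤ // v 0 ^ 2 + v 0 * v 1 + 2 * v 1 ^ 2 +
        3 * (v 2 ^ 2 + v 2 * v 3 + 2 * v 3 ^ 2) = n} : ℝ) -
      3 * (∑ d ∈ n.divisors with ¬ 3 ∣ d, (d : ℝ) - ∑ d ∈ n.divisors with ¬ 7 ∣ d, (d : ℝ) +
        ∑ d ∈ n.divisors with ¬ 21 ∣ d, (d : ℝ))| ≤ n.divisors.card * √n := by
  obtain ⟨f, hf, hap, hrel⟩ := exists_newform_twentyone
  have h1 := HW.norm_qCoeff_le hf (isHasse_twentyone hap hrel) n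
  have h2 := hrel n
  rw [eis_eq_sg hn, eis_eq_sg hn, eis_eq_sg hn] at h2
  have h5 : repc Q7 Q7 3 n = Nat.card {v : Fin 4 → ℤ // v 0 ^ 2 + v 0 * v 1 + 2 * v 1 ^ 2 +
        3 * (v 2 ^ 2 + v 2 * v 3 + 2 * v 3 ^ 2) = n} := by
    rw [repc_eq_card]
    refine Nat.card_congr (Equiv.subtypeEquivRight fun v => ?_)
    simp only [Q7]
    push_cast
    ring_nf
  have h4 := abs_le_of_norm (y := 2 * (repc Q7 Q7 3 n : ℝ) -
      3 * ((sg 3 n : ℝ) - (sg 7 n : ℝ) + (sg 21 n : ℝ))) (by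
    push_cast
    linear_combination h2) h1
  rw [h5] at h4
  unfold sg at h4
  push_cast at h4
  exact h4

/-! ### level 33 -/

theorem c33_11 : cf Q11 Q11 3 11 = 2 := by
  simp [cf, Finset.sum_filter, Finset.sum_range_succ, q11_0, q11_1, q11_2, q11_3, q11_5, q11_8,
    q11_11]

/-- a normalised form in a space of dimension one is determined -/
theorem qCoeff_eq_of_finrank_one {N : ℕ} [NeZero N]
    (hd : Module.finrank ℂ (CuspForm (Gamma0 N) 2) = 1) {f g : CuspForm (Gamma0 N) 2}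
    (hf : qCoeff f 1 = 1) (hg : qCoeff g 1 = 1) (n : ℕ) : qCoeff g n = qCoeff f n := by
  have hf0 : f ≠ 0 := by
    rintro rfl
    have h0 : qCoeff ((0 : CuspForm (Gamma0 N) 2) : ℍ → ℂ) 1 = 0 := by
      unfold qCoeff
      rw [show (((0 : CuspForm (Gamma0 N) 2) : ℍ → ℂ)) = 0 from rfl, qExpansion_zero]
      simp
    rw [h0] at hf
    exact zero_ne_one hf
  obtain ⟨c, hc⟩ := (finrank_eq_one_iff_of_nonzero' f hf0).mp hd g
  have hq : ∀ n, qCoeff g n = c * qCoeff f n := by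
    intro n
    rw [← hc]
    have h3 : qExpansion 1 (c • f) = c • qExpansion 1 f :=
      ModularForm.qExpansion_smul one_pos (one_mem_strictPeriods_Gamma0 N) c f
    unfold qCoeff
    rw [show (qExpansion 1 ((c • f : CuspForm (Gamma0 N) 2) : ℍ → ℂ)) =
      c • qExpansion 1 f from h3, map_smul, smul_eq_mul]
  have e1 := hq 1
  rw [hf, hg, mul_one] at e1
  rw [hq n, ← e1, one_mul]

/-- **Representations by `x² + xy + 3y² + 3(z² + zw + 3w²)`.** -/
theorem asymp_thirtythree {n : ℕ} (hn : n ≠ 0) :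
    |15 * (Nat.card {v : Fin 4 → ℤ // v 0 ^ 2 + v 0 * v 1 + 3 * v 1 ^ 2 +
        3 * (v 2 ^ 2 + v 2 * v 3 + 3 * v 3 ^ 2) = n} : ℝ) -
      9 * (∑ d ∈ n.divisors with ¬ 11 ∣ d, (d : ℝ) + ∑ d ∈ n.divisors with ¬ 33 ∣ d, (d : ℝ) -
        ∑ d ∈ n.divisors with ¬ 3 ∣ d, (d : ℝ))| ≤ 49 * (n.divisors.card * √n) := by
  obtain ⟨f, g, hf, hg, hap, hapg, hrel⟩ := exists_newform_thirtythree
  obtain ⟨g', hg', hapg', hrel'⟩ := exists_newform_eleven
  have hgg : ∀ m, qCoeff g m = qCoeff g' m := qCoeff_eq_of_finrank_one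
    ((finrank_eq_one_iff 11).mpr (by decide)) hg'.qCoeff_one hg.qCoeff_one
  have hHg := isHasse_eleven hapg' hrel'
  have g3 := g11_val hrel' (n := 3) (s := 4) (by norm_num) (by decide) c11_3
  have g11 := g11_val hrel' (n := 11) (s := 1) (by norm_num) (by decide) c11_11
  have hHf : HW.IsHasse f := by
    refine isHasse_of (W := W33) (fun q hq h => (dvd_W33 hq).mpr h) (fun q hq h => hap q hq h)
      fun q hq h => ?_
    rw [show (33 : ℕ) = 3 * 11 from rfl, hq.dvd_mul, Nat.prime_dvd_prime_iff_eq hq (by norm_num),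
      Nat.prime_dvd_prime_iff_eq hq (by norm_num)] at h
    rcases h with rfl | rfl
    · have h1 := hrel 3
      rw [← cf_eq_repc Q11_pos Q11_pos (by norm_num), c33_3, if_pos (dvd_refl 3),
        show 3 / 3 = 1 from rfl, hgg, hgg, g3, hg'.qCoeff_one,
        eis_val (D := 11) (s := 4) (by norm_num) (by decide),
        eis_val (D := 33) (s := 4) (by norm_num) (by decide),
        eis_val (D := 3) (s := 1) (by norm_num) (by decide)] at h1
      have h4 : qCoeff f 3 = -1 := by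
        push_cast at h1
        linear_combination (-1 / 5 : ℂ) * h1
      rw [h4, norm_neg, norm_one]
    · have h1 := hrel 11
      rw [← cf_eq_repc Q11_pos Q11_pos (by norm_num), c33_11, if_neg (by norm_num), hgg, g11,
        eis_val (D := 11) (s := 1) (by norm_num) (by decide),
        eis_val (D := 33) (s := 12) (by norm_num) (by decide),
        eis_val (D := 3) (s := 12) (by norm_num) (by decide)] at h1
      have h4 : qCoeff f 11 = 1 := by
        push_cast at h1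
        linear_combination (-1 / 5 : ℂ) * h1
      rw [h4, norm_one]
  have h1 := HW.norm_qCoeff_le hf hHf n
  have h1' : ‖qCoeff g n‖ ≤ n.divisors.card * √n := by
    rw [hgg]
    exact HW.norm_qCoeff_le hg' hHg n
  have h1'' : 48 * ‖if 3 ∣ n then qCoeff g (n / 3) else 0‖ ≤ 28 * (n.divisors.card * √n) := by
    by_cases h3 : 3 ∣ n
    · obtain ⟨m, rfl⟩ := h3
      rw [if_pos (dvd_mul_right 3 m), Nat.mul_div_cancel_left m (by norm_num), hgg]
      have h4 := HW.norm_qCoeff_le hg' hHg m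
      have h5 : (m.divisors.card : ℝ) ≤ (3 * m).divisors.card := by
        exact_mod_cast Finset.card_le_card (Nat.divisors_subset_of_dvd hn (dvd_mul_left m 3))
      have h6 : 48 * √(m : ℝ) ≤ 28 * √((3 * m : ℕ) : ℝ) := by
        rw [← Real.sqrt_sq (show (0 : ℝ) ≤ 48 by norm_num),
          ← Real.sqrt_sq (show (0 : ℝ) ≤ 28 by norm_num), ← Real.sqrt_mul (by norm_num),
          ← Real.sqrt_mul (by norm_num)]
        refine Real.sqrt_le_sqrt ?_
        push_cast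
        have : (0 : ℝ) ≤ m := Nat.cast_nonneg m
        linarith
      calc 48 * ‖qCoeff g' m‖ ≤ 48 * (m.divisors.card * √m) := by linarith
        _ = m.divisors.card * (48 * √m) := by ring
        _ ≤ (3 * m).divisors.card * (28 * √((3 * m : ℕ) : ℝ)) :=
          mul_le_mul h5 h6 (by positivity) (by positivity)
        _ = 28 * ((3 * m).divisors.card * √((3 * m : ℕ) : ℝ)) := by ring
    · rw [if_neg h3, norm_zero, mul_zero]
      positivity
  have h2 := hrel n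
  rw [eis_eq_sg hn, eis_eq_sg hn, eis_eq_sg hn] at h2
  have h5 : repc Q11 Q11 3 n = Nat.card {v : Fin 4 → ℤ // v 0 ^ 2 + v 0 * v 1 + 3 * v 1 ^ 2 +
        3 * (v 2 ^ 2 + v 2 * v 3 + 3 * v 3 ^ 2) = n} := by
    rw [repc_eq_card]
    refine Nat.card_congr (Equiv.subtypeEquivRight fun v => ?_)
    simp only [Q11]
    push_cast
    ring_nf
  have h6 : ‖5 * qCoeff f n + 16 * qCoeff g n + 48 * (if 3 ∣ n then qCoeff g (n / 3) else 0)‖ ≤
      49 * (n.divisors.card * √n) := by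
    refine (norm_add_le _ _).trans ((add_le_add (norm_add_le _ _) le_rfl).trans ?_)
    rw [norm_mul, norm_mul, norm_mul]
    have e1 : ‖(5 : ℂ)‖ = 5 := by norm_num
    have e2 : ‖(16 : ℂ)‖ = 16 := by norm_num
    have e3 : ‖(48 : ℂ)‖ = 48 := by norm_num
    rw [e1, e2, e3]
    linarith
  have h4 := abs_le_of_norm (y := 15 * (repc Q11 Q11 3 n : ℝ) -
      9 * ((sg 11 n : ℝ) + (sg 33 n : ℝ) - (sg 3 n : ℝ))) (by
    push_cast
    linear_combination -h2) h6
  rw [h5] at h4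
  unfold sg at h4
  push_cast at h4
  exact h4

end Fermat.Agent.Cor.QuatE

end
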