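import Fermat.Agent.LTF.Theta.AN
import Fermat.Agent.LTF.Chain.Two3
import Fermat.Agent.S16.EisE2
import Fermat.Agent.P1Count.Index
import Fermat.Agent.Classic.Level.Final
import Fermat.Prelude.Thm_ModularForm_sturm_bound_Gamma0

/-!
# Elliptic curves and quaternary quadratic forms: general tools

For a positive binary quadratic form `Q` of discriminant `-D`, the theta series of the quaternary
form `Q ⊕ Q` is a modular form of weight two on `Γ₀(D)`; a linear relation between it, the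
Eisenstein series and a cusp form can be checked on finitely many coefficients (Sturm's bound).
-/

set_option autoImplicit false

noncomputable section

namespace Fermat.Agent.Cor.QuatE

open UpperHalfPlane ModularForm CongruenceSubgroup ModularFormClass
open Fermat.Agent.LTF.Theta
open scoped MatrixGroups

/-! ### representation numbers -/

/-- the number of representations of `n` by the quaternary form `Q(x, y) + Q(z, w)` -/
def rep4 (Q : BQ) (n : ℕ) : ℕ :=
  Nat.card {x : (ℤ × ℤ) × (ℤ × ℤ) // Q.ev x.1 + Q.ev x.2 = n}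

theorem four_a_ev (Q : BQ) (x : ℤ × ℤ) :
    4 * Q.a * Q.ev x = (2 * Q.a * x.1 + Q.b * x.2) ^ 2 - Q.disc * x.2 ^ 2 := by
  simp only [BQ.ev, BQ.disc, Int.cast_id]
  ring

theorem finite_ev {Q : BQ} (hQ : Q.Pos) (n : ℤ) : Finite {x : ℤ × ℤ // Q.ev x = n} := by
  have ha := hQ.pos
  have hD := hQ.neg
  set B : ℤ := 4 * Q.a * n with hB
  set C : ℤ := B + |Q.b| * B with hC
  refine Set.Finite.subset ((Set.finite_Icc (-C) C).prod (Set.finite_Icc (-B) B)) ?_
  rintro ⟨x, y⟩ hx
  have hx' : Q.ev (x, y) = n := hx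
  have h1 := four_a_ev Q (x, y)
  rw [hx'] at h1
  simp only at h1
  rw [← hB] at h1
  have hy : y ^ 2 ≤ B := by nlinarith [sq_nonneg (2 * Q.a * x + Q.b * y), sq_nonneg y]
  have hz : (2 * Q.a * x + Q.b * y) ^ 2 ≤ B := by nlinarith [sq_nonneg y]
  have hB0 : 0 ≤ B := (sq_nonneg y).trans hy
  have hy2 : |y| ≤ B := by
    have : |y| ≤ y ^ 2 := by
      rcases eq_or_ne y 0 with rfl | h0
      · simp
      · have h4 : 1 ≤ |y| := Int.one_le_abs h0
        have h5 : y ^ 2 = |y| ^ 2 := (sq_abs y).symm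
        nlinarith
    exact this.trans hy
  have hz2 : |2 * Q.a * x + Q.b * y| ≤ B := by
    rcases eq_or_ne (2 * Q.a * x + Q.b * y) 0 with h0 | h0
    · rw [h0]; simpa using hB0
    · have h4 : 1 ≤ |2 * Q.a * x + Q.b * y| := Int.one_le_abs h0
      have h5 : (2 * Q.a * x + Q.b * y) ^ 2 = |2 * Q.a * x + Q.b * y| ^ 2 := (sq_abs _).symm
      nlinarith
  have hx2 : |x| ≤ C := by
    have h6 : |2 * Q.a * x| ≤ |2 * Q.a * x + Q.b * y| + |Q.b * y| := by
      have := abs_sub (2 * Q.a * x + Q.b * y) (Q.b * y)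
      rwa [add_sub_cancel_right] at this
    have h7 : |x| ≤ |2 * Q.a * x| := by
      rw [abs_mul]
      have : 1 ≤ |2 * Q.a| := Int.one_le_abs (by omega)
      nlinarith [abs_nonneg x]
    have h8 : |Q.b * y| ≤ |Q.b| * B := by
      rw [abs_mul]
      exact mul_le_mul_of_nonneg_left hy2 (abs_nonneg _)
    rw [hC]
    linarith
  exact ⟨Set.mem_Icc.mpr (abs_le.mp hx2), Set.mem_Icc.mpr (abs_le.mp hy2)⟩

/-- the convolution of the representation numbers counts the representations by `Q ⊕ Q` -/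
theorem cf_eq_rep4 {Q : BQ} (hQ : Q.Pos) (n : ℕ) : cf Q Q 1 n = rep4 Q n := by
  classical
  have hfin : ∀ m : ℤ, Finite {x : ℤ × ℤ // Q.ev x = m} := finite_ev hQ
  have h1 : cf Q Q 1 n = ∑ k : Fin (n + 1), Q.rep (n - k) * Q.rep k := by
    unfold cf
    rw [Finset.filter_true_of_mem (fun k hk => by
      rw [one_mul]
      exact Nat.lt_succ_iff.mp (Finset.mem_range.mp hk)), ← Fin.sum_univ_eq_sum_range
      (fun k => Q.rep (n - 1 * k) * Q.rep k)]
    simp only [one_mul]
  rw [h1]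
  let β : Fin (n + 1) → Type := fun k =>
    {x : ℤ × ℤ // Q.ev x = ((n - (k : ℕ) : ℕ) : ℤ)} × {x : ℤ × ℤ // Q.ev x = ((k : ℕ) : ℤ)}
  have h2 : ∀ k, Nat.card (β k) = Q.rep (n - k) * Q.rep k := fun k => Nat.card_prod _ _
  have : ∀ k, Finite (β k) := fun k => by
    have := hfin ((n - (k : ℕ) : ℕ) : ℤ)
    have := hfin ((k : ℕ) : ℤ)
    exact Finite.instProd
  rw [← Finset.sum_congr rfl (fun k _ => h2 k), ← Nat.card_sigma, rep4]
  refine Nat.card_congr ?_
  refine
    { toFun := fun p => ⟨(p.2.1.1, p.2.2.1), ?_⟩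
      invFun := fun x => ⟨⟨(Q.ev x.1.2).toNat, ?_⟩, ⟨x.1.1, ?_⟩, ⟨x.1.2, ?_⟩⟩
      left_inv := ?_
      right_inv := ?_ }
  · have h3 := p.2.1.2
    have h4 := p.2.2.2
    have h5 := p.1.2
    simp only
    rw [h3, h4]
    omega
  · have h3 := x.2
    have h4 := ev_nonneg hQ x.1.1
    have h5 := ev_nonneg hQ x.1.2
    omega
  · have h3 := x.2
    have h4 := ev_nonneg hQ x.1.1
    have h5 := ev_nonneg hQ x.1.2
    simp only
    omega
  · have h5 := ev_nonneg hQ x.1.2
    simp only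
    omega
  · rintro ⟨⟨k, hk⟩, ⟨x, hx⟩, ⟨y, hy⟩⟩
    have h3 : (Q.ev y).toNat = k := by
      simp only at hy
      rw [hy, Int.toNat_natCast]
    subst h3
    rfl
  · rintro ⟨⟨x, y⟩, h⟩
    rfl

/-- the quaternary form in four variables -/
def vecEquiv : (Fin 4 → ℤ) ≃ (ℤ × ℤ) × (ℤ × ℤ) where
  toFun v := ((v 0, v 1), (v 2, v 3))
  invFun x := ![x.1.1, x.1.2, x.2.1, x.2.2]
  left_inv v := by
    funext i
    fin_cases i <;> rfl
  right_inv x := rfl

theorem rep4_eq_card (Q : BQ) (n : ℕ) :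
    rep4 Q n = Nat.card {v : Fin 4 → ℤ // (Q.a * v 0 ^ 2 + Q.b * v 0 * v 1 + Q.c * v 1 ^ 2) +
      (Q.a * v 2 ^ 2 + Q.b * v 2 * v 3 + Q.c * v 3 ^ 2) = n} := by
  refine (Nat.card_congr (vecEquiv.subtypeEquiv fun v => ?_)).symm
  simp only [vecEquiv, Equiv.coe_fn_mk, BQ.ev, Int.cast_id]

section small

variable {Q : BQ} (hQ : Q.Pos) (ha : Q.a = 1)

include hQ ha in
theorem ev_small {n : ℤ} (hn : 4 * n < -Q.disc) (x : ℤ × ℤ) :
    Q.ev x = n ↔ x.2 = 0 ∧ x.1 ^ 2 = n := by
  constructor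
  · intro hx
    have h1 := four_a_ev Q x
    rw [hx, ha] at h1
    have h2 : x.2 = 0 := by
      by_contra h0
      have h3 : 1 ≤ x.2 ^ 2 := by
        have : 0 < x.2 ^ 2 := by positivity
        linarith
      nlinarith [sq_nonneg (2 * 1 * x.1 + Q.b * x.2), hQ.neg]
    refine ⟨h2, ?_⟩
    rw [← hx]
    simp [BQ.ev, h2, ha]
  · rintro ⟨h1, h2⟩
    rw [← h2]
    simp [BQ.ev, h1, ha]

include hQ ha in
theorem rep_one (hD : 4 < -Q.disc) : Q.rep 1 = 2 := by
  have h1 : ∀ x : ℤ × ℤ, Q.ev x = ((1 : ℕ) : ℤ) ↔ x ∈ ({(1, 0), (-1, 0)} : Finset (ℤ × ℤ)) := by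
    intro x
    rw [ev_small hQ ha (by push_cast; linarith)]
    rw [Finset.mem_insert, Finset.mem_singleton, Prod.ext_iff, Prod.ext_iff]
    push_cast
    constructor
    · rintro ⟨h2, h3⟩
      have h4 : (x.1 - 1) * (x.1 + 1) = 0 := by linarith
      rcases mul_eq_zero.mp h4 with h | h
      · exact Or.inl ⟨by linarith, h2⟩
      · exact Or.inr ⟨by linarith, h2⟩
    · rintro (⟨h, h2⟩ | ⟨h, h2⟩)
      · exact ⟨h2, by rw [h]; norm_num⟩
      · exact ⟨h2, by rw [h]; norm_num⟩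
  unfold BQ.rep
  rw [Nat.card_congr (Equiv.subtypeEquivRight h1), Nat.card_eq_fintype_card, Fintype.card_coe]
  rfl

include hQ ha in
theorem rep_eq_zero {n : ℕ} (hD : (4 * n : ℤ) < -Q.disc) (hn : ∀ x : ℤ, x ^ 2 ≠ n) :
    Q.rep n = 0 := by
  unfold BQ.rep
  have : IsEmpty {x : ℤ × ℤ // Q.ev x = (n : ℤ)} := ⟨fun x => by
    have := (ev_small hQ ha hD x.1).mp x.2
    exact hn _ this.2⟩
  exact Nat.card_of_isEmpty

include hQ ha in
theorem rep_two (hD : 8 < -Q.disc) : Q.rep 2 = 0 := by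
  refine rep_eq_zero hQ ha (by push_cast; linarith) fun x hx => ?_
  push_cast at hx
  have h1 : x ≤ 1 := by nlinarith
  have h2 : -1 ≤ x := by nlinarith
  interval_cases x <;> omega

include hQ ha in
theorem rep_three (hD : 12 < -Q.disc) : Q.rep 3 = 0 := by
  refine rep_eq_zero hQ ha (by push_cast; linarith) fun x hx => ?_
  push_cast at hx
  have h1 : x ≤ 1 := by nlinarith
  have h2 : -1 ≤ x := by nlinarith
  interval_cases x <;> omega

include hQ ha in
theorem rep4_zero : rep4 Q 0 = 1 := by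
  rw [← cf_eq_rep4 hQ]
  simp [cf, rep_zero hQ]

include hQ ha in
theorem rep4_one (hD : 4 < -Q.disc) : rep4 Q 1 = 4 := by
  rw [← cf_eq_rep4 hQ]
  simp [cf, rep_zero hQ, rep_one hQ ha hD, Finset.sum_range_succ, Finset.sum_filter]

include hQ ha in
theorem rep4_two (hD : 8 < -Q.disc) : rep4 Q 2 = 4 := by
  rw [← cf_eq_rep4 hQ]
  simp [cf, rep_zero hQ, rep_one hQ ha (by linarith), rep_two hQ ha hD, Finset.sum_range_succ,
    Finset.sum_filter]

include hQ ha in
theorem rep4_three (hD : 12 < -Q.disc) : rep4 Q 3 = 0 := by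
  rw [← cf_eq_rep4 hQ]
  simp [cf, rep_zero hQ, rep_one hQ ha (by linarith), rep_two hQ ha (by linarith),
    rep_three hQ ha hD, Finset.sum_range_succ, Finset.sum_filter]

end small

/-! ### the comparison -/

/-- the coefficients of `D E₂(Dz) - E₂(z)` -/
def eis (D n : ℕ) : ℂ := if n = 0 then (D : ℂ) - 1 else 24 * ∑ d ∈ n.divisors with ¬ D ∣ d, (d : ℂ)

theorem coeff_eisForm (D : ℕ) [NeZero D] (n : ℕ) :
    (qExpansion 1 (S16.eisForm D)).coeff n = eis D n := by
  rw [S16.qExpansion_eisForm, S16.coeff_toC, S16.eisSeries, PowerSeries.coeff_mk, eis]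
  split_ifs with h
  · push_cast; rfl
  · push_cast; rfl

/-- A linear relation between `θ_Q²`, the Eisenstein series `D E₂(Dz) - E₂(z)` and a cusp form on
`Γ₀(D)` holds as soon as it holds up to Sturm's bound. -/
theorem relation_of_sturm {D : ℕ} [NeZero D] {Q : BQ} (hQ : Q.Pos) (hdisc : (D : ℤ) = -Q.disc)
    (f : CuspForm (Gamma0 D) 2) (α β γ : ℂ)
    (h : ∀ n : ℕ, n ≤ 2 * ModularCurve.dedekindPsi D / 12 →
      α * (rep4 Q n : ℂ) = β * eis D n + γ * qCoeff f n) (n : ℕ) :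
    α * (rep4 Q n : ℂ) = β * eis D n + γ * qCoeff f n := by
  obtain ⟨F, -, hF⟩ := exists_modularForm_prod (Q := Q) (R := Q) (c := 1) (M := D) hQ hQ rfl
    one_pos (by rw [hdisc]; push_cast; ring)
  have h1 := one_mem_strictPeriods_Gamma0 D
  let f' : ModularForm (Gamma0 D) 2 := CuspForm.toModularFormₗ f
  have hf' : qExpansion 1 f' = qExpansion 1 f := rfl
  let G : ModularForm (Gamma0 D) 2 := α • F - (β • S16.eisForm D + γ • f')
  have hG : ∀ m, (qExpansion 1 G).coeff m =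
      α * (rep4 Q m : ℂ) - (β * eis D m + γ * qCoeff f m) := by
    intro m
    have b1 : qExpansion 1 G = qExpansion 1 (α • F) - qExpansion 1 (β • S16.eisForm D + γ • f') :=
      ModularForm.qExpansion_sub one_pos h1 (α • F) (β • S16.eisForm D + γ • f')
    have b2 : qExpansion 1 (β • S16.eisForm D + γ • f') =
        qExpansion 1 (β • S16.eisForm D) + qExpansion 1 (γ • f') :=
      ModularForm.qExpansion_add one_pos h1 (β • S16.eisForm D) (γ • f')
    have b3 : qExpansion 1 (α • F) = α • qExpansion 1 F :=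
      ModularForm.qExpansion_smul one_pos h1 α F
    have b4 : qExpansion 1 (β • S16.eisForm D) = β • qExpansion 1 (S16.eisForm D) :=
      ModularForm.qExpansion_smul one_pos h1 β (S16.eisForm D)
    have b5 : qExpansion 1 (γ • f') = γ • qExpansion 1 f' :=
      ModularForm.qExpansion_smul one_pos h1 γ f'
    have e1 : qExpansion 1 G = α • qExpansion 1 F -
        (β • qExpansion 1 (S16.eisForm D) + γ • qExpansion 1 f') := by
      rw [b1, b2, b3, b4, b5]
    have e2 : (qExpansion 1 F).coeff m = (rep4 Q m : ℂ) := by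
      rw [← cf_eq_rep4 hQ m]
      exact hF m
    rw [e1, map_sub, map_add, map_smul, map_smul, map_smul, smul_eq_mul, smul_eq_mul, smul_eq_mul,
      e2, coeff_eisForm, hf']
    rfl
  have hG0 : G = 0 := by
    refine ModularForm.sturm_bound_Gamma0 D G fun m hm => ?_
    rw [hG, h m ?_, sub_self]
    rw [P1Count.index_Gamma0] at hm
    refine hm.trans (le_of_eq ?_)
    congr 1
  have h2 := hG n
  rw [hG0] at h2
  have h3 : (qExpansion 1 ((0 : ModularForm (Gamma0 D) 2) : ℍ → ℂ)).coeff n = 0 := by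
    rw [show (((0 : ModularForm (Gamma0 D) 2) : ℍ → ℂ)) = 0 from rfl, qExpansion_zero]
    simp
  rw [h3] at h2
  exact (sub_eq_zero.mp h2.symm)

theorem dedekindPsi_prime {p : ℕ} (hp : p.Prime) : ModularCurve.dedekindPsi p = p + 1 := by
  have := P1Count.dedekindPsi_primePow p 0 hp
  simpa using this

theorem sum_divisors_prime {N p : ℕ} (hN : N.Prime) (hp : p.Prime) (h : p ≠ N) :
    ∑ d ∈ p.divisors with ¬ N ∣ d, (d : ℂ) = p + 1 := by
  rw [hp.divisors, Finset.filter_insert, Finset.filter_singleton,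
    if_pos (fun h1 => hN.one_lt.ne' (Nat.dvd_one.mp h1)),
    if_pos (fun hd => h ((Nat.prime_dvd_prime_iff_eq hN hp).mp hd).symm),
    Finset.sum_insert (by rw [Finset.mem_singleton]; exact hp.one_lt.ne),
    Finset.sum_singleton]
  push_cast
  ring

/-! ### points -/

/-- number of affine points of a Weierstrass curve with non-zero discriminant -/
theorem card_eq {F : Type*} [Field F] [Finite F] (V : WeierstrassCurve F) (hV : V.Δ ≠ 0) :
    V.card = Nat.card {q : F × F // q.2 ^ 2 + V.a₁ * q.1 * q.2 + V.a₃ * q.2 =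
      q.1 ^ 3 + V.a₂ * q.1 ^ 2 + V.a₄ * q.1 + V.a₆} + 1 := by
  unfold WeierstrassCurve.card
  rw [Nat.card_congr (LTF.Chain.pointEquiv V), Finite.card_option]
  congr 1
  refine Nat.card_congr (Equiv.subtypeEquivRight fun q => ?_)
  rw [← WeierstrassCurve.Affine.equation_iff_nonsingular_of_Δ_ne_zero hV,
    WeierstrassCurve.Affine.equation_iff]

theorem exists_form_of_prime_Δ {W : WeierstrassCurve ℤ} {p : ℕ} (hp : p.Prime)
    (hΔ : W.Δ = -p) (hc : ¬ (p : ℤ) ∣ W.c₄) :
    ∃ f : CuspForm (Gamma0 p) 2, f.IsNormalizedEigenform ∧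
      ∀ q : ℕ, q.Prime → q ≠ p → qCoeff f q = (W.apOfModel q : ℂ) := by
  have hp0 : (p : ℤ) ≠ 0 := by exact_mod_cast hp.ne_zero
  have hdvd : ∀ q : ℕ, q.Prime → ((q : ℤ) ∣ W.Δ ↔ q = p) := by
    intro q hq
    rw [hΔ, dvd_neg, Int.natCast_dvd_natCast, Nat.prime_dvd_prime_iff_eq hq hp]
  obtain ⟨N, hN, hsq, hqN, f, hf, hap⟩ := Classic.exact_of_semistable (W := W)
    (by rw [hΔ]; exact neg_ne_zero.mpr hp0) (by
      intro q hq hd
      rw [(hdvd q hq).mp hd]
      exact hc)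
  have hNp : N = p := by
    rw [← Nat.prod_primeFactors_of_squarefree hsq]
    have : N.primeFactors = {p} := by
      ext q
      rw [Nat.mem_primeFactors, Finset.mem_singleton]
      constructor
      · rintro ⟨hq, hd, -⟩
        exact (hdvd q hq).mp ((hqN q hq).mp hd)
      · rintro rfl
        exact ⟨hp, (hqN q hp).mpr ((hdvd q hp).mpr rfl), hN.ne'⟩
    rw [this, Finset.prod_singleton]
  subst hNp
  refine ⟨f, hf, fun q hq hne => hap q hq ?_ ?_⟩
  · intro hd
    exact hne ((hdvd q hq).mp hd)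
  · intro hd
    exact hne ((Nat.prime_dvd_prime_iff_eq hq hp).mp hd)

end Fermat.Agent.Cor.QuatE

end
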