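import Fermat.Agent.Corollaries.QuatE.Level15Forms
import Fermat.Agent.Corollaries.QuatE.Level19

/-!
# The natural numbers represented by the quaternary forms of levels `15` and `19`

* `x² + xy + 4y² + 2z² + zw + 2w²` represents every natural number;
* `x² + xy + 4y² + z² + zw + 4w²` represents every natural number except `3 · 9 ^ k`;
* `2x² + xy + 2y² + 2z² + zw + 2w²` represents every natural number except `9 ^ k`;
* `x² + xy + 5y² + z² + zw + 5w²` represents every natural number except `3 · 19 ^ k`.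

The primes come from the modularity of the elliptic curves of conductors `15` and `19` (and from
Hasse's bound for the last form), the other numbers from the composition of quaternary forms.
-/

set_option autoImplicit false

noncomputable section

namespace Fermat.Agent.Cor.QuatE

open UpperHalfPlane ModularForm CongruenceSubgroup ModularFormClass
open Fermat.Agent.LTF.Theta
open scoped MatrixGroups

/-! ### level `15`, the mixed form -/

/-- `x² + xy + 4y² + 2z² + zw + 2w²` -/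
def mf (x y z w : ℤ) : ℤ := x ^ 2 + x * y + 4 * y ^ 2 + 2 * z ^ 2 + z * w + 2 * w ^ 2

theorem mf_mul (x y z w x' y' z' w' : ℤ) : mf x y z w * mf x' y' z' w' =
    mf (x * x' - 4 * y * y' - 2 * z * z' - z * w' - 2 * w * w')
      (x * y' + y * x' + y * y' - w * z' + z * w')
      (x * z' - 2 * y * w' + z * x' + z * y' + 2 * w * y')
      (x * w' + 2 * y * z' + y * w' + w * x' - 2 * z * y') := by
  unfold mf
  ring

/-- **`x² + xy + 4y² + 2z² + zw + 2w²` represents every natural number.** -/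
theorem universal_fifteen (n : ℕ) :
    ∃ x y z w : ℤ, x ^ 2 + x * y + 4 * y ^ 2 + 2 * z ^ 2 + z * w + 2 * w ^ 2 = n := by
  change ∃ x y z w : ℤ, mf x y z w = n
  induction n using induction_on_primes with
  | zero => exact ⟨0, 0, 0, 0, by simp [mf]⟩
  | one => exact ⟨1, 0, 0, 0, by simp [mf]⟩
  | prime_mul p a hp ha =>
    obtain ⟨x', y', z', w', h'⟩ := ha
    have key : ∃ x y z w : ℤ, mf x y z w = p := by
      by_cases h15 : p ∣ 15
      · rw [show (15 : ℕ) = 3 * 5 from rfl, hp.dvd_mul,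
          Nat.prime_dvd_prime_iff_eq hp (by norm_num),
          Nat.prime_dvd_prime_iff_eq hp (by norm_num)] at h15
        rcases h15 with rfl | rfl
        · exact ⟨1, 0, 1, 0, by norm_num [mf]⟩
        · exact ⟨0, 0, 1, 1, by norm_num [mf]⟩
      have : Fact p.Prime := ⟨hp⟩
      have h := fifteen_three h15
      have h1 := card_le' (p := p) (fun q => q.2 ^ 2 + q.1 * q.2 + q.2 = q.1 ^ 3 + q.1 ^ 2)
        (fun x => x + 1) (fun x => x ^ 3 + x ^ 2) (fun q => by ring_nf)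
      have h2 : 0 < Nat.card {v : Fin 4 → ℤ // v 0 ^ 2 + v 0 * v 1 + 4 * v 1 ^ 2 +
          2 * v 2 ^ 2 + v 2 * v 3 + 2 * v 3 ^ 2 = p} := by omega
      obtain ⟨⟨v, hv⟩⟩ := (Nat.card_pos_iff.mp h2).1
      exact ⟨v 0, v 1, v 2, v 3, hv⟩
    obtain ⟨x, y, z, w, h⟩ := key
    refine ⟨_, _, _, _, (mf_mul x y z w x' y' z' w').symm.trans ?_⟩
    rw [h, h']
    push_cast
    rfl

/-! ### level `15`, the two other forms -/

/-- `2x² + xy + 2y² + 2z² + zw + 2w²` -/
def tf (x y z w : ℤ) : ℤ := 2 * x ^ 2 + x * y + 2 * y ^ 2 + 2 * z ^ 2 + z * w + 2 * w ^ 2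

/-- numbers represented by `2x² + xy + 2y² + 2z² + zw + 2w²` -/
def ReprT (n : ℕ) : Prop := ∃ x y z w : ℤ, tf x y z w = n

theorem tf_mul (x y z w x' y' z' w' : ℤ) : tf x y z w * nf 4 1 x' y' z' w' =
    tf (x * x' - 2 * y * y' - z * (z' + w') - 2 * w * w')
      (2 * x * y' + y * x' + y * y' - w * z' + 2 * z * w')
      (x * z' - 2 * y * w' + z * (x' + y') + 2 * w * y')
      (2 * x * w' + y * z' + y * w' + w * x' - 2 * z * y') := by
  unfold tf nf
  ring

theorem ReprT.mul {m n : ℕ} (hm : ReprT m) (hn : Repr 4 1 n) : ReprT (m * n) := by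
  obtain ⟨x, y, z, w, h⟩ := hm
  obtain ⟨x', y', z', w', h'⟩ := hn
  refine ⟨_, _, _, _, (tf_mul x y z w x' y' z' w').symm.trans ?_⟩
  rw [h, h']
  push_cast
  rfl

theorem sq_add_sq_three {a b : ℤ} (h : (3 : ℤ) ∣ a ^ 2 + b ^ 2) : (3 : ℤ) ∣ a ∧ (3 : ℤ) ∣ b := by
  have h1 : ∀ x y : ZMod 3, x ^ 2 + y ^ 2 = 0 → x = 0 ∧ y = 0 := by decide
  have h2 := (ZMod.intCast_zmod_eq_zero_iff_dvd _ 3).mpr h
  push_cast at h2
  obtain ⟨h3, h4⟩ := h1 _ _ h2
  exact ⟨(ZMod.intCast_zmod_eq_zero_iff_dvd _ 3).mp h3,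
    (ZMod.intCast_zmod_eq_zero_iff_dvd _ 3).mp h4⟩

theorem repr_three_mul (n : ℕ) : Repr 4 1 (3 * n) ↔ ReprT n := by
  constructor
  · rintro ⟨x, y, z, w, h⟩
    unfold nf at h
    push_cast at h
    have h1 : (3 : ℤ) ∣ (2 * x + y) ^ 2 + (2 * z + w) ^ 2 :=
      ⟨4 * n - 5 * y ^ 2 - 5 * w ^ 2, by linear_combination 4 * h⟩
    obtain ⟨⟨u, hu⟩, ⟨s, hs⟩⟩ := sq_add_sq_three h1
    refine ⟨y + (x - u), -(x - u), w + (z - s), -(z - s), ?_⟩
    have hy : y = 3 * u - 2 * x := by linear_combination hu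
    have hw : w = 3 * s - 2 * z := by linear_combination hs
    refine mul_left_cancel₀ (three_ne_zero (α := ℤ)) ?_
    rw [← h, hy, hw]
    unfold tf
    ring
  · rintro ⟨x, y, z, w, h⟩
    refine ⟨x - 2 * y, x + y, z - 2 * w, z + w, ?_⟩
    unfold tf at h
    unfold nf
    push_cast
    linear_combination 3 * h

theorem reprT_three_mul (n : ℕ) : ReprT (3 * n) ↔ Repr 4 1 n := by
  constructor
  · rintro ⟨x, y, z, w, h⟩
    unfold tf at h
    push_cast at h
    have h1 : (3 : ℤ) ∣ (4 * x + y) ^ 2 + (4 * z + w) ^ 2 :=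
      ⟨8 * n - 5 * y ^ 2 - 5 * w ^ 2, by linear_combination 8 * h⟩
    obtain ⟨⟨u, hu⟩, ⟨s, hs⟩⟩ := sq_add_sq_three h1
    refine ⟨3 * x - 2 * u, u - x, 3 * z - 2 * s, s - z, ?_⟩
    have hy : y = 3 * u - 4 * x := by linear_combination hu
    have hw : w = 3 * s - 4 * z := by linear_combination hs
    refine mul_left_cancel₀ (three_ne_zero (α := ℤ)) ?_
    rw [← h, hy, hw]
    unfold nf
    ring
  · rintro ⟨x, y, z, w, h⟩
    refine ⟨x + 2 * y, y - x, z + 2 * w, w - z, ?_⟩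
    unfold nf at h
    unfold tf
    push_cast
    linear_combination 3 * h

theorem repr_fifteen_prime {p : ℕ} (hp : p.Prime) (h3 : p ≠ 3) : Repr 4 1 p ∧ ReprT p := by
  by_cases h15 : p ∣ 15
  · rw [show (15 : ℕ) = 3 * 5 from rfl, hp.dvd_mul,
      Nat.prime_dvd_prime_iff_eq hp (by norm_num),
      Nat.prime_dvd_prime_iff_eq hp (by norm_num)] at h15
    rcases h15 with rfl | rfl
    · exact absurd rfl h3
    · exact ⟨⟨1, 0, 0, 1, by norm_num [nf]⟩, ⟨1, 1, 0, 0, by norm_num [tf]⟩⟩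
  have : Fact p.Prime := ⟨hp⟩
  have h1 := card_le' (p := p) (fun q => q.2 ^ 2 + q.1 * q.2 + q.2 = q.1 ^ 3 + q.1 ^ 2)
    (fun x => x + 1) (fun x => x ^ 3 + x ^ 2) (fun q => by ring_nf)
  constructor
  · have h := fifteen_one h15
    refine repr_of_card_pos (F := fun v => v 0 ^ 2 + v 0 * v 1 + 4 * v 1 ^ 2 +
      v 2 ^ 2 + v 2 * v 3 + 4 * v 3 ^ 2) (fun v => by unfold nf; ring) ?_
    omega
  · have h := fifteen_two h15
    have h2 : 0 < Nat.card {v : Fin 4 → ℤ // 2 * v 0 ^ 2 + v 0 * v 1 + 2 * v 1 ^ 2 +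
        2 * v 2 ^ 2 + v 2 * v 3 + 2 * v 3 ^ 2 = p} := by omega
    obtain ⟨⟨v, hv⟩⟩ := (Nat.card_pos_iff.mp h2).1
    exact ⟨v 0, v 1, v 2, v 3, hv⟩

theorem repr_of_coprime {k c : ℤ} {q : ℕ} (h : ∀ p : ℕ, p.Prime → p ≠ q → Repr k c p) (n : ℕ)
    (hn : ¬ q ∣ n) : Repr k c n := by
  induction n using induction_on_primes with
  | zero => exact absurd (dvd_zero q) hn
  | one => exact ⟨1, 0, 0, 0, by simp [nf]⟩
  | prime_mul p a hp ha =>
    refine (h p hp ?_).mul (ha fun hd => hn (hd.mul_left p))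
    rintro rfl
    exact hn (dvd_mul_right p a)

theorem reprT_of_coprime {n : ℕ} (hn : ¬ 3 ∣ n) (h1 : n ≠ 1) : ReprT n := by
  obtain ⟨p, hp, m, rfl⟩ := Nat.exists_prime_and_dvd h1
  refine (repr_fifteen_prime hp ?_).2.mul
    (repr_of_coprime (fun q hq h => (repr_fifteen_prime hq h).1) m fun hd => hn (hd.mul_left p))
  rintro rfl
  exact hn (dvd_mul_right 3 m)

theorem not_reprT_one : ¬ ReprT 1 := by
  rintro ⟨x, y, z, w, h⟩
  unfold tf at h
  push_cast at h
  have h1 : (4 * x + y) ^ 2 + 15 * y ^ 2 + ((4 * z + w) ^ 2 + 15 * w ^ 2) = 8 := by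
    linear_combination 8 * h
  have hy : y = 0 := by
    by_contra hy
    have : 1 ≤ y ^ 2 := Int.one_le_abs (pow_ne_zero 2 hy) |>.trans_eq (abs_of_nonneg (sq_nonneg y))
    nlinarith [sq_nonneg (4 * x + y), sq_nonneg (4 * z + w), sq_nonneg w]
  have hw : w = 0 := by
    by_contra hw
    have : 1 ≤ w ^ 2 := Int.one_le_abs (pow_ne_zero 2 hw) |>.trans_eq (abs_of_nonneg (sq_nonneg w))
    nlinarith [sq_nonneg (4 * x + y), sq_nonneg (4 * z + w), sq_nonneg y]
  subst hy hw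
  omega

theorem fifteen_iff_aux (n : ℕ) :
    (Repr 4 1 n ↔ ∀ k, n ≠ 3 * 9 ^ k) ∧ (ReprT n ↔ ∀ k, n ≠ 9 ^ k) := by
  induction n using Nat.strong_induction_on with
  | _ n ih =>
    rcases Nat.eq_zero_or_pos n with rfl | hn0
    · refine ⟨⟨fun _ k => ?_, fun _ => ⟨0, 0, 0, 0, by simp [nf]⟩⟩,
        ⟨fun _ k => ?_, fun _ => ⟨0, 0, 0, 0, by simp [tf]⟩⟩⟩
      · positivity
      · positivity
    by_cases h3 : 3 ∣ n
    · obtain ⟨m, rfl⟩ := h3
      obtain ⟨ih1, ih2⟩ := ih m (by omega)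
      rw [repr_three_mul, reprT_three_mul, ih1, ih2]
      refine ⟨forall_congr' fun k => not_congr ⟨fun h => by rw [h], fun h => by omega⟩,
        ⟨fun h k hk => ?_, fun h k hk => h (k + 1) (by rw [hk]; ring)⟩⟩
      rcases k with _ | k
      · omega
      · refine h k ?_
        rw [pow_succ] at hk
        omega
    · refine ⟨⟨fun _ k hk => h3 (by rw [hk]; exact dvd_mul_right 3 _),
        fun _ => repr_of_coprime (fun q hq h => (repr_fifteen_prime hq h).1) n h3⟩,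
        ⟨fun h k hk => ?_, fun h => reprT_of_coprime h3 fun h1 => h 0 (by rw [h1, pow_zero])⟩⟩
      rcases k with _ | k
      · rw [pow_zero] at hk
        rw [hk] at h
        exact not_reprT_one h
      · exact h3 (by rw [hk, pow_succ]; exact Dvd.dvd.mul_left (by norm_num) _)

/-- **`x² + xy + 4y² + z² + zw + 4w²` represents exactly the natural numbers `≠ 3 · 9 ^ k`.** -/
theorem fifteen_one_iff (n : ℕ) :
    (∃ x y z w : ℤ, x ^ 2 + x * y + 4 * y ^ 2 + z ^ 2 + z * w + 4 * w ^ 2 = n) ↔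
      ∀ k, n ≠ 3 * 9 ^ k := by
  rw [← (fifteen_iff_aux n).1]
  constructor
  · rintro ⟨x, y, z, w, h⟩
    exact ⟨x, y, z, w, by rw [← h]; unfold nf; ring⟩
  · rintro ⟨x, y, z, w, h⟩
    exact ⟨x, y, z, w, by rw [← h]; unfold nf; ring⟩

/-- **`2x² + xy + 2y² + 2z² + zw + 2w²` represents exactly the natural numbers `≠ 9 ^ k`.** -/
theorem fifteen_two_iff (n : ℕ) :
    (∃ x y z w : ℤ, 2 * x ^ 2 + x * y + 2 * y ^ 2 + 2 * z ^ 2 + z * w + 2 * w ^ 2 = n) ↔
      ∀ k, n ≠ 9 ^ k :=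
  (fifteen_iff_aux n).2

end Fermat.Agent.Cor.QuatE

end
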