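import Fermat.Agent.Corollaries.QuatE.Level19
import Fermat.Agent.Corollaries.QuatE.Exceptions

/-!
# The natural numbers represented by `x² + xy + 5y² + z² + zw + 5w²`

All of them except `3 · 19 ^ k`: modularity of the elliptic curve `y² + y = x³ + x² + x` and
Hasse's bound.
-/

set_option autoImplicit false

noncomputable section

namespace Fermat.Agent.Cor.QuatE

open UpperHalfPlane ModularForm CongruenceSubgroup ModularFormClass
open Fermat.Agent.LTF.Theta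
open scoped MatrixGroups

/-- **Hasse's bound** for the reduction of a model with integral coefficients -/
theorem hasse_model {W : WeierstrassCurve ℤ} {p : ℕ} [hp : Fact p.Prime] (h : ¬ (p : ℤ) ∣ W.Δ) :
    W.apOfModel p ^ 2 ≤ 4 * p := by
  have hΔ : (W.reductionMod p).Δ ≠ 0 := by
    unfold WeierstrassCurve.reductionMod
    rw [WeierstrassCurve.map_Δ]
    intro h0
    exact h ((ZMod.intCast_zmod_eq_zero_iff_dvd _ _).mp h0)
  have : (W.reductionMod p).IsElliptic := ⟨isUnit_iff_ne_zero.mpr hΔ⟩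
  have h1 := ECFrob.hasse_bound (W.reductionMod p)
  rw [ZMod.card] at h1
  exact h1

theorem hasse19 {p : ℕ} [hp : Fact p.Prime] (h : p ≠ 19) : W19.apOfModel p ^ 2 ≤ 4 * p := by
  refine hasse_model fun hd => h ?_
  rw [W19_Δ, dvd_neg, Int.natCast_dvd_natCast,
    Nat.prime_dvd_prime_iff_eq hp.out (by norm_num)] at hd
  exact hd

theorem sum_divisors_three_mul {p : ℕ} (hp : p.Prime) (h3 : p ≠ 3) (h19 : p ≠ 19) :
    ∑ d ∈ (3 * p).divisors with ¬ 19 ∣ d, (d : ℂ) = 4 * (p + 1) := by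
  have hc : Nat.Coprime 3 p := (Nat.coprime_primes Nat.prime_three hp).mpr h3.symm
  have h0 : ¬ 19 ∣ 3 * p := by
    rw [(show Nat.Prime 19 by norm_num).dvd_mul, Nat.prime_dvd_prime_iff_eq (by norm_num) hp]
    rintro (h | h)
    · norm_num at h
    · exact h19 h.symm
  have hfil : (3 * p).divisors.filter (fun d => ¬ 19 ∣ d) = (3 * p).divisors :=
    Finset.filter_true_of_mem fun d hd h => h0 (h.trans (Nat.dvd_of_mem_divisors hd))
  rw [hfil]
  have h1 : ∑ d ∈ (3 * p).divisors, d = 4 * (p + 1) := by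
    rw [hc.sum_divisors_mul, Nat.prime_three.divisors, hp.divisors,
      Finset.sum_pair (by norm_num), Finset.sum_pair hp.one_lt.ne]
    ring
  have h2 : ((∑ d ∈ (3 * p).divisors, d : ℕ) : ℂ) = ((4 * (p + 1) : ℕ) : ℂ) := by rw [h1]
  push_cast at h2
  exact h2

theorem rep4_three_mul {p : ℕ} (hp : p.Prime) (h3 : p ≠ 3) (h19 : p ≠ 19) :
    3 * (rep4 Q19 (3 * p) : ℤ) = 16 * (p + 1) - 16 * W19.apOfModel p := by
  obtain ⟨f, hf, hap, hrel⟩ := exists_newform_nineteen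
  have hc : Nat.Coprime 3 p := (Nat.coprime_primes Nat.prime_three hp).mpr h3.symm
  have h1 := hrel (3 * p) (mul_ne_zero three_ne_zero hp.ne_zero)
  rw [sum_divisors_three_mul hp h3 h19, hf.qCoeff_mul_of_coprime 3 p hc,
    hap 3 Nat.prime_three (by norm_num), hap p hp h19, ap19_three] at h1
  have h2 : ((3 * (rep4 Q19 (3 * p) : ℤ) : ℤ) : ℂ) =
      ((16 * (p + 1) - 16 * W19.apOfModel p : ℤ) : ℂ) := by
    push_cast at h1 ⊢
    linear_combination h1
  exact_mod_cast h2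

theorem repr_of_rep4 {n : ℕ} (h : rep4 Q19 n ≠ 0) : Repr 5 1 n := by
  rw [rep4_eq_card] at h
  obtain ⟨⟨v, hv⟩⟩ := (Nat.card_pos_iff.mp (Nat.pos_of_ne_zero h)).1
  refine ⟨v 0, v 1, v 2, v 3, ?_⟩
  rw [← hv]
  simp only [Q19]
  unfold nf
  ring

theorem repr_nineteen_three_mul {p : ℕ} (hp : p.Prime) (h3 : p ≠ 3) (h19 : p ≠ 19) :
    Repr 5 1 (3 * p) := by
  refine repr_of_rep4 fun h0 => ?_
  have : Fact p.Prime := ⟨hp⟩
  have h1 := rep4_three_mul hp h3 h19
  have h2 := hasse19 h19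
  rw [h0] at h1
  have h4 : W19.apOfModel p = p + 1 := by push_cast at h1; linarith
  rw [h4] at h2
  have h5 : (2 : ℤ) ≤ p := by exact_mod_cast hp.two_le
  nlinarith

theorem repr_nineteen_prime {p : ℕ} (hp : p.Prime) (h3 : p ≠ 3) : Repr 5 1 p := by
  have : Fact p.Prime := ⟨hp⟩
  rcases lt_or_ge p 17 with h | h
  · have hp' : p = 2 ∨ p = 3 ∨ p = 5 ∨ p = 7 ∨ p = 11 ∨ p = 13 := by
      clear this h3
      interval_cases p <;> first | omega | (exfalso; revert hp; norm_num)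
    rcases hp' with rfl | rfl | rfl | rfl | rfl | rfl
    · exact ⟨1, 0, 1, 0, by norm_num [nf]⟩
    · exact absurd rfl h3
    · exact ⟨0, 1, 0, 0, by norm_num [nf]⟩
    · exact ⟨1, 1, 0, 0, by norm_num [nf]⟩
    · exact ⟨2, 1, 0, 0, by norm_num [nf]⟩
    · exact ⟨2, 0, 3, 0, by norm_num [nf]⟩
  · by_cases h19 : p = 19
    · subst h19
      exact ⟨1, -2, 0, 0, by norm_num [nf]⟩
    refine repr_of_rep4 fun h0 => ?_
    obtain ⟨f, hf, hap, hrel⟩ := exists_newform_nineteen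
    have h1 := hrel p hp.ne_zero
    have h2 : ∑ d ∈ p.divisors with ¬ 19 ∣ d, (d : ℂ) = p + 1 :=
      sum_divisors_prime (by norm_num) hp h19
    rw [h2, hap p hp h19, h0] at h1
    have h4 : ((2 * W19.apOfModel p : ℤ) : ℂ) = ((-(p + 1) : ℤ) : ℂ) := by
      push_cast at h1 ⊢
      linear_combination (-1 / 4 : ℂ) * h1
    have h5 : 2 * W19.apOfModel p = -(p + 1) := by exact_mod_cast h4
    have h6 := hasse19 h19
    have h7 : (17 : ℤ) ≤ p := by exact_mod_cast h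
    nlinarith

theorem repr_nineteen_pow {i : ℕ} (hi : i ≠ 1) : Repr 5 1 (3 ^ i) := by
  induction i using Nat.strong_induction_on with
  | _ i ih =>
    rcases i with _ | _ | _ | _ | i
    · exact ⟨1, 0, 0, 0, by simp [nf]⟩
    · exact absurd rfl hi
    · exact ⟨3, 0, 0, 0, by norm_num [nf]⟩
    · exact ⟨2, 1, 4, 0, by norm_num [nf]⟩
    · have h1 : Repr 5 1 (3 ^ (i + 2)) := ih (i + 2) (by omega) (by omega)
      have h2 : Repr 5 1 (3 ^ 2) := ⟨3, 0, 0, 0, by norm_num [nf]⟩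
      have := h1.mul h2
      rw [← pow_add] at this
      exact this

theorem sq_add_sq_nineteen {a b : ℤ} (h : (19 : ℤ) ∣ a ^ 2 + b ^ 2) :
    (19 : ℤ) ∣ a ∧ (19 : ℤ) ∣ b := by
  have h1 : ∀ x y : ZMod 19, x ^ 2 + y ^ 2 = 0 → x = 0 ∧ y = 0 := by decide
  have h2 := (ZMod.intCast_zmod_eq_zero_iff_dvd _ 19).mpr h
  push_cast at h2
  obtain ⟨h3, h4⟩ := h1 _ _ h2
  exact ⟨(ZMod.intCast_zmod_eq_zero_iff_dvd _ 19).mp h3,
    (ZMod.intCast_zmod_eq_zero_iff_dvd _ 19).mp h4⟩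

theorem repr_of_nineteen_mul {n : ℕ} (hn : Repr 5 1 (19 * n)) : Repr 5 1 n := by
  obtain ⟨x, y, z, w, h⟩ := hn
  unfold nf at h
  push_cast at h
  have h1 : (19 : ℤ) ∣ (2 * x + y) ^ 2 + (2 * z + w) ^ 2 :=
    ⟨4 * n - y ^ 2 - w ^ 2, by linear_combination 4 * h⟩
  obtain ⟨⟨u, hu⟩, ⟨s, hs⟩⟩ := sq_add_sq_nineteen h1
  refine ⟨-x + 10 * u, -u, -z + 10 * s, -s, ?_⟩
  have hy : y = 19 * u - 2 * x := by linear_combination hu
  have hw : w = 19 * s - 2 * z := by linear_combination hs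
  refine mul_left_cancel₀ (show (19 : ℤ) ≠ 0 by norm_num) ?_
  rw [← h, hy, hw]
  unfold nf
  ring

theorem not_repr_three : ¬ Repr 5 1 3 := by
  rintro ⟨x, y, z, w, h⟩
  unfold nf at h
  push_cast at h
  have h1 : (2 * x + y) ^ 2 + 19 * y ^ 2 + ((2 * z + w) ^ 2 + 19 * w ^ 2) = 12 := by
    linear_combination 4 * h
  have hy : y = 0 := by
    by_contra hy
    have : 1 ≤ y ^ 2 := Int.one_le_abs (pow_ne_zero 2 hy) |>.trans_eq (abs_of_nonneg (sq_nonneg y))
    nlinarith [sq_nonneg (2 * x + y), sq_nonneg (2 * z + w), sq_nonneg w]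
  have hw : w = 0 := by
    by_contra hw
    have : 1 ≤ w ^ 2 := Int.one_le_abs (pow_ne_zero 2 hw) |>.trans_eq (abs_of_nonneg (sq_nonneg w))
    nlinarith [sq_nonneg (2 * x + y), sq_nonneg (2 * z + w), sq_nonneg y]
  subst hy hw
  have h2 : x ^ 2 + z ^ 2 = 3 := by linear_combination h
  have h3 : ∀ a b : ZMod 4, a ^ 2 + b ^ 2 ≠ 3 := by decide
  refine h3 x z ?_
  have := congrArg (Int.cast : ℤ → ZMod 4) h2
  push_cast at this
  exact this

theorem not_repr_nineteen (k : ℕ) : ¬ Repr 5 1 (3 * 19 ^ k) := by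
  induction k with
  | zero => exact not_repr_three
  | succ k ih =>
    intro h
    refine ih (repr_of_nineteen_mul ?_)
    rw [show 19 * (3 * 19 ^ k) = 3 * 19 ^ (k + 1) by ring]
    exact h

/-- **`x² + xy + 5y² + z² + zw + 5w²` represents exactly the natural numbers `≠ 3 · 19 ^ k`.** -/
theorem nineteen_iff (n : ℕ) :
    (∃ x y z w : ℤ, x ^ 2 + x * y + 5 * y ^ 2 + z ^ 2 + z * w + 5 * w ^ 2 = n) ↔
      ∀ k, n ≠ 3 * 19 ^ k := by
  have hR : (∃ x y z w : ℤ, x ^ 2 + x * y + 5 * y ^ 2 + z ^ 2 + z * w + 5 * w ^ 2 = n) ↔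
      Repr 5 1 n := by
    constructor
    · rintro ⟨x, y, z, w, h⟩
      exact ⟨x, y, z, w, by rw [← h]; unfold nf; ring⟩
    · rintro ⟨x, y, z, w, h⟩
      exact ⟨x, y, z, w, by rw [← h]; unfold nf; ring⟩
  rw [hR]
  refine ⟨fun h k hk => not_repr_nineteen k (hk ▸ h), fun h => ?_⟩
  rcases Nat.eq_zero_or_pos n with rfl | hn0
  · exact ⟨0, 0, 0, 0, by simp [nf]⟩
  obtain ⟨i, t, ht, rfl⟩ := Nat.exists_eq_pow_mul_and_not_dvd hn0.ne' 3 (by norm_num)
  have hcop : ∀ m : ℕ, ¬ 3 ∣ m → Repr 5 1 m := fun m =>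
    repr_of_coprime (fun q hq hq3 => repr_nineteen_prime hq hq3) m
  by_cases hi : i = 1
  · subst hi
    have h2 : ∃ p, p.Prime ∧ p ∣ t ∧ p ≠ 19 := by
      by_contra hcon
      push Not at hcon
      have ht0 : t ≠ 0 := by
        rintro rfl
        exact ht (dvd_zero 3)
      have := Nat.eq_prime_pow_of_unique_prime_dvd ht0 (fun {d} hd hdt => hcon d hd hdt)
      exact h _ (by rw [pow_one, this])
    obtain ⟨p, hp, ⟨s, rfl⟩, hp19⟩ := h2
    have hp3 : p ≠ 3 := by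
      rintro rfl
      exact ht (dvd_mul_right 3 s)
    have h3 := (repr_nineteen_three_mul hp hp3 hp19).mul
      (hcop s fun hd => ht (hd.mul_left p))
    rw [pow_one, ← mul_assoc]
    exact h3
  · exact (repr_nineteen_pow hi).mul (hcop t ht)

end Fermat.Agent.Cor.QuatE

end
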