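import Fermat.Agent.Corollaries.QuatE.Level15Forms
import Fermat.Agent.Corollaries.QuatE.Level19Forms

/-!
# The forms `x² + xy + y² + 5(z² + zw + w²)` and `x² + xy + y² + 7(z² + zw + w²)`

The numbers of representations of a prime by these forms and the numbers of points of the elliptic
curves of conductors `15` and `21`; the natural numbers represented are all except
`2 · 5 ^ k, 11 · 5 ^ k` and all except `2 · 3 ^ k, 5 · 3 ^ k, 17 · 3 ^ k`.
-/

set_option autoImplicit false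

noncomputable section

namespace Fermat.Agent.Cor.QuatE

open UpperHalfPlane ModularForm CongruenceSubgroup ModularFormClass
open Fermat.Agent.LTF.Theta
open scoped MatrixGroups

/-- `x² + xy + y²` -/
def H : BQ := ⟨1, 1, 1⟩

theorem H_disc : H.disc = -3 := by norm_num [H, BQ.disc]

theorem H_pos : H.Pos := ⟨by norm_num [H], by rw [H_disc]; norm_num⟩

theorem h_rep (n : ℕ) (hn : n ≤ 17) : H.rep n =
    ((Finset.Icc (-(4 : ℕ) : ℤ) (4 : ℕ) ×ˢ Finset.Icc (-(4 : ℕ) : ℤ) (4 : ℕ)).filter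
      (fun x : ℤ × ℤ => H.a * x.1 ^ 2 + H.b * x.1 * x.2 + H.c * x.2 ^ 2 = n)).card := by
  have hn' : (n : ℤ) ≤ 17 := by exact_mod_cast hn
  refine rep_eq_card H_pos 4 n ?_ ?_
  · rw [H_disc]
    simp only [H]
    push_cast
    linarith
  · rw [H_disc]
    simp only [H]
    push_cast
    linarith

theorem h_0 : H.rep 0 = 1 := by rw [h_rep 0 (by norm_num)]; decide
theorem h_1 : H.rep 1 = 6 := by rw [h_rep 1 (by norm_num)]; decide
theorem h_2 : H.rep 2 = 0 := by rw [h_rep 2 (by norm_num)]; decide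
theorem h_3 : H.rep 3 = 6 := by rw [h_rep 3 (by norm_num)]; decide
theorem h_4 : H.rep 4 = 6 := by rw [h_rep 4 (by norm_num)]; decide
theorem h_5 : H.rep 5 = 0 := by rw [h_rep 5 (by norm_num)]; decide
theorem h_6 : H.rep 6 = 0 := by rw [h_rep 6 (by norm_num)]; decide
theorem h_7 : H.rep 7 = 12 := by rw [h_rep 7 (by norm_num)]; decide
theorem h_8 : H.rep 8 = 0 := by rw [h_rep 8 (by norm_num)]; decide
theorem h_9 : H.rep 9 = 6 := by rw [h_rep 9 (by norm_num)]; decide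
theorem h_10 : H.rep 10 = 0 := by rw [h_rep 10 (by norm_num)]; decide
theorem h_11 : H.rep 11 = 0 := by rw [h_rep 11 (by norm_num)]; decide
theorem h_12 : H.rep 12 = 6 := by rw [h_rep 12 (by norm_num)]; decide
theorem h_13 : H.rep 13 = 12 := by rw [h_rep 13 (by norm_num)]; decide
theorem h_14 : H.rep 14 = 0 := by rw [h_rep 14 (by norm_num)]; decide
theorem h_15 : H.rep 15 = 0 := by rw [h_rep 15 (by norm_num)]; decide
theorem h_16 : H.rep 16 = 6 := by rw [h_rep 16 (by norm_num)]; decide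
theorem h_17 : H.rep 17 = 0 := by rw [h_rep 17 (by norm_num)]; decide
theorem ch5_0 : cf H H 5 0 = 1 := by
  simp [cf, h_0]
theorem ch5_1 : cf H H 5 1 = 6 := by
  simp [cf, Finset.sum_filter, Finset.sum_range_succ, h_0, h_1]
theorem ch5_2 : cf H H 5 2 = 0 := by
  simp [cf, Finset.sum_filter, Finset.sum_range_succ, h_0, h_2]
theorem ch5_3 : cf H H 5 3 = 6 := by
  simp [cf, Finset.sum_filter, Finset.sum_range_succ, h_0, h_3]
theorem ch5_4 : cf H H 5 4 = 6 := by
  simp [cf, Finset.sum_filter, Finset.sum_range_succ, h_0, h_4]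
theorem ch5_11 : cf H H 5 11 = 0 := by
  simp [cf, Finset.sum_filter, Finset.sum_range_succ, h_0, h_1, h_2, h_6, h_11]
theorem ch7_0 : cf H H 7 0 = 1 := by
  simp [cf, h_0]
theorem ch7_1 : cf H H 7 1 = 6 := by
  simp [cf, Finset.sum_filter, Finset.sum_range_succ, h_0, h_1]
theorem ch7_2 : cf H H 7 2 = 0 := by
  simp [cf, Finset.sum_filter, Finset.sum_range_succ, h_0, h_2]
theorem ch7_3 : cf H H 7 3 = 6 := by
  simp [cf, Finset.sum_filter, Finset.sum_range_succ, h_0, h_3]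
theorem ch7_4 : cf H H 7 4 = 6 := by
  simp [cf, Finset.sum_filter, Finset.sum_range_succ, h_0, h_4]
theorem ch7_5 : cf H H 7 5 = 0 := by
  simp [cf, Finset.sum_filter, Finset.sum_range_succ, h_0, h_5]
theorem ch7_17 : cf H H 7 17 = 0 := by
  simp [cf, Finset.sum_filter, Finset.sum_range_succ, h_0, h_1, h_2, h_3, h_10, h_17]

/-! ### the identities between theta series -/

/-- `θ_H(z) θ_H(5z) = θ₁ θ₂ + θ₁² - θ₂²`, `H = x² + xy + y²` -/
theorem hex_fifteen (n : ℕ) : (repc H H 5 n : ℂ) =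
    (repc Q15 R15 1 n : ℂ) + (repc Q15 Q15 1 n : ℂ) - (repc R15 R15 1 n : ℂ) := by
  have hMF : IsMF 15 (fun n => (cf H H 5 n : ℂ) -
      (((cf Q15 R15 1 n : ℂ) + (cf Q15 Q15 1 n : ℂ)) - (cf R15 R15 1 n : ℂ))) :=
    (IsMF.theta H_pos H_pos rfl (c := 5) (by norm_num) (by rw [H_disc]; norm_num)).sub
      (((IsMF.theta Q15_pos R15_pos rfl one_pos (by rw [Q15_disc]; norm_num)).add
      (IsMF.theta Q15_pos Q15_pos rfl one_pos (by rw [Q15_disc]; norm_num))).sub
      (IsMF.theta R15_pos R15_pos rfl one_pos (by rw [R15_disc]; norm_num)))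
  have hz := hMF.eq_zero (fun n hn => by
    rw [psi15] at hn
    have hn' : n ≤ 4 := by omega
    interval_cases n
    · rw [ch5_0, cm15_0, cq15_0, cr15_0]
      norm_num
    · rw [ch5_1, cm15_1, cq15_1, cr15_1]
      norm_num
    · rw [ch5_2, cm15_2, cq15_2, cr15_2]
      norm_num
    · rw [ch5_3, cm15_3, cq15_3, cr15_3]
      norm_num
    · rw [ch5_4, cm15_4, cq15_4, cr15_4]
      norm_num)
  have h := hz n
  rw [cf_eq_repc H_pos H_pos (by norm_num), cf_eq_repc Q15_pos R15_pos one_pos,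
    cf_eq_repc Q15_pos Q15_pos one_pos, cf_eq_repc R15_pos R15_pos one_pos] at h
  linear_combination h

/-- `θ_H(z) θ_H(7z) = 9 θ₇(z) θ₇(3z) - (E₃ - E₇ + E₂₁) / 2` -/
theorem hex_twentyone (n : ℕ) : (repc H H 7 n : ℂ) =
    9 * (repc Q7 Q7 3 n : ℂ) - (eis 3 n - eis 7 n + eis 21 n) / 2 := by
  have hMF : IsMF 21 (fun n => (cf H H 7 n : ℂ) - (9 * (cf Q7 Q7 3 n : ℂ) -
      1 / 2 * ((eis 3 n - eis 7 n) + eis 21 n))) :=
    (IsMF.theta H_pos H_pos rfl (c := 7) (by norm_num) (by rw [H_disc]; norm_num)).sub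
      (((IsMF.theta Q7_pos Q7_pos rfl (c := 3) (by norm_num)
      (by rw [Q7_disc]; norm_num)).smul 9).sub
      ((((IsMF.eis (N := 21) (D := 3) (by norm_num)).sub
      (IsMF.eis (N := 21) (D := 7) (by norm_num))).add
      (IsMF.eis (N := 21) (D := 21) (by norm_num))).smul (1 / 2)))
  have hz := hMF.eq_zero (fun n hn => by
    rw [psi21] at hn
    have hn' : n ≤ 5 := by omega
    interval_cases n
    · rw [ch7_0, c21_0, eis, eis, eis, if_pos rfl, if_pos rfl, if_pos rfl]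
      norm_num
    · rw [ch7_1, c21_1, eis_val (D := 3) (s := 1) (by norm_num) (by decide),
        eis_val (D := 7) (s := 1) (by norm_num) (by decide),
        eis_val (D := 21) (s := 1) (by norm_num) (by decide)]
      norm_num
    · rw [ch7_2, c21_2, eis_val (D := 3) (s := 3) (by norm_num) (by decide),
        eis_val (D := 7) (s := 3) (by norm_num) (by decide),
        eis_val (D := 21) (s := 3) (by norm_num) (by decide)]
      norm_num
    · rw [ch7_3, c21_3, eis_val (D := 3) (s := 1) (by norm_num) (by decide),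
        eis_val (D := 7) (s := 4) (by norm_num) (by decide),
        eis_val (D := 21) (s := 4) (by norm_num) (by decide)]
      norm_num
    · rw [ch7_4, c21_4, eis_val (D := 3) (s := 7) (by norm_num) (by decide),
        eis_val (D := 7) (s := 7) (by norm_num) (by decide),
        eis_val (D := 21) (s := 7) (by norm_num) (by decide)]
      norm_num
    · rw [ch7_5, c21_5, eis_val (D := 3) (s := 6) (by norm_num) (by decide),
        eis_val (D := 7) (s := 6) (by norm_num) (by decide),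
        eis_val (D := 21) (s := 6) (by norm_num) (by decide)]
      norm_num)
  have h := hz n
  rw [cf_eq_repc H_pos H_pos (by norm_num), cf_eq_repc Q7_pos Q7_pos (by norm_num)] at h
  linear_combination h

theorem repc_hex (c n : ℕ) : repc H H c n = Nat.card {v : Fin 4 → ℤ // v 0 ^ 2 + v 0 * v 1 +
    v 1 ^ 2 + c * (v 2 ^ 2 + v 2 * v 3 + v 3 ^ 2) = n} := by
  rw [repc_eq_card]
  refine Nat.card_congr (Equiv.subtypeEquivRight fun v => ?_)
  simp only [H]
  ring_nf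

/-- **Representations of `p` by `x² + xy + y² + 5(z² + zw + w²)`** and number of points of
`y² + xy + y = x³ + x²` modulo `p`. -/
theorem fifteen_hex {p : ℕ} [hp : Fact p.Prime] (h : ¬ p ∣ 15) :
    9 * Nat.card {q : ZMod p × ZMod p // q.2 ^ 2 + q.1 * q.2 + q.2 = q.1 ^ 3 + q.1 ^ 2} +
      2 * Nat.card {v : Fin 4 → ℤ // v 0 ^ 2 + v 0 * v 1 + v 1 ^ 2 +
        5 * (v 2 ^ 2 + v 2 * v 3 + v 3 ^ 2) = p} = 12 * p + 3 := by
  have h1 := fifteen_one h
  have h2 := fifteen_two h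
  have h3 := fifteen_three h
  have h4 := hex_fifteen p
  rw [repc_hex, repc_15a, repc_15b, repc_15c] at h4
  unfold F15a F15b F15c at h4
  have h5 : Nat.card {v : Fin 4 → ℤ // v 0 ^ 2 + v 0 * v 1 + v 1 ^ 2 +
        (5 : ℕ) * (v 2 ^ 2 + v 2 * v 3 + v 3 ^ 2) = p} +
      Nat.card {v : Fin 4 → ℤ // 2 * v 0 ^ 2 + v 0 * v 1 + 2 * v 1 ^ 2 +
        2 * v 2 ^ 2 + v 2 * v 3 + 2 * v 3 ^ 2 = p} =
      Nat.card {v : Fin 4 → ℤ // v 0 ^ 2 + v 0 * v 1 + 4 * v 1 ^ 2 +
        2 * v 2 ^ 2 + v 2 * v 3 + 2 * v 3 ^ 2 = p} +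
      Nat.card {v : Fin 4 → ℤ // v 0 ^ 2 + v 0 * v 1 + 4 * v 1 ^ 2 +
        v 2 ^ 2 + v 2 * v 3 + 4 * v 3 ^ 2 = p} := by
    have h6 : ((Nat.card {v : Fin 4 → ℤ // v 0 ^ 2 + v 0 * v 1 + v 1 ^ 2 +
        (5 : ℕ) * (v 2 ^ 2 + v 2 * v 3 + v 3 ^ 2) = p} +
      Nat.card {v : Fin 4 → ℤ // 2 * v 0 ^ 2 + v 0 * v 1 + 2 * v 1 ^ 2 +
        2 * v 2 ^ 2 + v 2 * v 3 + 2 * v 3 ^ 2 = p} : ℕ) : ℂ) =
      ((Nat.card {v : Fin 4 → ℤ // v 0 ^ 2 + v 0 * v 1 + 4 * v 1 ^ 2 +
        2 * v 2 ^ 2 + v 2 * v 3 + 2 * v 3 ^ 2 = p} +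
      Nat.card {v : Fin 4 → ℤ // v 0 ^ 2 + v 0 * v 1 + 4 * v 1 ^ 2 +
        v 2 ^ 2 + v 2 * v 3 + 4 * v 3 ^ 2 = p} : ℕ) : ℂ) := by
      rw [Nat.cast_add, Nat.cast_add, h4]
      ring
    exact_mod_cast h6
  push_cast at h5
  omega

/-- **Representations of `p` by `x² + xy + y² + 7(z² + zw + w²)`** and number of points of
`y² + xy = x³ + x` modulo `p`. -/
theorem twentyone_hex {p : ℕ} [hp : Fact p.Prime] (h : ¬ p ∣ 21) :
    9 * Nat.card {q : ZMod p × ZMod p // q.2 ^ 2 + q.1 * q.2 = q.1 ^ 3 + q.1} +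
      2 * Nat.card {v : Fin 4 → ℤ // v 0 ^ 2 + v 0 * v 1 + v 1 ^ 2 +
        7 * (v 2 ^ 2 + v 2 * v 3 + v 3 ^ 2) = p} = 12 * p + 3 := by
  have h1 := twentyone h
  have h3' : ¬ p ∣ 3 := fun hd => h (hd.trans (by norm_num))
  have h7' : ¬ p ∣ 7 := fun hd => h (hd.trans (by norm_num))
  have h3 : repc Q7 Q7 3 p = Nat.card {v : Fin 4 → ℤ // v 0 ^ 2 + v 0 * v 1 + 2 * v 1 ^ 2 +
        3 * (v 2 ^ 2 + v 2 * v 3 + 2 * v 3 ^ 2) = p} := by
    rw [repc_eq_card]
    refine Nat.card_congr (Equiv.subtypeEquivRight fun v => ?_)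
    simp only [Q7]
    push_cast
    ring_nf
  have h4 := hex_twentyone p
  rw [eis_prime (by norm_num) hp.out h3', eis_prime (by norm_num) hp.out h7',
    eis_prime (by norm_num) hp.out h] at h4
  have h5 : repc H H 7 p + 12 * (p + 1) = 9 * repc Q7 Q7 3 p := by
    have h6 : ((repc H H 7 p + 12 * (p + 1) : ℕ) : ℂ) = ((9 * repc Q7 Q7 3 p : ℕ) : ℂ) := by
      push_cast
      rw [h4]
      ring
    exact_mod_cast h6
  rw [repc_hex, h3] at h5
  push_cast at h5
  omega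

end Fermat.Agent.Cor.QuatE

end
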