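import Fermat.Agent.Corollaries.QuatE.HexForms

/-!
# The natural numbers represented by `x² + xy + y² + 5(z² + zw + w²)` and by
`x² + xy + y² + 7(z² + zw + w²)`

All natural numbers except `2 · 5 ^ k` and `11 · 5 ^ k`, respectively except `2 · 3 ^ k`,
`5 · 3 ^ k` and `17 · 3 ^ k`. The exceptional primes `2, 11` and `2, 5, 17` are those at which the
elliptic curves of conductors `15` and `21` have `(4 p + 4) / 3` points.
-/

set_option autoImplicit false

noncomputable section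

namespace Fermat.Agent.Cor.QuatE

open UpperHalfPlane ModularForm CongruenceSubgroup ModularFormClass
open Fermat.Agent.LTF.Theta
open scoped MatrixGroups

/-! ### the multiplicative argument -/

section general

variable {S : ℕ → Prop} {X : Finset ℕ} (h1 : S 1) (hmul : ∀ a b, S a → S b → S (a * b))

include h1 hmul in
theorem prod_mem_of (h2 : ∀ x ∈ X, ∀ y ∈ X, S (x * y))
    (h3 : ∀ x ∈ X, ∀ y ∈ X, ∀ z ∈ X, S (x * y * z)) :
    ∀ L : List ℕ, (∀ x ∈ L, x ∈ X) → L.length ≠ 1 → S L.prod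
  | [], _, _ => by simpa using h1
  | [_], _, h => absurd rfl h
  | [x, y], hL, _ => by
    have := h2 x (hL x (by simp)) y (hL y (by simp))
    simpa using this
  | [x, y, z], hL, _ => by
    have := h3 x (hL x (by simp)) y (hL y (by simp)) z (hL z (by simp))
    simpa [mul_assoc] using this
  | x :: y :: z :: w :: L, hL, _ => by
    have h4 := h2 x (hL x (by simp)) y (hL y (by simp))
    have h5 := prod_mem_of h2 h3 (z :: w :: L) (fun u hu => hL u (by
      rw [List.mem_cons, List.mem_cons]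
      exact Or.inr (Or.inr hu))) (by simp)
    have := hmul _ _ h4 h5
    simpa [mul_assoc] using this

include h1 hmul in
theorem mem_of_primes (hp : ∀ p : ℕ, p.Prime → p ∉ X → S p) (t : ℕ) (ht : t ≠ 0)
    (h : ∀ p : ℕ, p.Prime → p ∣ t → p ∉ X) : S t := by
  induction t using induction_on_primes with
  | zero => exact absurd rfl ht
  | one => exact h1
  | prime_mul p a hp' ha =>
    exact hmul _ _ (hp p hp' (h p hp' (dvd_mul_right p a)))
      (ha (right_ne_zero_of_mul ht) fun q hq hd => h q hq (hd.mul_left p))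

theorem exists_split (X : Finset ℕ) (n : ℕ) (hn : n ≠ 0) :
    ∃ L : List ℕ, (∀ x ∈ L, x ∈ X) ∧ ∃ t : ℕ, t ≠ 0 ∧
      (∀ p : ℕ, p.Prime → p ∣ t → p ∉ X) ∧ n = L.prod * t := by
  induction n using induction_on_primes with
  | zero => exact absurd rfl hn
  | one =>
    exact ⟨[], by simp, 1, one_ne_zero, fun p hp hd => absurd (Nat.dvd_one.mp hd) hp.ne_one,
      by simp⟩
  | prime_mul p a hp ha =>
    obtain ⟨L, hL, t, ht, h, rfl⟩ := ha (right_ne_zero_of_mul hn)
    by_cases hpX : p ∈ X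
    · refine ⟨p :: L, fun x hx => ?_, t, ht, h, by rw [List.prod_cons, mul_assoc]⟩
      rcases List.mem_cons.mp hx with rfl | hx
      · exact hpX
      · exact hL x hx
    · refine ⟨L, hL, p * t, mul_ne_zero hp.ne_zero ht, fun q hq hd => ?_, by ring⟩
      rcases (Nat.Prime.dvd_mul hq).mp hd with h2 | h2
      · rw [(Nat.prime_dvd_prime_iff_eq hq hp).mp h2]
        exact hpX
      · exact h q hq h2

include h1 hmul in
/-- a multiplicative set of natural numbers with exceptions `x l ^ j`, `x ∈ X` -/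
theorem mem_iff_of {l : ℕ} (h0 : S 0) (hp : ∀ p : ℕ, p.Prime → p ∉ X → S p)
    (hxp : ∀ x ∈ X, ∀ p : ℕ, p.Prime → p ∉ X → p ≠ l → S (x * p))
    (h2 : ∀ x ∈ X, ∀ y ∈ X, S (x * y)) (h3 : ∀ x ∈ X, ∀ y ∈ X, ∀ z ∈ X, S (x * y * z))
    (hl : ∀ m, S (l * m) → S m) (hx : ∀ x ∈ X, ¬ S x) (n : ℕ) :
    S n ↔ ∀ x ∈ X, ∀ j, n ≠ x * l ^ j := by
  constructor
  · intro h x hxX j
    induction j generalizing n with
    | zero =>
      rintro rfl
      rw [pow_zero, mul_one] at h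
      exact hx x hxX h
    | succ j ih =>
      rintro rfl
      refine ih (x * l ^ j) (hl _ ?_) rfl
      rw [show l * (x * l ^ j) = x * l ^ (j + 1) by ring]
      exact h
  · intro h
    rcases Nat.eq_zero_or_pos n with rfl | hn0
    · exact h0
    obtain ⟨L, hL, t, ht, htX, rfl⟩ := exists_split X n hn0.ne'
    by_cases hlen : L.length = 1
    · obtain ⟨x, rfl⟩ := List.length_eq_one_iff.mp hlen
      rw [List.prod_singleton] at h ⊢
      have hxX : x ∈ X := hL x (by simp)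
      have h6 : ∃ p, p.Prime ∧ p ∣ t ∧ p ≠ l := by
        by_contra hcon
        push Not at hcon
        have := Nat.eq_prime_pow_of_unique_prime_dvd ht (fun {d} hd hdt => hcon d hd hdt)
        exact h x hxX _ (by rw [← this])
      obtain ⟨p, hpp, ⟨s, rfl⟩, hpl⟩ := h6
      have hpX := htX p hpp (dvd_mul_right p s)
      rw [← mul_assoc]
      exact hmul _ _ (hxp x hxX p hpp hpX hpl) (mem_of_primes h1 hmul hp s
        (right_ne_zero_of_mul ht) fun q hq hd => htX q hq (hd.mul_left p))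
    · exact hmul _ _ (prod_mem_of h1 hmul h2 h3 L hL hlen) (mem_of_primes h1 hmul hp t ht htX)

end general

/-! ### positivity of representation numbers -/

/-- sum of all divisors of an integer prime to the level -/
theorem eis_coprime {D n : ℕ} (hD : D ≠ 1) (h : Nat.Coprime D n) (hn : n ≠ 0) :
    eis D n = 24 * ((∑ d ∈ n.divisors, d : ℕ) : ℂ) := by
  refine eis_val hn ?_
  have hfil : n.divisors.filter (fun d => ¬ D ∣ d) = n.divisors :=
    Finset.filter_true_of_mem fun d hd h' => hD (Nat.eq_one_of_dvd_coprimes h dvd_rfl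
      (h'.trans (Nat.dvd_of_mem_divisors hd)))
  rw [hfil]

section positive

variable {N : ℕ} {f : CuspForm (Gamma0 N) 2} {W : WeierstrassCurve ℤ} {r : ℕ → ℕ}
  (hf : f.IsNormalizedEigenform)
  (hap : ∀ q : ℕ, q.Prime → ¬ q ∣ N → qCoeff f q = (W.apOfModel q : ℂ))
  (hW : ∀ q : ℕ, q.Prime → ¬ q ∣ N → W.apOfModel q ^ 2 ≤ 4 * q)
  (hr : ∀ n : ℕ, n ≠ 0 → Nat.Coprime N n →
    2 * (r n : ℂ) = 9 * qCoeff f n + 3 * ((∑ d ∈ n.divisors, d : ℕ) : ℂ))

include hap hr in
theorem r_prime {p : ℕ} (hp : p.Prime) (hpN : ¬ p ∣ N) :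
    2 * (r p : ℤ) = 9 * W.apOfModel p + 3 * (p + 1) := by
  have h := hr p hp.ne_zero ((hp.coprime_iff_not_dvd.mpr hpN).symm)
  rw [hap p hp hpN, hp.divisors, Finset.sum_pair hp.one_lt.ne] at h
  have h1 : ((2 * (r p : ℤ) : ℤ) : ℂ) = ((9 * W.apOfModel p + 3 * (p + 1) : ℤ) : ℂ) := by
    push_cast at h ⊢
    linear_combination h
  exact_mod_cast h1

include hap hW hr in
theorem r_ne_zero_prime {p : ℕ} (hp : p.Prime) (hpN : ¬ p ∣ N) (h34 : 34 ≤ p) : r p ≠ 0 := by
  intro h0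
  have h1 := r_prime hap hr hp hpN
  have h2 := hW p hp hpN
  have h3 : (34 : ℤ) ≤ p := by exact_mod_cast h34
  rw [h0] at h1
  have h4 : 3 * W.apOfModel p = -(p + 1) := by
    push_cast at h1
    linarith
  have h5 : (3 * W.apOfModel p) ^ 2 ≤ 36 * p := by nlinarith
  rw [h4] at h5
  nlinarith

include hf hap hW hr in
theorem r_ne_zero_mul {x p : ℕ} (hx : x.Prime) (hxN : ¬ x ∣ N) (hp : p.Prime) (hpN : ¬ p ∣ N)
    (hxp : x ≠ p) (h0 : r x = 0) : r (x * p) ≠ 0 := by
  intro h1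
  have hc : Nat.Coprime x p := (Nat.coprime_primes hx hp).mpr hxp
  have h2 := r_prime hap hr hx hxN
  have h3 := hr (x * p) (mul_ne_zero hx.ne_zero hp.ne_zero)
    (Nat.Coprime.mul_right (hx.coprime_iff_not_dvd.mpr hxN).symm
      (hp.coprime_iff_not_dvd.mpr hpN).symm)
  rw [hf.qCoeff_mul_of_coprime x p hc, hap x hx hxN, hap p hp hpN, h1, hc.sum_divisors_mul,
    hx.divisors, hp.divisors, Finset.sum_pair hx.one_lt.ne, Finset.sum_pair hp.one_lt.ne] at h3
  have h4 : ((9 * (W.apOfModel x * W.apOfModel p) + 3 * ((1 + x) * (1 + p)) : ℤ) : ℂ) =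
      ((0 : ℤ) : ℂ) := by
    push_cast at h3 ⊢
    linear_combination -h3
  have h5 : 9 * (W.apOfModel x * W.apOfModel p) + 3 * ((1 + (x : ℤ)) * (1 + p)) = 0 := by
    exact_mod_cast h4
  rw [h0] at h2
  have h6 : 9 * W.apOfModel x = -(3 * ((x : ℤ) + 1)) := by
    push_cast at h2
    linarith
  have h7 : 3 * ((x : ℤ) + 1) * ((p : ℤ) + 1 - W.apOfModel p) = 0 := by
    linear_combination h5 - W.apOfModel p * h6
  have h8 : (0 : ℤ) < (x : ℤ) + 1 := by positivity
  have h9 : (p : ℤ) + 1 - W.apOfModel p = 0 := by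
    rcases mul_eq_zero.mp h7 with h | h
    · linarith
    · exact h
  have h10 := hW p hp hpN
  have h11 : W.apOfModel p = p + 1 := by linarith
  rw [h11] at h10
  have h12 : (2 : ℤ) ≤ p := by exact_mod_cast hp.two_le
  nlinarith

end positive

/-! ### representations and coefficients -/

theorem ev_H (x y : ℤ) : H.ev (x, y) = x ^ 2 + x * y + y ^ 2 := by
  simp only [BQ.ev, H, Int.cast_id]
  ring

theorem ev_H_nonneg (x y : ℤ) : 0 ≤ x ^ 2 + x * y + y ^ 2 := by
  nlinarith [sq_nonneg (2 * x + y), sq_nonneg y]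

theorem cf_ne_zero_of_repr {c n : ℕ} (hc : 0 < c) (h : Repr 1 c n) : cf H H c n ≠ 0 := by
  obtain ⟨x, y, z, w, h⟩ := h
  obtain ⟨a, ha⟩ := Int.eq_ofNat_of_zero_le (ev_H_nonneg x y)
  obtain ⟨b, hb⟩ := Int.eq_ofNat_of_zero_le (ev_H_nonneg z w)
  have hab : a + c * b = n := by
    unfold nf at h
    have : (a : ℤ) + c * b = n := by
      rw [← ha, ← hb, ← h]
      ring
    exact_mod_cast this
  have hpos : ∀ (u v : ℤ) (m : ℕ), u ^ 2 + u * v + v ^ 2 = m → 0 < H.rep m := by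
    intro u v m hm
    have : Finite {x : ℤ × ℤ // H.ev x = m} := finite_ev H_pos m
    have : Nonempty {x : ℤ × ℤ // H.ev x = m} := ⟨⟨(u, v), by rw [ev_H, hm]⟩⟩
    exact Nat.card_pos
  have h1 : H.rep (n - c * b) * H.rep b ≤ cf H H c n := by
    unfold cf
    refine Finset.single_le_sum (f := fun k => H.rep (n - c * k) * H.rep k)
      (fun _ _ => Nat.zero_le _) ?_
    rw [Finset.mem_filter, Finset.mem_range]
    have : b ≤ c * b := Nat.le_mul_of_pos_left b hc
    omega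
  have h2 : n - c * b = a := by omega
  rw [h2] at h1
  exact ((Nat.mul_pos (hpos x y a ha) (hpos z w b hb)).trans_le h1).ne'

theorem repr_of_repc_hex {c n : ℕ} (h : repc H H c n ≠ 0) : Repr 1 c n := by
  rw [repc_hex] at h
  obtain ⟨⟨v, hv⟩⟩ := (Nat.card_pos_iff.mp (Nat.pos_of_ne_zero h)).1
  refine ⟨v 0, v 1, v 2, v 3, ?_⟩
  rw [← hv]
  unfold nf
  ring

theorem r5_3 : Repr 1 5 3 := ⟨1, 1, 0, 0, by norm_num [nf]⟩
theorem r5_4 : Repr 1 5 4 := ⟨0, 2, 0, 0, by norm_num [nf]⟩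
theorem r5_5 : Repr 1 5 5 := ⟨0, 0, 0, 1, by norm_num [nf]⟩
theorem r5_6 : Repr 1 5 6 := ⟨0, 1, 0, 1, by norm_num [nf]⟩
theorem r5_7 : Repr 1 5 7 := ⟨1, 2, 0, 0, by norm_num [nf]⟩
theorem r5_8 : Repr 1 5 8 := ⟨1, 1, 0, 1, by norm_num [nf]⟩
theorem r5_13 : Repr 1 5 13 := ⟨1, 3, 0, 0, by norm_num [nf]⟩
theorem r5_17 : Repr 1 5 17 := ⟨2, 2, 0, 1, by norm_num [nf]⟩
theorem r5_19 : Repr 1 5 19 := ⟨0, 2, 1, 1, by norm_num [nf]⟩
theorem r5_22 : Repr 1 5 22 := ⟨1, 2, 1, 1, by norm_num [nf]⟩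
theorem r5_23 : Repr 1 5 23 := ⟨1, 1, 0, 2, by norm_num [nf]⟩
theorem r5_29 : Repr 1 5 29 := ⟨0, 3, 0, 2, by norm_num [nf]⟩
theorem r5_31 : Repr 1 5 31 := ⟨0, 4, 1, 1, by norm_num [nf]⟩
theorem r5_33 : Repr 1 5 33 := ⟨1, 3, 0, 2, by norm_num [nf]⟩
theorem r5_44 : Repr 1 5 44 := ⟨0, 3, 1, 2, by norm_num [nf]⟩
theorem r5_121 : Repr 1 5 121 := ⟨0, 4, 1, 4, by norm_num [nf]⟩
theorem r5_242 : Repr 1 5 242 := ⟨3, 3, 1, 6, by norm_num [nf]⟩
theorem r5_1331 : Repr 1 5 1331 := ⟨0, 6, 2, 15, by norm_num [nf]⟩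
theorem r7_3 : Repr 1 7 3 := ⟨1, 1, 0, 0, by norm_num [nf]⟩
theorem r7_4 : Repr 1 7 4 := ⟨0, 2, 0, 0, by norm_num [nf]⟩
theorem r7_7 : Repr 1 7 7 := ⟨0, 0, 0, 1, by norm_num [nf]⟩
theorem r7_8 : Repr 1 7 8 := ⟨0, 1, 0, 1, by norm_num [nf]⟩
theorem r7_10 : Repr 1 7 10 := ⟨1, 1, 0, 1, by norm_num [nf]⟩
theorem r7_11 : Repr 1 7 11 := ⟨0, 2, 0, 1, by norm_num [nf]⟩
theorem r7_13 : Repr 1 7 13 := ⟨1, 3, 0, 0, by norm_num [nf]⟩
theorem r7_14 : Repr 1 7 14 := ⟨1, 2, 0, 1, by norm_num [nf]⟩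
theorem r7_19 : Repr 1 7 19 := ⟨2, 2, 0, 1, by norm_num [nf]⟩
theorem r7_20 : Repr 1 7 20 := ⟨1, 3, 0, 1, by norm_num [nf]⟩
theorem r7_23 : Repr 1 7 23 := ⟨0, 4, 0, 1, by norm_num [nf]⟩
theorem r7_25 : Repr 1 7 25 := ⟨0, 2, 1, 1, by norm_num [nf]⟩
theorem r7_29 : Repr 1 7 29 := ⟨0, 1, 0, 2, by norm_num [nf]⟩
theorem r7_31 : Repr 1 7 31 := ⟨1, 1, 0, 2, by norm_num [nf]⟩
theorem r7_34 : Repr 1 7 34 := ⟨1, 3, 1, 1, by norm_num [nf]⟩
theorem r7_35 : Repr 1 7 35 := ⟨1, 2, 0, 2, by norm_num [nf]⟩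
theorem r7_50 : Repr 1 7 50 := ⟨0, 1, 1, 2, by norm_num [nf]⟩
theorem r7_68 : Repr 1 7 68 := ⟨2, 3, 1, 2, by norm_num [nf]⟩
theorem r7_85 : Repr 1 7 85 := ⟨0, 1, 2, 2, by norm_num [nf]⟩
theorem r7_119 : Repr 1 7 119 := ⟨1, 2, 0, 4, by norm_num [nf]⟩
theorem r7_125 : Repr 1 7 125 := ⟨1, 3, 0, 4, by norm_num [nf]⟩
theorem r7_170 : Repr 1 7 170 := ⟨3, 4, 2, 3, by norm_num [nf]⟩
theorem r7_289 : Repr 1 7 289 := ⟨0, 4, 2, 5, by norm_num [nf]⟩
theorem r7_425 : Repr 1 7 425 := ⟨4, 5, 2, 6, by norm_num [nf]⟩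
theorem r7_578 : Repr 1 7 578 := ⟨0, 5, 3, 7, by norm_num [nf]⟩
theorem r7_1445 : Repr 1 7 1445 := ⟨2, 6, 2, 13, by norm_num [nf]⟩
theorem r7_4913 : Repr 1 7 4913 := ⟨1, 3, 10, 20, by norm_num [nf]⟩

/-! ### level 15 -/

theorem rel_fifteen_hex {f : CuspForm (Gamma0 15) 2}
    (hrel : ∀ n : ℕ, 4 * qCoeff f n = (repc Q15 Q15 1 n : ℂ) - (repc R15 R15 1 n : ℂ)) {n : ℕ}
    (hn : n ≠ 0) (hc : Nat.Coprime 15 n) :
    2 * (repc H H 5 n : ℂ) = 9 * qCoeff f n + 3 * ((∑ d ∈ n.divisors, d : ℕ) : ℂ) := by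
  have h1 := hex_fifteen n
  have h2 := mixed_fifteen n
  have h3 := hrel n
  rw [eis_coprime (D := 5) (by norm_num) (Nat.Coprime.coprime_dvd_left (by norm_num) hc) hn,
    eis_coprime (D := 15) (by norm_num) hc hn,
    eis_coprime (D := 3) (by norm_num) (Nat.Coprime.coprime_dvd_left (by norm_num) hc) hn] at h2
  rw [h1]
  linear_combination (1 / 4 : ℂ) * h2 - (9 / 4 : ℂ) * h3

theorem hasse15 {q : ℕ} (hq : q.Prime) (h : ¬ q ∣ 15) : W15.apOfModel q ^ 2 ≤ 4 * q := by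
  have : Fact q.Prime := ⟨hq⟩
  exact hasse_model fun hd => h ((dvd_W15 q).mpr hd)

theorem repr_hex15_prime (p : ℕ) (hp : p.Prime) (hX : p ∉ ({2, 11} : Finset ℕ)) :
    Repr 1 5 p := by
  rw [Finset.mem_insert, Finset.mem_singleton, not_or] at hX
  rcases lt_or_ge p 34 with h | h
  · have hp' : p = 2 ∨ p = 3 ∨ p = 5 ∨ p = 7 ∨ p = 11 ∨ p = 13 ∨ p = 17 ∨ p = 19 ∨ p = 23 ∨
        p = 29 ∨ p = 31 := by
      clear hX
      interval_cases p <;> first | omega | (exfalso; revert hp; norm_num)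
    rcases hp' with rfl | rfl | rfl | rfl | rfl | rfl | rfl | rfl | rfl | rfl | rfl
    · exact absurd rfl hX.1
    · exact r5_3
    · exact r5_5
    · exact r5_7
    · exact absurd rfl hX.2
    · exact r5_13
    · exact r5_17
    · exact r5_19
    · exact r5_23
    · exact r5_29
    · exact r5_31
  · obtain ⟨f, hf, hap, hrel⟩ := exists_newform_fifteen
    have hpN : ¬ p ∣ 15 := fun hd => by
      have := Nat.le_of_dvd (by norm_num) hd
      omega
    exact repr_of_repc_hex (r_ne_zero_prime (r := repc H H 5) hap (fun q hq h => hasse15 hq h)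
      (fun n hn hc => rel_fifteen_hex hrel hn hc) hp hpN h)

theorem repr_hex15_mul (x : ℕ) (hx : x ∈ ({2, 11} : Finset ℕ)) (p : ℕ) (hp : p.Prime)
    (hX : p ∉ ({2, 11} : Finset ℕ)) (h5 : p ≠ 5) : Repr 1 5 (x * p) := by
  rw [Finset.mem_insert, Finset.mem_singleton] at hx
  rw [Finset.mem_insert, Finset.mem_singleton, not_or] at hX
  by_cases h3 : p = 3
  · subst h3
    rcases hx with rfl | rfl
    · exact r5_6
    · exact r5_33
  · obtain ⟨f, hf, hap, hrel⟩ := exists_newform_fifteen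
    have hpN : ¬ p ∣ 15 := fun hd => by
      rw [show (15 : ℕ) = 3 * 5 from rfl, hp.dvd_mul, Nat.prime_dvd_prime_iff_eq hp (by norm_num),
        Nat.prime_dvd_prime_iff_eq hp (by norm_num)] at hd
      omega
    have key : ∀ x : ℕ, x.Prime → ¬ x ∣ 15 → x ≠ p → repc H H 5 x = 0 → Repr 1 5 (x * p) :=
      fun x hx hxN hxp h0 => repr_of_repc_hex (r_ne_zero_mul (r := repc H H 5) hf hap
        (fun q hq h => hasse15 hq h) (fun n hn hc => rel_fifteen_hex hrel hn hc) hx hxN hp hpN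
        hxp h0)
    rcases hx with rfl | rfl
    · exact key 2 Nat.prime_two (by norm_num) (Ne.symm hX.1) (by
        rw [← cf_eq_repc H_pos H_pos (by norm_num), ch5_2])
    · exact key 11 (by norm_num) (by norm_num) (Ne.symm hX.2) (by
        rw [← cf_eq_repc H_pos H_pos (by norm_num), ch5_11])

theorem repr_hex15_descent (m : ℕ) (h : Repr 1 5 (5 * m)) : Repr 1 5 m := by
  obtain ⟨x, y, z, w, h⟩ := h
  unfold nf at h
  push_cast at h
  have h1 : (5 : ℤ) ∣ x ^ 2 + x * y + y ^ 2 :=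
    ⟨m - (z ^ 2 + z * w + w ^ 2), by linear_combination h⟩
  have key : ∀ a b : ZMod 5, a ^ 2 + a * b + b ^ 2 = 0 → a = 0 ∧ b = 0 := by decide
  have h2 := (ZMod.intCast_zmod_eq_zero_iff_dvd _ 5).mpr h1
  push_cast at h2
  obtain ⟨h3, h4⟩ := key _ _ h2
  obtain ⟨u, hu⟩ := (ZMod.intCast_zmod_eq_zero_iff_dvd x 5).mp h3
  obtain ⟨v, hv⟩ := (ZMod.intCast_zmod_eq_zero_iff_dvd y 5).mp h4
  push_cast at hu hv
  refine ⟨z, w, u, v, ?_⟩
  refine mul_left_cancel₀ (show (5 : ℤ) ≠ 0 by norm_num) ?_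
  rw [← h, hu, hv]
  unfold nf
  ring

/-- **`x² + xy + y² + 5(z² + zw + w²)` represents exactly the natural numbers different from
`2 · 5 ^ k` and `11 · 5 ^ k`.** -/
theorem fifteen_hex_iff (n : ℕ) :
    (∃ x y z w : ℤ, x ^ 2 + x * y + y ^ 2 + 5 * (z ^ 2 + z * w + w ^ 2) = n) ↔
      ∀ k, n ≠ 2 * 5 ^ k ∧ n ≠ 11 * 5 ^ k := by
  have h := mem_iff_of (S := Repr 1 5) (X := {2, 11}) (l := 5) ⟨1, 0, 0, 0, by simp [nf]⟩
    (fun a b ha hb => ha.mul hb) ⟨0, 0, 0, 0, by simp [nf]⟩ repr_hex15_prime repr_hex15_mul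
    (by
      intro x hx y hy
      rw [Finset.mem_insert, Finset.mem_singleton] at hx hy
      rcases hx with rfl | rfl <;> rcases hy with rfl | rfl
      · exact r5_4
      · exact r5_22
      · exact r5_22
      · exact r5_121)
    (by
      intro x hx y hy z hz
      rw [Finset.mem_insert, Finset.mem_singleton] at hx hy hz
      rcases hx with rfl | rfl <;> rcases hy with rfl | rfl <;> rcases hz with rfl | rfl
      · exact r5_8
      · exact r5_44
      · exact r5_44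
      · exact r5_242
      · exact r5_44
      · exact r5_242
      · exact r5_242
      · exact r5_1331)
    repr_hex15_descent
    (by
      intro x hx hS
      have h1 := cf_ne_zero_of_repr (c := 5) (by norm_num) hS
      rw [Finset.mem_insert, Finset.mem_singleton] at hx
      rcases hx with rfl | rfl
      · exact h1 ch5_2
      · exact h1 ch5_11) n
  have h2 : (∃ x y z w : ℤ, x ^ 2 + x * y + y ^ 2 + 5 * (z ^ 2 + z * w + w ^ 2) = n) ↔
      Repr 1 5 n := by
    unfold Repr nf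
    simp only [one_mul]
  rw [h2, h]
  constructor
  · intro h3 k
    exact ⟨h3 2 (by decide) k, h3 11 (by decide) k⟩
  · intro h3 x hx k
    rw [Finset.mem_insert, Finset.mem_singleton] at hx
    rcases hx with rfl | rfl
    · exact (h3 k).1
    · exact (h3 k).2

/-! ### level 21 -/

theorem rel_twentyone_hex {f : CuspForm (Gamma0 21) 2}
    (hrel : ∀ n : ℕ, qCoeff f n = 2 * (repc Q7 Q7 3 n : ℂ) - (eis 3 n - eis 7 n + eis 21 n) / 8)
    {n : ℕ} (hn : n ≠ 0) (hc : Nat.Coprime 21 n) :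
    2 * (repc H H 7 n : ℂ) = 9 * qCoeff f n + 3 * ((∑ d ∈ n.divisors, d : ℕ) : ℂ) := by
  have h1 := hex_twentyone n
  have h3 := hrel n
  rw [eis_coprime (D := 3) (by norm_num) (Nat.Coprime.coprime_dvd_left (by norm_num) hc) hn,
    eis_coprime (D := 7) (by norm_num) (Nat.Coprime.coprime_dvd_left (by norm_num) hc) hn,
    eis_coprime (D := 21) (by norm_num) hc hn] at h1 h3
  rw [h1]
  linear_combination -(9 : ℂ) * h3

theorem hasse21 {q : ℕ} (hq : q.Prime) (h : ¬ q ∣ 21) : W21.apOfModel q ^ 2 ≤ 4 * q := by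
  have : Fact q.Prime := ⟨hq⟩
  exact hasse_model fun hd => h ((dvd_W21 hq).mpr hd)

theorem repr_hex21_prime (p : ℕ) (hp : p.Prime) (hX : p ∉ ({2, 5, 17} : Finset ℕ)) :
    Repr 1 7 p := by
  rw [Finset.mem_insert, Finset.mem_insert, Finset.mem_singleton, not_or, not_or] at hX
  rcases lt_or_ge p 34 with h | h
  · have hp' : p = 2 ∨ p = 3 ∨ p = 5 ∨ p = 7 ∨ p = 11 ∨ p = 13 ∨ p = 17 ∨ p = 19 ∨ p = 23 ∨
        p = 29 ∨ p = 31 := by
      clear hX
      interval_cases p <;> first | omega | (exfalso; revert hp; norm_num)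
    rcases hp' with rfl | rfl | rfl | rfl | rfl | rfl | rfl | rfl | rfl | rfl | rfl
    · exact absurd rfl hX.1
    · exact r7_3
    · exact absurd rfl hX.2.1
    · exact r7_7
    · exact r7_11
    · exact r7_13
    · exact absurd rfl hX.2.2
    · exact r7_19
    · exact r7_23
    · exact r7_29
    · exact r7_31
  · obtain ⟨f, hf, hap, hrel⟩ := exists_newform_twentyone
    have hpN : ¬ p ∣ 21 := fun hd => by
      have := Nat.le_of_dvd (by norm_num) hd
      omega
    exact repr_of_repc_hex (r_ne_zero_prime (r := repc H H 7) hap (fun q hq h => hasse21 hq h)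
      (fun n hn hc => rel_twentyone_hex hrel hn hc) hp hpN h)

theorem repr_hex21_mul (x : ℕ) (hx : x ∈ ({2, 5, 17} : Finset ℕ)) (p : ℕ) (hp : p.Prime)
    (hX : p ∉ ({2, 5, 17} : Finset ℕ)) (h3 : p ≠ 3) : Repr 1 7 (x * p) := by
  rw [Finset.mem_insert, Finset.mem_insert, Finset.mem_singleton] at hx
  rw [Finset.mem_insert, Finset.mem_insert, Finset.mem_singleton, not_or, not_or] at hX
  by_cases h7 : p = 7
  · subst h7
    rcases hx with rfl | rfl | rfl
    · exact r7_14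
    · exact r7_35
    · exact r7_119
  · obtain ⟨f, hf, hap, hrel⟩ := exists_newform_twentyone
    have hpN : ¬ p ∣ 21 := fun hd => by
      rw [show (21 : ℕ) = 3 * 7 from rfl, hp.dvd_mul, Nat.prime_dvd_prime_iff_eq hp (by norm_num),
        Nat.prime_dvd_prime_iff_eq hp (by norm_num)] at hd
      omega
    have key : ∀ x : ℕ, x.Prime → ¬ x ∣ 21 → x ≠ p → repc H H 7 x = 0 → Repr 1 7 (x * p) :=
      fun x hx hxN hxp h0 => repr_of_repc_hex (r_ne_zero_mul (r := repc H H 7) hf hap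
        (fun q hq h => hasse21 hq h) (fun n hn hc => rel_twentyone_hex hrel hn hc) hx hxN hp hpN
        hxp h0)
    rcases hx with rfl | rfl | rfl
    · exact key 2 Nat.prime_two (by norm_num) (Ne.symm hX.1) (by
        rw [← cf_eq_repc H_pos H_pos (by norm_num), ch7_2])
    · exact key 5 (by norm_num) (by norm_num) (Ne.symm hX.2.1) (by
        rw [← cf_eq_repc H_pos H_pos (by norm_num), ch7_5])
    · exact key 17 (by norm_num) (by norm_num) (Ne.symm hX.2.2) (by
        rw [← cf_eq_repc H_pos H_pos (by norm_num), ch7_17])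

theorem repr_hex21_descent (m : ℕ) (h : Repr 1 7 (3 * m)) : Repr 1 7 m := by
  obtain ⟨x, y, z, w, h⟩ := h
  unfold nf at h
  push_cast at h
  have h1 : (3 : ℤ) ∣ (x - y) ^ 2 + (z - w) ^ 2 :=
    ⟨m - x * y - 7 * z * w - 2 * (z - w) ^ 2, by linear_combination h⟩
  obtain ⟨⟨t, ht⟩, ⟨s, hs⟩⟩ := sq_add_sq_three h1
  have hx : x = y + 3 * t := by linear_combination ht
  have hz : z = w + 3 * s := by linear_combination hs
  refine ⟨y + t, t, w + s, s, ?_⟩
  refine mul_left_cancel₀ (show (3 : ℤ) ≠ 0 by norm_num) ?_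
  rw [← h, hx, hz]
  unfold nf
  ring

/-- **`x² + xy + y² + 7(z² + zw + w²)` represents exactly the natural numbers different from
`2 · 3 ^ k`, `5 · 3 ^ k` and `17 · 3 ^ k`.** -/
theorem twentyone_hex_iff (n : ℕ) :
    (∃ x y z w : ℤ, x ^ 2 + x * y + y ^ 2 + 7 * (z ^ 2 + z * w + w ^ 2) = n) ↔
      ∀ k, n ≠ 2 * 3 ^ k ∧ n ≠ 5 * 3 ^ k ∧ n ≠ 17 * 3 ^ k := by
  have h := mem_iff_of (S := Repr 1 7) (X := {2, 5, 17}) (l := 3) ⟨1, 0, 0, 0, by simp [nf]⟩
    (fun a b ha hb => ha.mul hb) ⟨0, 0, 0, 0, by simp [nf]⟩ repr_hex21_prime repr_hex21_mul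
    (by
      intro x hx y hy
      rw [Finset.mem_insert, Finset.mem_insert, Finset.mem_singleton] at hx hy
      rcases hx with rfl | rfl | rfl <;> rcases hy with rfl | rfl | rfl <;>
        first
        | exact r7_4
        | exact r7_10
        | exact r7_25
        | exact r7_34
        | exact r7_85
        | exact r7_289)
    (by
      intro x hx y hy z hz
      rw [Finset.mem_insert, Finset.mem_insert, Finset.mem_singleton] at hx hy hz
      rcases hx with rfl | rfl | rfl <;> rcases hy with rfl | rfl | rfl <;>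
        rcases hz with rfl | rfl | rfl <;>
        first
        | exact r7_8
        | exact r7_20
        | exact r7_50
        | exact r7_68
        | exact r7_125
        | exact r7_170
        | exact r7_425
        | exact r7_578
        | exact r7_1445
        | exact r7_4913)
    repr_hex21_descent
    (by
      intro x hx hS
      have h1 := cf_ne_zero_of_repr (c := 7) (by norm_num) hS
      rw [Finset.mem_insert, Finset.mem_insert, Finset.mem_singleton] at hx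
      rcases hx with rfl | rfl | rfl
      · exact h1 ch7_2
      · exact h1 ch7_5
      · exact h1 ch7_17) n
  have h2 : (∃ x y z w : ℤ, x ^ 2 + x * y + y ^ 2 + 7 * (z ^ 2 + z * w + w ^ 2) = n) ↔
      Repr 1 7 n := by
    unfold Repr nf
    simp only [one_mul]
  rw [h2, h]
  constructor
  · intro h3 k
    exact ⟨h3 2 (by decide) k, h3 5 (by decide) k, h3 17 (by decide) k⟩
  · intro h3 x hx k
    rw [Finset.mem_insert, Finset.mem_insert, Finset.mem_singleton] at hx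
    rcases hx with rfl | rfl | rfl
    · exact (h3 k).1
    · exact (h3 k).2.1
    · exact (h3 k).2.2

end Fermat.Agent.Cor.QuatE

end
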