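import Fermat.Agent.Corollaries.QuatE.Lin

/-!
# The elliptic curve `y² + xy + y = x³ + x²` and the quaternary forms of level `15`

For a prime `p ≠ 3, 5` the error term `p - #{y² + xy + y = x³ + x²}` is a quarter of the
difference of the numbers of representations of `p` by `x² + xy + 4y² + z² + zw + 4w²` and by
`2x² + xy + 2y² + 2z² + zw + 2w²`.
-/

set_option autoImplicit false

noncomputable section

namespace Fermat.Agent.Cor.QuatE

open UpperHalfPlane ModularForm CongruenceSubgroup ModularFormClass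
open Fermat.Agent.LTF.Theta
open scoped MatrixGroups

/-- `x² + xy + 4y²` -/
def Q15 : BQ := ⟨1, 1, 4⟩

/-- `2x² + xy + 2y²` -/
def R15 : BQ := ⟨2, 1, 2⟩

theorem Q15_disc : Q15.disc = -15 := by norm_num [Q15, BQ.disc]

theorem R15_disc : R15.disc = -15 := by norm_num [R15, BQ.disc]

theorem Q15_pos : Q15.Pos := ⟨by norm_num [Q15], by rw [Q15_disc]; norm_num⟩

theorem R15_pos : R15.Pos := ⟨by norm_num [R15], by rw [R15_disc]; norm_num⟩

/-- `y² + xy + y = x³ + x²` -/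
def W15 : WeierstrassCurve ℤ := ⟨1, 1, 1, 0, 0⟩

theorem W15_Δ : W15.Δ = -(15 : ℕ) := by
  norm_num [W15, WeierstrassCurve.Δ, WeierstrassCurve.b₂, WeierstrassCurve.b₄,
    WeierstrassCurve.b₆, WeierstrassCurve.b₈]

theorem W15_c₄ : W15.c₄ = 1 := by
  norm_num [W15, WeierstrassCurve.c₄, WeierstrassCurve.b₂, WeierstrassCurve.b₄]

theorem dvd_W15 (q : ℕ) : q ∣ 15 ↔ (q : ℤ) ∣ W15.Δ := by
  rw [W15_Δ, dvd_neg, Int.natCast_dvd_natCast]

theorem W15_semistable : W15.IsSemistableModel := by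
  intro p hp _ h
  rw [W15_c₄] at h
  exact hp.one_lt.ne' (by exact_mod_cast Int.natCast_dvd_natCast.mp (by exact_mod_cast h) |> Nat.dvd_one.mp)

theorem psi15 : ModularCurve.dedekindPsi 15 = 24 := by
  rw [show (15 : ℕ) = 3 * 5 from rfl, P1Count.dedekindPsi_mul 3 5 (by norm_num),
    dedekindPsi_prime (by norm_num), dedekindPsi_prime (by norm_num)]

theorem pts15_two : Nat.card {q : ZMod 2 × ZMod 2 //
    q.2 ^ 2 + (W15.a₁ : ZMod 2) * q.1 * q.2 + (W15.a₃ : ZMod 2) * q.2 =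
      q.1 ^ 3 + (W15.a₂ : ZMod 2) * q.1 ^ 2 + (W15.a₄ : ZMod 2) * q.1 + (W15.a₆ : ZMod 2)} =
    3 := by
  rw [Nat.card_eq_fintype_card]
  simp only [W15]
  decide

theorem ap15_two : W15.apOfModel 2 = -1 := by
  have : Fact (Nat.Prime 2) := ⟨Nat.prime_two⟩
  have h2 : ¬ ((2 : ℕ) : ℤ) ∣ W15.Δ := by
    rw [← dvd_W15]
    norm_num
  rw [apOfModel_eq h2, pts15_two]
  norm_num

section reps

theorem q15_rep (n : ℕ) (hn : n ≤ 6) : Q15.rep n =
    ((Finset.Icc (-(2 : ℕ) : ℤ) (2 : ℕ) ×ˢ Finset.Icc (-(2 : ℕ) : ℤ) (2 : ℕ)).filter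
      (fun x : ℤ × ℤ => Q15.a * x.1 ^ 2 + Q15.b * x.1 * x.2 + Q15.c * x.2 ^ 2 = n)).card := by
  have hn' : (n : ℤ) ≤ 6 := by exact_mod_cast hn
  refine rep_eq_card Q15_pos 2 n ?_ ?_
  · rw [Q15_disc]
    simp only [Q15]
    push_cast
    linarith
  · rw [Q15_disc]
    simp only [Q15]
    push_cast
    linarith

theorem r15_rep (n : ℕ) (hn : n ≤ 6) : R15.rep n =
    ((Finset.Icc (-(2 : ℕ) : ℤ) (2 : ℕ) ×ˢ Finset.Icc (-(2 : ℕ) : ℤ) (2 : ℕ)).filter
      (fun x : ℤ × ℤ => R15.a * x.1 ^ 2 + R15.b * x.1 * x.2 + R15.c * x.2 ^ 2 = n)).card := by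
  have hn' : (n : ℤ) ≤ 6 := by exact_mod_cast hn
  refine rep_eq_card R15_pos 2 n ?_ ?_
  · rw [R15_disc]
    simp only [R15]
    push_cast
    linarith
  · rw [R15_disc]
    simp only [R15]
    push_cast
    linarith

theorem q15_0 : Q15.rep 0 = 1 := by rw [q15_rep 0 (by norm_num)]; decide
theorem q15_1 : Q15.rep 1 = 2 := by rw [q15_rep 1 (by norm_num)]; decide
theorem q15_2 : Q15.rep 2 = 0 := by rw [q15_rep 2 (by norm_num)]; decide
theorem q15_3 : Q15.rep 3 = 0 := by rw [q15_rep 3 (by norm_num)]; decide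
theorem q15_4 : Q15.rep 4 = 6 := by rw [q15_rep 4 (by norm_num)]; decide
theorem q15_5 : Q15.rep 5 = 0 := by rw [q15_rep 5 (by norm_num)]; decide
theorem q15_6 : Q15.rep 6 = 4 := by rw [q15_rep 6 (by norm_num)]; decide
theorem r15_0 : R15.rep 0 = 1 := by rw [r15_rep 0 (by norm_num)]; decide
theorem r15_1 : R15.rep 1 = 0 := by rw [r15_rep 1 (by norm_num)]; decide
theorem r15_2 : R15.rep 2 = 4 := by rw [r15_rep 2 (by norm_num)]; decide
theorem r15_3 : R15.rep 3 = 2 := by rw [r15_rep 3 (by norm_num)]; decide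
theorem r15_4 : R15.rep 4 = 0 := by rw [r15_rep 4 (by norm_num)]; decide
theorem r15_5 : R15.rep 5 = 2 := by rw [r15_rep 5 (by norm_num)]; decide
theorem r15_6 : R15.rep 6 = 0 := by rw [r15_rep 6 (by norm_num)]; decide

theorem cq15_0 : cf Q15 Q15 1 0 = 1 := by
  simp [cf, q15_0]
theorem cq15_1 : cf Q15 Q15 1 1 = 4 := by
  simp [cf, Finset.sum_filter, Finset.sum_range_succ, q15_0, q15_1]
theorem cq15_2 : cf Q15 Q15 1 2 = 4 := by
  simp [cf, Finset.sum_filter, Finset.sum_range_succ, q15_0, q15_1, q15_2]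
theorem cq15_3 : cf Q15 Q15 1 3 = 0 := by
  simp [cf, Finset.sum_filter, Finset.sum_range_succ, q15_0, q15_1, q15_2, q15_3]
theorem cq15_4 : cf Q15 Q15 1 4 = 12 := by
  simp [cf, Finset.sum_filter, Finset.sum_range_succ, q15_0, q15_1, q15_2, q15_3, q15_4]
theorem cq15_6 : cf Q15 Q15 1 6 = 8 := by
  simp [cf, Finset.sum_filter, Finset.sum_range_succ, q15_0, q15_1, q15_2, q15_3, q15_4, q15_5,
    q15_6]
theorem cr15_0 : cf R15 R15 1 0 = 1 := by
  simp [cf, r15_0]
theorem cr15_1 : cf R15 R15 1 1 = 0 := by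
  simp [cf, Finset.sum_filter, Finset.sum_range_succ, r15_0, r15_1]
theorem cr15_2 : cf R15 R15 1 2 = 8 := by
  simp [cf, Finset.sum_filter, Finset.sum_range_succ, r15_0, r15_1, r15_2]
theorem cr15_3 : cf R15 R15 1 3 = 4 := by
  simp [cf, Finset.sum_filter, Finset.sum_range_succ, r15_0, r15_1, r15_2, r15_3]
theorem cr15_4 : cf R15 R15 1 4 = 16 := by
  simp [cf, Finset.sum_filter, Finset.sum_range_succ, r15_0, r15_1, r15_2, r15_3, r15_4]
theorem cr15_6 : cf R15 R15 1 6 = 4 := by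
  simp [cf, Finset.sum_filter, Finset.sum_range_succ, r15_0, r15_1, r15_2, r15_3, r15_4, r15_5,
    r15_6]

end reps

/-- **`4 f = θ₁² - θ₂²`**: the newform of the curve `y² + xy + y = x³ + x²` in terms of the two
binary forms of discriminant `-15`. -/
theorem exists_newform_fifteen : ∃ f : CuspForm (Gamma0 15) 2, f.IsNormalizedEigenform ∧
    (∀ q : ℕ, q.Prime → ¬ q ∣ 15 → qCoeff f q = (W15.apOfModel q : ℂ)) ∧
    ∀ n : ℕ, 4 * qCoeff f n = (repc Q15 Q15 1 n : ℂ) - (repc R15 R15 1 n : ℂ) := by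
  obtain ⟨f, hf, hap⟩ := exists_form (W := W15) (N := 15) (by
      rw [show (15 : ℕ) = 3 * 5 from rfl, Nat.squarefree_mul (by norm_num)]
      exact ⟨Nat.prime_three.squarefree, Nat.prime_five.squarefree⟩)
    (by rw [W15_Δ]; norm_num) W15_semistable (fun q _ => dvd_W15 q)
  refine ⟨f, hf, hap, ?_⟩
  set t : ℂ := qCoeff f 3 with ht
  have h0 : qCoeff f 0 = 0 := CuspFormClass.qExpansion_coeff_zero f one_pos
    (one_mem_strictPeriods_Gamma0 15)
  have h2 : qCoeff f 2 = -1 := by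
    rw [hap 2 Nat.prime_two (by norm_num), ap15_two]
    norm_num
  have h4 : qCoeff f 4 = -1 := by
    have := hf.qCoeff_prime_pow_of_not_dvd 2 0 Nat.prime_two (by norm_num)
    norm_num at this
    rw [this, h2, hf.qCoeff_one]
    norm_num
  have h6 : qCoeff f 6 = -t := by
    have := hf.qCoeff_mul_of_coprime 2 3 (by norm_num)
    norm_num at this
    rw [this, h2]
    ring
  have hMF : IsMF 15 (fun n => 4 * qCoeff f n - ((cf Q15 Q15 1 n : ℂ) - (cf R15 R15 1 n : ℂ)) +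
      (t + 1) / 90 * (5 * eis 3 n - 6 * eis 5 n + eis 15 n)) :=
    (((IsMF.cusp f).smul 4).sub ((IsMF.theta Q15_pos Q15_pos rfl one_pos
      (by rw [Q15_disc]; norm_num)).sub (IsMF.theta R15_pos R15_pos rfl one_pos
      (by rw [R15_disc]; norm_num)))).add (((((IsMF.eis (N := 15) (D := 3) (by norm_num)).smul 5).sub
      ((IsMF.eis (N := 15) (D := 5) (by norm_num)).smul 6)).add
      (IsMF.eis (N := 15) (D := 15) (by norm_num))).smul ((t + 1) / 90))
  have hz := hMF.eq_zero (fun n hn => by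
    rw [psi15] at hn
    have hn' : n ≤ 4 := by omega
    interval_cases n
    · rw [h0, cq15_0, cr15_0, eis, eis, eis, if_pos rfl, if_pos rfl, if_pos rfl]
      norm_num
    · rw [hf.qCoeff_one, cq15_1, cr15_1, eis_val (D := 3) (s := 1) (by norm_num) (by decide),
        eis_val (D := 5) (s := 1) (by norm_num) (by decide),
        eis_val (D := 15) (s := 1) (by norm_num) (by decide)]
      norm_num
    · rw [h2, cq15_2, cr15_2, eis_val (D := 3) (s := 3) (by norm_num) (by decide),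
        eis_val (D := 5) (s := 3) (by norm_num) (by decide),
        eis_val (D := 15) (s := 3) (by norm_num) (by decide)]
      norm_num
    · rw [← ht, cq15_3, cr15_3, eis_val (D := 3) (s := 1) (by norm_num) (by decide),
        eis_val (D := 5) (s := 4) (by norm_num) (by decide),
        eis_val (D := 15) (s := 4) (by norm_num) (by decide)]
      push_cast
      ring
    · rw [h4, cq15_4, cr15_4, eis_val (D := 3) (s := 7) (by norm_num) (by decide),
        eis_val (D := 5) (s := 7) (by norm_num) (by decide),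
        eis_val (D := 15) (s := 7) (by norm_num) (by decide)]
      norm_num)
  have ht1 : t = -1 := by
    have h := hz 6
    rw [h6, cq15_6, cr15_6, eis_val (D := 3) (s := 3) (by norm_num) (by decide),
        eis_val (D := 5) (s := 12) (by norm_num) (by decide),
        eis_val (D := 15) (s := 12) (by norm_num) (by decide)] at h
    push_cast at h
    linear_combination (-1 / 16 : ℂ) * h
  intro n
  have h := hz n
  rw [ht1, cf_eq_repc Q15_pos Q15_pos one_pos, cf_eq_repc R15_pos R15_pos one_pos] at h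
  linear_combination h

/-- **Number of points of `y² + xy + y = x³ + x²` modulo `p`** and representations of `p` by
`x² + xy + 4y² + z² + zw + 4w²` and `2x² + xy + 2y² + 2z² + zw + 2w²`. -/
theorem fifteen {p : ℕ} [hp : Fact p.Prime] (h : ¬ p ∣ 15) :
    4 * Nat.card {q : ZMod p × ZMod p // q.2 ^ 2 + q.1 * q.2 + q.2 = q.1 ^ 3 + q.1 ^ 2} +
      Nat.card {v : Fin 4 → ℤ // v 0 ^ 2 + v 0 * v 1 + 4 * v 1 ^ 2 +
        v 2 ^ 2 + v 2 * v 3 + 4 * v 3 ^ 2 = p} =
    4 * p + Nat.card {v : Fin 4 → ℤ // 2 * v 0 ^ 2 + v 0 * v 1 + 2 * v 1 ^ 2 +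
        2 * v 2 ^ 2 + v 2 * v 3 + 2 * v 3 ^ 2 = p} := by
  obtain ⟨f, hf, hap, hrel⟩ := exists_newform_fifteen
  have h1 := hrel p
  rw [hap p hp.out h, apOfModel_eq (by rw [← dvd_W15]; exact h)] at h1
  have h2 : Nat.card {q : ZMod p × ZMod p //
      q.2 ^ 2 + (W15.a₁ : ZMod p) * q.1 * q.2 + (W15.a₃ : ZMod p) * q.2 =
        q.1 ^ 3 + (W15.a₂ : ZMod p) * q.1 ^ 2 + (W15.a₄ : ZMod p) * q.1 + (W15.a₆ : ZMod p)} =
      Nat.card {q : ZMod p × ZMod p // q.2 ^ 2 + q.1 * q.2 + q.2 = q.1 ^ 3 + q.1 ^ 2} := by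
    refine Nat.card_congr (Equiv.subtypeEquivRight fun q => ?_)
    simp [W15]
  rw [h2] at h1
  have h3 : repc Q15 Q15 1 p = Nat.card {v : Fin 4 → ℤ // v 0 ^ 2 + v 0 * v 1 + 4 * v 1 ^ 2 +
        v 2 ^ 2 + v 2 * v 3 + 4 * v 3 ^ 2 = p} := by
    rw [repc_eq_card]
    refine Nat.card_congr (Equiv.subtypeEquivRight fun v => ?_)
    simp only [Q15]
    ring_nf
  have h4 : repc R15 R15 1 p = Nat.card {v : Fin 4 → ℤ // 2 * v 0 ^ 2 + v 0 * v 1 + 2 * v 1 ^ 2 +
        2 * v 2 ^ 2 + v 2 * v 3 + 2 * v 3 ^ 2 = p} := by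
    rw [repc_eq_card]
    refine Nat.card_congr (Equiv.subtypeEquivRight fun v => ?_)
    simp only [R15]
    ring_nf
  rw [← h3, ← h4]
  have h5 : ((4 * Nat.card {q : ZMod p × ZMod p // q.2 ^ 2 + q.1 * q.2 + q.2 = q.1 ^ 3 + q.1 ^ 2} +
      repc Q15 Q15 1 p : ℕ) : ℂ) = ((4 * p + repc R15 R15 1 p : ℕ) : ℂ) := by
    push_cast at h1 ⊢
    linear_combination -h1
  exact_mod_cast h5

end Fermat.Agent.Cor.QuatE

end
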