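import Fermat.Agent.Corollaries.QuatE.Level11
import Fermat.Agent.Corollaries.QuatE.Level14

/-!
# Three universal quaternary forms, from modularity

The forms `x² + xy + 3y² + z² + zw + 3w²`, `x² + xy + 2y² + 2(z² + zw + 2w²)` and
`x² + xy + 2y² + 3(z² + zw + 2w²)` represent every natural number: the primes by the formulas of
`Level11`, `Level14`, `Level21` and the trivial bound `≤ 2p` for the number of affine points of an
elliptic curve over `𝔽_p`, the products because the forms are norm forms of quaternion orders.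
-/

set_option autoImplicit false

noncomputable section

namespace Fermat.Agent.Cor.QuatE

/-- `x² + xy + k y² + c (z² + zw + k w²)` -/
def nf (k c x y z w : ℤ) : ℤ := x ^ 2 + x * y + k * y ^ 2 + c * (z ^ 2 + z * w + k * w ^ 2)

/-- the values of the norm form of a quaternion order form a multiplicative set -/
theorem nf_mul (k c : ℤ) (x y z w x' y' z' w' : ℤ) :
    nf k c x y z w * nf k c x' y' z' w' =
      nf k c
        (x * x' - k * y * y' - c * (z * z' + z * w' + k * w * w'))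
        (x * y' + y * x' + y * y' - c * (w * z' - z * w'))
        (x * z' - k * y * w' + z * x' + z * y' + k * w * y')
        (x * w' + y * z' + y * w' + w * x' - z * y') := by
  unfold nf
  ring

/-- represented numbers -/
def Repr (k c : ℤ) (n : ℕ) : Prop := ∃ x y z w : ℤ, nf k c x y z w = n

theorem Repr.mul {k c : ℤ} {m n : ℕ} (hm : Repr k c m) (hn : Repr k c n) : Repr k c (m * n) := by
  obtain ⟨x, y, z, w, h⟩ := hm
  obtain ⟨x', y', z', w', h'⟩ := hn
  refine ⟨_, _, _, _, (nf_mul k c x y z w x' y' z' w').symm.trans ?_⟩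
  rw [h, h']
  push_cast
  rfl

theorem repr_of_primes {k c : ℤ} (h : ∀ p : ℕ, p.Prime → Repr k c p) (n : ℕ) : Repr k c n := by
  induction n using induction_on_primes with
  | zero => exact ⟨0, 0, 0, 0, by simp [nf]⟩
  | one => exact ⟨1, 0, 0, 0, by simp [nf]⟩
  | prime_mul p a hp ha => exact (h p hp).mul ha

/-- a monic quadratic equation in `y` for each `x` has at most `2 p` solutions `(x, y)` -/
theorem card_le {p : ℕ} [Fact p.Prime] (b c : ZMod p → ZMod p) :
    Nat.card {q : ZMod p × ZMod p // q.2 ^ 2 + b q.1 * q.2 = c q.1} ≤ 2 * p := by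
  classical
  have h1 : Nat.card {q : ZMod p × ZMod p // q.2 ^ 2 + b q.1 * q.2 = c q.1} =
      ∑ x : ZMod p, Nat.card {y : ZMod p // y ^ 2 + b x * y = c x} := by
    rw [← Nat.card_sigma]
    exact Nat.card_congr
      { toFun := fun q => ⟨q.1.1, q.1.2, q.2⟩
        invFun := fun s => ⟨(s.1, s.2.1), s.2.2⟩
        left_inv := fun _ => rfl
        right_inv := fun _ => rfl }
  rw [h1]
  have h2 : ∀ x : ZMod p, Nat.card {y : ZMod p // y ^ 2 + b x * y = c x} ≤ 2 := by
    intro x
    refine card_roots_le _ (b x) fun y z hy hz => ?_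
    linear_combination hy - hz
  calc _ ≤ ∑ _x : ZMod p, 2 := Finset.sum_le_sum fun x _ => h2 x
    _ = 2 * p := by
      rw [Finset.sum_const, Finset.card_univ, ZMod.card, smul_eq_mul, mul_comm]

/-- the affine points of `y² + (a x + b) y = g(x)` -/
theorem card_le' {p : ℕ} [Fact p.Prime] (P : ZMod p × ZMod p → Prop) (b c : ZMod p → ZMod p)
    (h : ∀ q, P q ↔ q.2 ^ 2 + b q.1 * q.2 = c q.1) : Nat.card {q : ZMod p × ZMod p // P q} ≤
      2 * p := by
  rw [Nat.card_congr (Equiv.subtypeEquivRight h)]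
  exact card_le b c

theorem repr_of_card_pos {k c : ℤ} {n : ℕ} {F : (Fin 4 → ℤ) → ℤ}
    (hF : ∀ v, F v = nf k c (v 0) (v 1) (v 2) (v 3)) (h : 0 < Nat.card {v : Fin 4 → ℤ // F v = n}) :
    Repr k c n := by
  obtain ⟨⟨v, hv⟩⟩ := (Nat.card_pos_iff.mp h).1
  exact ⟨v 0, v 1, v 2, v 3, by rw [← hF, hv]⟩

/-- **`x² + xy + 3y² + z² + zw + 3w²` represents every natural number.** -/
theorem universal_eleven (n : ℕ) :
    ∃ x y z w : ℤ, x ^ 2 + x * y + 3 * y ^ 2 + z ^ 2 + z * w + 3 * w ^ 2 = n := by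
  have key : Repr 3 1 n := by
    refine repr_of_primes (fun p hp => ?_) n
    by_cases h11 : p = 11
    · subst h11
      exact ⟨1, -2, 0, 0, by norm_num [nf]⟩
    have : Fact p.Prime := ⟨hp⟩
    have h := eleven h11
    have h1 := card_le' (p := p) (fun q => q.2 ^ 2 + q.2 = q.1 ^ 3 - q.1 ^ 2) (fun _ => 1)
      (fun x => x ^ 3 - x ^ 2) (fun q => by ring_nf)
    refine repr_of_card_pos (F := fun v => v 0 ^ 2 + v 0 * v 1 + 3 * v 1 ^ 2 +
        v 2 ^ 2 + v 2 * v 3 + 3 * v 3 ^ 2) (fun v => by unfold nf; ring) ?_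
    omega
  obtain ⟨x, y, z, w, h⟩ := key
  exact ⟨x, y, z, w, by rw [← h]; unfold nf; ring⟩

/-- **`x² + xy + 2y² + 2(z² + zw + 2w²)` represents every natural number.** -/
theorem universal_fourteen (n : ℕ) :
    ∃ x y z w : ℤ, x ^ 2 + x * y + 2 * y ^ 2 + 2 * (z ^ 2 + z * w + 2 * w ^ 2) = n := by
  have key : Repr 2 2 n := by
    refine repr_of_primes (fun p hp => ?_) n
    by_cases h14 : p ∣ 14
    · rw [show (14 : ℕ) = 2 * 7 from rfl, hp.dvd_mul,
        Nat.prime_dvd_prime_iff_eq hp (by norm_num),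
        Nat.prime_dvd_prime_iff_eq hp (by norm_num)] at h14
      rcases h14 with rfl | rfl
      · exact ⟨0, 1, 0, 0, by norm_num [nf]⟩
      · exact ⟨1, -2, 0, 0, by norm_num [nf]⟩
    have : Fact p.Prime := ⟨hp⟩
    have h := fourteen h14
    have h1 := card_le' (p := p) (fun q => q.2 ^ 2 + q.1 * q.2 + q.2 = q.1 ^ 3 - q.1)
      (fun x => x + 1) (fun x => x ^ 3 - x) (fun q => by ring_nf)
    refine repr_of_card_pos (F := fun v => v 0 ^ 2 + v 0 * v 1 + 2 * v 1 ^ 2 +
        2 * (v 2 ^ 2 + v 2 * v 3 + 2 * v 3 ^ 2)) (fun v => by unfold nf; ring) ?_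
    omega
  exact key

/-- **`x² + xy + 2y² + 3(z² + zw + 2w²)` represents every natural number.** -/
theorem universal_twentyone (n : ℕ) :
    ∃ x y z w : ℤ, x ^ 2 + x * y + 2 * y ^ 2 + 3 * (z ^ 2 + z * w + 2 * w ^ 2) = n := by
  have key : Repr 2 3 n := by
    refine repr_of_primes (fun p hp => ?_) n
    by_cases h21 : p ∣ 21
    · rw [show (21 : ℕ) = 3 * 7 from rfl, hp.dvd_mul,
        Nat.prime_dvd_prime_iff_eq hp (by norm_num),
        Nat.prime_dvd_prime_iff_eq hp (by norm_num)] at h21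
      rcases h21 with rfl | rfl
      · exact ⟨0, 0, 1, 0, by norm_num [nf]⟩
      · exact ⟨1, -2, 0, 0, by norm_num [nf]⟩
    have : Fact p.Prime := ⟨hp⟩
    have h := twentyone h21
    have h1 := card_le' (p := p) (fun q => q.2 ^ 2 + q.1 * q.2 = q.1 ^ 3 + q.1)
      (fun x => x) (fun x => x ^ 3 + x) (fun q => by ring_nf)
    refine repr_of_card_pos (F := fun v => v 0 ^ 2 + v 0 * v 1 + 2 * v 1 ^ 2 +
        3 * (v 2 ^ 2 + v 2 * v 3 + 2 * v 3 ^ 2)) (fun v => by unfold nf; ring) ?_
    omega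
  exact key

end Fermat.Agent.Cor.QuatE

end
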