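import Fermat.Agent.Corollaries.QuatE.Level15
import Fermat.Agent.Corollaries.QuatE.Universal
import Fermat.Agent.ECFrob.Main

/-!
# The elliptic curve `y² + xy + y = x³ + x²` and the three quaternary forms of level `15`

`N` = number of affine points modulo the prime `p ≠ 3, 5`:

* `x² + xy + 4y² + z² + zw + 4w²` represents `p` exactly `4 p + 2 - 2 N` times;
* `2x² + xy + 2y² + 2z² + zw + 2w²` represents `p` exactly `2 (N + 1)` times, twice the number of
  points of the curve over `𝔽_p`;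
* `x² + xy + 4y² + 2z² + zw + 2w²` represents `p` exactly `(4 p + 3 - N) / 2` times.

With Hasse's bound the natural numbers represented are: all but `3 · 9 ^ k` by the first form, all
but `9 ^ k` by the second one, all by the third one.
-/

set_option autoImplicit false

noncomputable section

namespace Fermat.Agent.Cor.QuatE

open UpperHalfPlane ModularForm CongruenceSubgroup ModularFormClass
open Fermat.Agent.LTF.Theta
open scoped MatrixGroups

theorem cm15_0 : cf Q15 R15 1 0 = 1 := by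
  simp [cf, q15_0, r15_0]
theorem cm15_1 : cf Q15 R15 1 1 = 2 := by
  simp [cf, Finset.sum_filter, Finset.sum_range_succ, q15_0, q15_1, r15_0, r15_1]
theorem cm15_2 : cf Q15 R15 1 2 = 4 := by
  simp [cf, Finset.sum_filter, Finset.sum_range_succ, q15_0, q15_1, q15_2, r15_0, r15_1, r15_2]
theorem cm15_3 : cf Q15 R15 1 3 = 10 := by
  simp [cf, Finset.sum_filter, Finset.sum_range_succ, q15_0, q15_1, q15_2, q15_3, r15_0, r15_1,
    r15_2, r15_3]
theorem cm15_4 : cf Q15 R15 1 4 = 10 := by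
  simp [cf, Finset.sum_filter, Finset.sum_range_succ, q15_0, q15_1, q15_2, q15_3, q15_4, r15_0,
    r15_1, r15_2, r15_3, r15_4]

/-- `θ₁² + θ₂²` is an Eisenstein series -/
theorem sum_fifteen (n : ℕ) : (repc Q15 Q15 1 n : ℂ) + (repc R15 R15 1 n : ℂ) =
    (eis 3 n - eis 5 n + eis 15 n) / 6 := by
  have hMF : IsMF 15 (fun n => ((cf Q15 Q15 1 n : ℂ) + (cf R15 R15 1 n : ℂ)) -
      1 / 6 * ((eis 3 n - eis 5 n) + eis 15 n)) :=
    ((IsMF.theta Q15_pos Q15_pos rfl one_pos (by rw [Q15_disc]; norm_num)).add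
      (IsMF.theta R15_pos R15_pos rfl one_pos (by rw [R15_disc]; norm_num))).sub
      ((((IsMF.eis (N := 15) (D := 3) (by norm_num)).sub
      (IsMF.eis (N := 15) (D := 5) (by norm_num))).add
      (IsMF.eis (N := 15) (D := 15) (by norm_num))).smul (1 / 6))
  have hz := hMF.eq_zero (fun n hn => by
    rw [psi15] at hn
    have hn' : n ≤ 4 := by omega
    interval_cases n
    · rw [cq15_0, cr15_0, eis, eis, eis, if_pos rfl, if_pos rfl, if_pos rfl]
      norm_num
    · rw [cq15_1, cr15_1, eis_val (D := 3) (s := 1) (by norm_num) (by decide),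
        eis_val (D := 5) (s := 1) (by norm_num) (by decide),
        eis_val (D := 15) (s := 1) (by norm_num) (by decide)]
      norm_num
    · rw [cq15_2, cr15_2, eis_val (D := 3) (s := 3) (by norm_num) (by decide),
        eis_val (D := 5) (s := 3) (by norm_num) (by decide),
        eis_val (D := 15) (s := 3) (by norm_num) (by decide)]
      norm_num
    · rw [cq15_3, cr15_3, eis_val (D := 3) (s := 1) (by norm_num) (by decide),
        eis_val (D := 5) (s := 4) (by norm_num) (by decide),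
        eis_val (D := 15) (s := 4) (by norm_num) (by decide)]
      norm_num
    · rw [cq15_4, cr15_4, eis_val (D := 3) (s := 7) (by norm_num) (by decide),
        eis_val (D := 5) (s := 7) (by norm_num) (by decide),
        eis_val (D := 15) (s := 7) (by norm_num) (by decide)]
      norm_num)
  have h := hz n
  rw [cf_eq_repc Q15_pos Q15_pos one_pos, cf_eq_repc R15_pos R15_pos one_pos] at h
  linear_combination h

/-- `8 θ₁ θ₂ - θ₁² + θ₂²` is an Eisenstein series -/
theorem mixed_fifteen (n : ℕ) : 8 * (repc Q15 R15 1 n : ℂ) =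
    (repc Q15 Q15 1 n : ℂ) - (repc R15 R15 1 n : ℂ) +
    (eis 5 n + eis 15 n - eis 3 n) / 2 := by
  have hMF : IsMF 15 (fun n => (8 * (cf Q15 R15 1 n : ℂ) -
      ((cf Q15 Q15 1 n : ℂ) - (cf R15 R15 1 n : ℂ))) -
      1 / 2 * ((eis 5 n + eis 15 n) - eis 3 n)) :=
    (((IsMF.theta Q15_pos R15_pos rfl one_pos (by rw [Q15_disc]; norm_num)).smul 8).sub
      ((IsMF.theta Q15_pos Q15_pos rfl one_pos (by rw [Q15_disc]; norm_num)).sub
      (IsMF.theta R15_pos R15_pos rfl one_pos (by rw [R15_disc]; norm_num)))).sub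
      ((((IsMF.eis (N := 15) (D := 5) (by norm_num)).add
      (IsMF.eis (N := 15) (D := 15) (by norm_num))).sub
      (IsMF.eis (N := 15) (D := 3) (by norm_num))).smul (1 / 2))
  have hz := hMF.eq_zero (fun n hn => by
    rw [psi15] at hn
    have hn' : n ≤ 4 := by omega
    interval_cases n
    · rw [cm15_0, cq15_0, cr15_0, eis, eis, eis, if_pos rfl, if_pos rfl, if_pos rfl]
      norm_num
    · rw [cm15_1, cq15_1, cr15_1, eis_val (D := 3) (s := 1) (by norm_num) (by decide),
        eis_val (D := 5) (s := 1) (by norm_num) (by decide),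
        eis_val (D := 15) (s := 1) (by norm_num) (by decide)]
      norm_num
    · rw [cm15_2, cq15_2, cr15_2, eis_val (D := 3) (s := 3) (by norm_num) (by decide),
        eis_val (D := 5) (s := 3) (by norm_num) (by decide),
        eis_val (D := 15) (s := 3) (by norm_num) (by decide)]
      norm_num
    · rw [cm15_3, cq15_3, cr15_3, eis_val (D := 3) (s := 1) (by norm_num) (by decide),
        eis_val (D := 5) (s := 4) (by norm_num) (by decide),
        eis_val (D := 15) (s := 4) (by norm_num) (by decide)]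
      norm_num
    · rw [cm15_4, cq15_4, cr15_4, eis_val (D := 3) (s := 7) (by norm_num) (by decide),
        eis_val (D := 5) (s := 7) (by norm_num) (by decide),
        eis_val (D := 15) (s := 7) (by norm_num) (by decide)]
      norm_num)
  have h := hz n
  rw [cf_eq_repc Q15_pos R15_pos one_pos, cf_eq_repc Q15_pos Q15_pos one_pos,
    cf_eq_repc R15_pos R15_pos one_pos] at h
  linear_combination h

/-- `x² + xy + 4y² + z² + zw + 4w²` -/
def F15a (v : Fin 4 → ℤ) : ℤ := v 0 ^ 2 + v 0 * v 1 + 4 * v 1 ^ 2 +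
    v 2 ^ 2 + v 2 * v 3 + 4 * v 3 ^ 2

/-- `2x² + xy + 2y² + 2z² + zw + 2w²` -/
def F15b (v : Fin 4 → ℤ) : ℤ := 2 * v 0 ^ 2 + v 0 * v 1 + 2 * v 1 ^ 2 +
    2 * v 2 ^ 2 + v 2 * v 3 + 2 * v 3 ^ 2

/-- `x² + xy + 4y² + 2z² + zw + 2w²` -/
def F15c (v : Fin 4 → ℤ) : ℤ := v 0 ^ 2 + v 0 * v 1 + 4 * v 1 ^ 2 +
    2 * v 2 ^ 2 + v 2 * v 3 + 2 * v 3 ^ 2

theorem repc_15a (n : ℕ) : repc Q15 Q15 1 n = Nat.card {v : Fin 4 → ℤ // F15a v = n} := by
  rw [repc_eq_card]
  refine Nat.card_congr (Equiv.subtypeEquivRight fun v => ?_)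
  simp only [Q15, F15a]
  ring_nf

theorem repc_15b (n : ℕ) : repc R15 R15 1 n = Nat.card {v : Fin 4 → ℤ // F15b v = n} := by
  rw [repc_eq_card]
  refine Nat.card_congr (Equiv.subtypeEquivRight fun v => ?_)
  simp only [R15, F15b]
  ring_nf

theorem repc_15c (n : ℕ) : repc Q15 R15 1 n = Nat.card {v : Fin 4 → ℤ // F15c v = n} := by
  rw [repc_eq_card]
  refine Nat.card_congr (Equiv.subtypeEquivRight fun v => ?_)
  simp only [Q15, R15, F15c]
  ring_nf

theorem fifteen_sum {p : ℕ} [hp : Fact p.Prime] (h : ¬ p ∣ 15) :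
    repc Q15 Q15 1 p + repc R15 R15 1 p = 4 * p + 4 := by
  have h3' : ¬ p ∣ 3 := fun hd => h (hd.trans (by norm_num))
  have h5' : ¬ p ∣ 5 := fun hd => h (hd.trans (by norm_num))
  have h1 := sum_fifteen p
  rw [eis_prime (by norm_num) hp.out h3', eis_prime (by norm_num) hp.out h5',
    eis_prime (by norm_num) hp.out h] at h1
  have h2 : ((repc Q15 Q15 1 p + repc R15 R15 1 p : ℕ) : ℂ) = ((4 * p + 4 : ℕ) : ℂ) := by
    push_cast
    linear_combination h1
  exact_mod_cast h2

theorem fifteen_mix {p : ℕ} [hp : Fact p.Prime] (h : ¬ p ∣ 15) :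
    8 * repc Q15 R15 1 p + repc R15 R15 1 p = repc Q15 Q15 1 p + 12 * p + 12 := by
  have h3' : ¬ p ∣ 3 := fun hd => h (hd.trans (by norm_num))
  have h5' : ¬ p ∣ 5 := fun hd => h (hd.trans (by norm_num))
  have h1 := mixed_fifteen p
  rw [eis_prime (by norm_num) hp.out h3', eis_prime (by norm_num) hp.out h5',
    eis_prime (by norm_num) hp.out h] at h1
  have h2 : ((8 * repc Q15 R15 1 p + repc R15 R15 1 p : ℕ) : ℂ) =
      ((repc Q15 Q15 1 p + 12 * p + 12 : ℕ) : ℂ) := by
    push_cast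
    linear_combination h1
  exact_mod_cast h2

/-- **Representations of `p` by `x² + xy + 4y² + z² + zw + 4w²`.** -/
theorem fifteen_one {p : ℕ} [hp : Fact p.Prime] (h : ¬ p ∣ 15) :
    2 * Nat.card {q : ZMod p × ZMod p // q.2 ^ 2 + q.1 * q.2 + q.2 = q.1 ^ 3 + q.1 ^ 2} +
      Nat.card {v : Fin 4 → ℤ // v 0 ^ 2 + v 0 * v 1 + 4 * v 1 ^ 2 +
        v 2 ^ 2 + v 2 * v 3 + 4 * v 3 ^ 2 = p} = 4 * p + 2 := by
  have h1 := fifteen h
  have h2 := fifteen_sum h
  rw [repc_15a, repc_15b] at h2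
  unfold F15a F15b at h2
  omega

/-- **The number of representations of `p` by `2x² + xy + 2y² + 2z² + zw + 2w²` is twice the number
of points of the elliptic curve `y² + xy + y = x³ + x²` over `𝔽_p`.** -/
theorem fifteen_two {p : ℕ} [hp : Fact p.Prime] (h : ¬ p ∣ 15) :
    Nat.card {v : Fin 4 → ℤ // 2 * v 0 ^ 2 + v 0 * v 1 + 2 * v 1 ^ 2 +
        2 * v 2 ^ 2 + v 2 * v 3 + 2 * v 3 ^ 2 = p} =
    2 * (Nat.card {q : ZMod p × ZMod p // q.2 ^ 2 + q.1 * q.2 + q.2 = q.1 ^ 3 + q.1 ^ 2} + 1) := by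
  have h1 := fifteen h
  have h2 := fifteen_sum h
  rw [repc_15a, repc_15b] at h2
  unfold F15a F15b at h2
  omega

/-- the same with the number of points of the projective curve -/
theorem card_fifteen {p : ℕ} [hp : Fact p.Prime] (h : ¬ p ∣ 15) :
    Nat.card {v : Fin 4 → ℤ // 2 * v 0 ^ 2 + v 0 * v 1 + 2 * v 1 ^ 2 +
        2 * v 2 ^ 2 + v 2 * v 3 + 2 * v 3 ^ 2 = p} = 2 * (W15.reductionMod p).card := by
  have hΔ : (W15.reductionMod p).Δ ≠ 0 := by
    unfold WeierstrassCurve.reductionMod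
    rw [WeierstrassCurve.map_Δ]
    intro h0
    exact h ((dvd_W15 p).mpr ((ZMod.intCast_zmod_eq_zero_iff_dvd _ _).mp h0))
  rw [fifteen_two h, card_eq _ hΔ]
  congr 2
  refine Nat.card_congr (Equiv.subtypeEquivRight fun q => ?_)
  simp [W15, WeierstrassCurve.reductionMod]

/-- **Representations of `p` by `x² + xy + 4y² + 2z² + zw + 2w²`.** -/
theorem fifteen_three {p : ℕ} [hp : Fact p.Prime] (h : ¬ p ∣ 15) :
    Nat.card {q : ZMod p × ZMod p // q.2 ^ 2 + q.1 * q.2 + q.2 = q.1 ^ 3 + q.1 ^ 2} +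
      2 * Nat.card {v : Fin 4 → ℤ // v 0 ^ 2 + v 0 * v 1 + 4 * v 1 ^ 2 +
        2 * v 2 ^ 2 + v 2 * v 3 + 2 * v 3 ^ 2 = p} = 4 * p + 3 := by
  have h1 := fifteen h
  have h2 := fifteen_sum h
  have h3 := fifteen_mix h
  rw [repc_15a, repc_15b] at h2 h3
  rw [repc_15c] at h3
  unfold F15a F15b at h2 h3
  unfold F15c at h3
  omega

end Fermat.Agent.Cor.QuatE

end
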