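import Fermat.Agent.Corollaries.QuatE.Lin

/-!
# The elliptic curve `y² + xy = x³ + x` and the quaternary form
`x² + xy + 2y² + 3(z² + zw + 2w²)` of level `21`
-/

set_option autoImplicit false

noncomputable section

namespace Fermat.Agent.Cor.QuatE

open UpperHalfPlane ModularForm CongruenceSubgroup ModularFormClass
open Fermat.Agent.LTF.Theta
open scoped MatrixGroups

/-- `x² + xy + 2y²` -/
def Q7 : BQ := ⟨1, 1, 2⟩

theorem Q7_disc : Q7.disc = -7 := by norm_num [Q7, BQ.disc]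

theorem Q7_pos : Q7.Pos := ⟨by norm_num [Q7], by rw [Q7_disc]; norm_num⟩

section reps

theorem q7_rep (n : ℕ) (hn : n ≤ 6) : Q7.rep n =
    ((Finset.Icc (-(2 : ℕ) : ℤ) (2 : ℕ) ×ˢ Finset.Icc (-(2 : ℕ) : ℤ) (2 : ℕ)).filter
      (fun x : ℤ × ℤ => Q7.a * x.1 ^ 2 + Q7.b * x.1 * x.2 + Q7.c * x.2 ^ 2 = n)).card := by
  have hn' : (n : ℤ) ≤ 6 := by exact_mod_cast hn
  refine rep_eq_card Q7_pos 2 n ?_ ?_
  · rw [Q7_disc]
    simp only [Q7]
    push_cast
    linarith
  · rw [Q7_disc]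
    simp only [Q7]
    push_cast
    linarith

theorem q7_0 : Q7.rep 0 = 1 := by rw [q7_rep 0 (by norm_num)]; decide
theorem q7_1 : Q7.rep 1 = 2 := by rw [q7_rep 1 (by norm_num)]; decide
theorem q7_2 : Q7.rep 2 = 4 := by rw [q7_rep 2 (by norm_num)]; decide
theorem q7_3 : Q7.rep 3 = 0 := by rw [q7_rep 3 (by norm_num)]; decide
theorem q7_4 : Q7.rep 4 = 6 := by rw [q7_rep 4 (by norm_num)]; decide
theorem q7_5 : Q7.rep 5 = 0 := by rw [q7_rep 5 (by norm_num)]; decide
theorem q7_6 : Q7.rep 6 = 0 := by rw [q7_rep 6 (by norm_num)]; decide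

theorem c21_0 : cf Q7 Q7 3 0 = 1 := by
  simp [cf, q7_0]
theorem c21_1 : cf Q7 Q7 3 1 = 2 := by
  simp [cf, Finset.sum_filter, Finset.sum_range_succ, q7_0, q7_1]
theorem c21_2 : cf Q7 Q7 3 2 = 4 := by
  simp [cf, Finset.sum_filter, Finset.sum_range_succ, q7_0, q7_2]
theorem c21_3 : cf Q7 Q7 3 3 = 2 := by
  simp [cf, Finset.sum_filter, Finset.sum_range_succ, q7_0, q7_1, q7_3]
theorem c21_4 : cf Q7 Q7 3 4 = 10 := by
  simp [cf, Finset.sum_filter, Finset.sum_range_succ, q7_0, q7_1, q7_4]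
theorem c21_5 : cf Q7 Q7 3 5 = 8 := by
  simp [cf, Finset.sum_filter, Finset.sum_range_succ, q7_0, q7_1, q7_2, q7_5]
theorem c21_6 : cf Q7 Q7 3 6 = 4 := by
  simp [cf, Finset.sum_filter, Finset.sum_range_succ, q7_0, q7_1, q7_2, q7_3, q7_6]

end reps

/-- `y² + xy = x³ + x` -/
def W21 : WeierstrassCurve ℤ := ⟨1, 0, 0, 1, 0⟩

theorem W21_Δ : W21.Δ = -(63 : ℕ) := by
  norm_num [W21, WeierstrassCurve.Δ, WeierstrassCurve.b₂, WeierstrassCurve.b₄,
    WeierstrassCurve.b₆, WeierstrassCurve.b₈]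

theorem W21_c₄ : W21.c₄ = -47 := by
  norm_num [W21, WeierstrassCurve.c₄, WeierstrassCurve.b₂, WeierstrassCurve.b₄]

theorem dvd_W21 {q : ℕ} (hq : q.Prime) : q ∣ 21 ↔ (q : ℤ) ∣ W21.Δ := by
  rw [W21_Δ, dvd_neg, Int.natCast_dvd_natCast, show (63 : ℕ) = 3 * 21 from rfl,
    hq.dvd_mul]
  constructor
  · exact Or.inr
  · rintro (h | h)
    · exact h.trans (by norm_num)
    · exact h

theorem W21_semistable : W21.IsSemistableModel := by
  intro p hp h1 h
  rw [← dvd_W21 hp, show (21 : ℕ) = 3 * 7 from rfl, hp.dvd_mul,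
    Nat.prime_dvd_prime_iff_eq hp (by norm_num), Nat.prime_dvd_prime_iff_eq hp (by norm_num)] at h1
  rw [W21_c₄] at h
  rcases h1 with rfl | rfl <;> norm_num at h

theorem psi21 : ModularCurve.dedekindPsi 21 = 32 := by
  rw [show (21 : ℕ) = 3 * 7 from rfl, P1Count.dedekindPsi_mul 3 7 (by norm_num),
    dedekindPsi_prime (by norm_num), dedekindPsi_prime (by norm_num)]

theorem pts21_two : Nat.card {q : ZMod 2 × ZMod 2 //
    q.2 ^ 2 + (W21.a₁ : ZMod 2) * q.1 * q.2 + (W21.a₃ : ZMod 2) * q.2 =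
      q.1 ^ 3 + (W21.a₂ : ZMod 2) * q.1 ^ 2 + (W21.a₄ : ZMod 2) * q.1 + (W21.a₆ : ZMod 2)} =
    3 := by
  rw [Nat.card_eq_fintype_card]
  simp only [W21]
  decide

theorem pts21_five : Nat.card {q : ZMod 5 × ZMod 5 //
    q.2 ^ 2 + (W21.a₁ : ZMod 5) * q.1 * q.2 + (W21.a₃ : ZMod 5) * q.2 =
      q.1 ^ 3 + (W21.a₂ : ZMod 5) * q.1 ^ 2 + (W21.a₄ : ZMod 5) * q.1 + (W21.a₆ : ZMod 5)} =
    7 := by
  rw [Nat.card_eq_fintype_card]
  simp only [W21]
  decide

theorem ap21_two : W21.apOfModel 2 = -1 := by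
  have : Fact (Nat.Prime 2) := ⟨Nat.prime_two⟩
  have h2 : ¬ ((2 : ℕ) : ℤ) ∣ W21.Δ := by
    rw [← dvd_W21 Nat.prime_two]
    norm_num
  rw [apOfModel_eq h2, pts21_two]
  norm_num

theorem ap21_five : W21.apOfModel 5 = -2 := by
  have : Fact (Nat.Prime 5) := ⟨Nat.prime_five⟩
  have h2 : ¬ ((5 : ℕ) : ℤ) ∣ W21.Δ := by
    rw [← dvd_W21 Nat.prime_five]
    norm_num
  rw [apOfModel_eq h2, pts21_five]
  norm_num

/-- **The newform of the curve `y² + xy = x³ + x`** in terms of the quaternary form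
`x² + xy + 2y² + 3(z² + zw + 2w²)` and Eisenstein series. -/
theorem exists_newform_twentyone : ∃ f : CuspForm (Gamma0 21) 2, f.IsNormalizedEigenform ∧
    (∀ q : ℕ, q.Prime → ¬ q ∣ 21 → qCoeff f q = (W21.apOfModel q : ℂ)) ∧
    ∀ n : ℕ, qCoeff f n = 2 * (repc Q7 Q7 3 n : ℂ) -
      (eis 3 n - eis 7 n + eis 21 n) / 8 := by
  obtain ⟨f, hf, hap⟩ := exists_form (W := W21) (N := 21) (by
      rw [show (21 : ℕ) = 3 * 7 from rfl, Nat.squarefree_mul (by norm_num)]
      exact ⟨Nat.prime_three.squarefree, (show Nat.Prime 7 by norm_num).squarefree⟩)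
    (by rw [W21_Δ]; norm_num) W21_semistable (fun q hq => dvd_W21 hq)
  refine ⟨f, hf, hap, ?_⟩
  set t : ℂ := qCoeff f 3 with ht
  have h0 : qCoeff f 0 = 0 := CuspFormClass.qExpansion_coeff_zero f one_pos
    (one_mem_strictPeriods_Gamma0 21)
  have h2 : qCoeff f 2 = -1 := by
    rw [hap 2 Nat.prime_two (by norm_num), ap21_two]
    norm_num
  have h5 : qCoeff f 5 = -2 := by
    rw [hap 5 Nat.prime_five (by norm_num), ap21_five]
    norm_num
  have h4 : qCoeff f 4 = -1 := by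
    have := hf.qCoeff_prime_pow_of_not_dvd 2 0 Nat.prime_two (by norm_num)
    norm_num at this
    rw [this, h2, hf.qCoeff_one]
    norm_num
  have h6 : qCoeff f 6 = -t := by
    have := hf.qCoeff_mul_of_coprime 2 3 (by norm_num)
    norm_num at this
    rw [this, h2]
    ring
  have e3 := IsMF.eis (N := 21) (D := 3) (by norm_num)
  have e7 := IsMF.eis (N := 21) (D := 7) (by norm_num)
  have e21 := IsMF.eis (N := 21) (D := 21) (by norm_num)
  have hMF : IsMF 21 (fun n => qCoeff f n - 2 * (cf Q7 Q7 3 n : ℂ) +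
      1 / 8 * (eis 3 n - eis 7 n + eis 21 n) +
      (t - 1) / 504 * (7 * eis 3 n - 9 * eis 7 n + 2 * eis 21 n)) :=
    (((IsMF.cusp f).sub ((IsMF.theta Q7_pos Q7_pos rfl (c := 3) (by norm_num)
      (by rw [Q7_disc]; norm_num)).smul 2)).add (((e3.sub e7).add e21).smul (1 / 8))).add
      ((((e3.smul 7).sub (e7.smul 9)).add (e21.smul 2)).smul ((t - 1) / 504))
  have hz := hMF.eq_zero (fun n hn => by
    rw [psi21] at hn
    have hn' : n ≤ 5 := by omega
    interval_cases n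
    · rw [h0, c21_0, eis, eis, eis, if_pos rfl, if_pos rfl, if_pos rfl]
      norm_num
    · rw [hf.qCoeff_one, c21_1, eis_val (D := 3) (s := 1) (by norm_num) (by decide),
        eis_val (D := 7) (s := 1) (by norm_num) (by decide),
        eis_val (D := 21) (s := 1) (by norm_num) (by decide)]
      norm_num
    · rw [h2, c21_2, eis_val (D := 3) (s := 3) (by norm_num) (by decide),
        eis_val (D := 7) (s := 3) (by norm_num) (by decide),
        eis_val (D := 21) (s := 3) (by norm_num) (by decide)]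
      norm_num
    · rw [← ht, c21_3, eis_val (D := 3) (s := 1) (by norm_num) (by decide),
        eis_val (D := 7) (s := 4) (by norm_num) (by decide),
        eis_val (D := 21) (s := 4) (by norm_num) (by decide)]
      push_cast
      ring
    · rw [h4, c21_4, eis_val (D := 3) (s := 7) (by norm_num) (by decide),
        eis_val (D := 7) (s := 7) (by norm_num) (by decide),
        eis_val (D := 21) (s := 7) (by norm_num) (by decide)]
      norm_num
    · rw [h5, c21_5, eis_val (D := 3) (s := 6) (by norm_num) (by decide),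
        eis_val (D := 7) (s := 6) (by norm_num) (by decide),
        eis_val (D := 21) (s := 6) (by norm_num) (by decide)]
      norm_num)
  have ht1 : t = 1 := by
    have h := hz 6
    rw [h6, c21_6, eis_val (D := 3) (s := 3) (by norm_num) (by decide),
        eis_val (D := 7) (s := 12) (by norm_num) (by decide),
        eis_val (D := 21) (s := 12) (by norm_num) (by decide)] at h
    push_cast at h
    linear_combination (-1 / 4 : ℂ) * h
  intro n
  have h := hz n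
  rw [ht1, cf_eq_repc Q7_pos Q7_pos (by norm_num)] at h
  linear_combination h

/-- **Number of points of `y² + xy = x³ + x` modulo `p`** and representations of `p` by
`x² + xy + 2y² + 3(z² + zw + 2w²)`. -/
theorem twentyone {p : ℕ} [hp : Fact p.Prime] (h : ¬ p ∣ 21) :
    Nat.card {q : ZMod p × ZMod p // q.2 ^ 2 + q.1 * q.2 = q.1 ^ 3 + q.1} +
      2 * Nat.card {v : Fin 4 → ℤ // v 0 ^ 2 + v 0 * v 1 + 2 * v 1 ^ 2 +
        3 * (v 2 ^ 2 + v 2 * v 3 + 2 * v 3 ^ 2) = p} = 4 * p + 3 := by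
  obtain ⟨f, hf, hap, hrel⟩ := exists_newform_twentyone
  have h1 := hrel p
  have h3' : ¬ p ∣ 3 := fun hd => h (hd.trans (by norm_num))
  have h7' : ¬ p ∣ 7 := fun hd => h (hd.trans (by norm_num))
  rw [hap p hp.out h, apOfModel_eq (by rw [← dvd_W21 hp.out]; exact h),
    eis_prime (by norm_num) hp.out h3', eis_prime (by norm_num) hp.out h7',
    eis_prime (by norm_num) hp.out h] at h1
  have h2 : Nat.card {q : ZMod p × ZMod p //
      q.2 ^ 2 + (W21.a₁ : ZMod p) * q.1 * q.2 + (W21.a₃ : ZMod p) * q.2 =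
        q.1 ^ 3 + (W21.a₂ : ZMod p) * q.1 ^ 2 + (W21.a₄ : ZMod p) * q.1 + (W21.a₆ : ZMod p)} =
      Nat.card {q : ZMod p × ZMod p // q.2 ^ 2 + q.1 * q.2 = q.1 ^ 3 + q.1} := by
    refine Nat.card_congr (Equiv.subtypeEquivRight fun q => ?_)
    simp [W21]
  rw [h2] at h1
  have h3 : repc Q7 Q7 3 p = Nat.card {v : Fin 4 → ℤ // v 0 ^ 2 + v 0 * v 1 + 2 * v 1 ^ 2 +
        3 * (v 2 ^ 2 + v 2 * v 3 + 2 * v 3 ^ 2) = p} := by
    rw [repc_eq_card]
    refine Nat.card_congr (Equiv.subtypeEquivRight fun v => ?_)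
    simp only [Q7]
    push_cast
    ring_nf
  rw [← h3]
  have h5 : ((Nat.card {q : ZMod p × ZMod p // q.2 ^ 2 + q.1 * q.2 = q.1 ^ 3 + q.1} +
      2 * repc Q7 Q7 3 p : ℕ) : ℂ) = ((4 * p + 3 : ℕ) : ℂ) := by
    push_cast at h1 ⊢
    linear_combination -h1
  exact_mod_cast h5

end Fermat.Agent.Cor.QuatE

end
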