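import Fermat.Agent.Corollaries.QuatE.Level33
import Fermat.Agent.Corollaries.QuatE.Level19Forms

/-!
# The natural numbers represented by `x² + xy + 3y² + 3(z² + zw + 3w²)`

All of them except `2 · 11 ^ k`: modularity of the elliptic curves of conductors `11` and `33` and
Hasse's bound.
-/

set_option autoImplicit false

noncomputable section

namespace Fermat.Agent.Cor.QuatE

open UpperHalfPlane ModularForm CongruenceSubgroup ModularFormClass
open Fermat.Agent.LTF.Theta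
open scoped MatrixGroups

/-- the sets of represented numbers with exceptions `q ℓ ^ j` -/
theorem repr_iff_of {k c : ℤ} {q l : ℕ} (hq : q.Prime)
    (h1 : ∀ p : ℕ, p.Prime → p ≠ q → Repr k c p)
    (h2 : ∀ p : ℕ, p.Prime → p ≠ q → p ≠ l → Repr k c (q * p))
    (h3 : ∀ i : ℕ, i ≠ 1 → Repr k c (q ^ i)) (h4 : ∀ m : ℕ, Repr k c (l * m) → Repr k c m)
    (h5 : ¬ Repr k c q) (n : ℕ) : Repr k c n ↔ ∀ j, n ≠ q * l ^ j := by
  constructor
  · intro h j
    induction j generalizing n with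
    | zero =>
      rintro rfl
      rw [pow_zero, mul_one] at h
      exact h5 h
    | succ j ih =>
      rintro rfl
      refine ih (q * l ^ j) (h4 _ ?_) rfl
      rw [show l * (q * l ^ j) = q * l ^ (j + 1) by ring]
      exact h
  · intro h
    rcases Nat.eq_zero_or_pos n with rfl | hn0
    · exact ⟨0, 0, 0, 0, by simp [nf]⟩
    obtain ⟨i, t, ht, rfl⟩ := Nat.exists_eq_pow_mul_and_not_dvd hn0.ne' q hq.one_lt.ne'
    by_cases hi : i = 1
    · subst hi
      have h6 : ∃ p, p.Prime ∧ p ∣ t ∧ p ≠ l := by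
        by_contra hcon
        push Not at hcon
        have ht0 : t ≠ 0 := by
          rintro rfl
          exact ht (dvd_zero q)
        have := Nat.eq_prime_pow_of_unique_prime_dvd ht0 (fun {d} hd hdt => hcon d hd hdt)
        exact h _ (by rw [pow_one, ← this])
      obtain ⟨p, hp, ⟨s, rfl⟩, hpl⟩ := h6
      have hpq : p ≠ q := by
        rintro rfl
        exact ht (dvd_mul_right p s)
      have h7 := (h2 p hp hpq hpl).mul (repr_of_coprime h1 s fun hd => ht (hd.mul_left p))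
      rw [pow_one, ← mul_assoc]
      exact h7
    · exact (h3 i hi).mul (repr_of_coprime h1 t ht)

theorem hasse33 {p : ℕ} [hp : Fact p.Prime] (h : ¬ p ∣ 33) : W33.apOfModel p ^ 2 ≤ 4 * p :=
  hasse_model fun hd => h ((dvd_W33 hp.out).mpr hd)

theorem hasse11 {p : ℕ} [hp : Fact p.Prime] (h : p ≠ 11) : W11.apOfModel p ^ 2 ≤ 4 * p := by
  refine hasse_model fun hd => h ?_
  rw [W11_Δ, dvd_neg, Int.natCast_dvd_natCast,
    Nat.prime_dvd_prime_iff_eq hp.out (by norm_num)] at hd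
  exact hd

theorem eis_two_mul {D p : ℕ} (hD : D ≠ 1) (hD2 : Nat.Coprime D 2) (hp : p.Prime) (h2 : p ≠ 2)
    (h : ¬ p ∣ D) : eis D (2 * p) = 24 * ((3 * (p + 1) : ℕ) : ℂ) := by
  have hc : Nat.Coprime 2 p := (Nat.coprime_primes Nat.prime_two hp).mpr h2.symm
  have h0 : ¬ D ∣ 2 * p := by
    intro hd
    rcases (Nat.dvd_prime hp).mp (hD2.dvd_of_dvd_mul_left hd) with h3 | h3
    · exact hD h3
    · exact h (h3 ▸ dvd_rfl)
  refine eis_val (mul_ne_zero two_ne_zero hp.ne_zero) ?_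
  have hfil : (2 * p).divisors.filter (fun d => ¬ D ∣ d) = (2 * p).divisors :=
    Finset.filter_true_of_mem fun d hd h => h0 (h.trans (Nat.dvd_of_mem_divisors hd))
  rw [hfil, hc.sum_divisors_mul, Nat.prime_two.divisors, hp.divisors,
    Finset.sum_pair (by norm_num), Finset.sum_pair hp.one_lt.ne]
  ring

theorem repr_of_repc {n : ℕ} (h : repc Q11 Q11 3 n ≠ 0) : Repr 3 3 n := by
  rw [repc_eq_card] at h
  obtain ⟨⟨v, hv⟩⟩ := (Nat.card_pos_iff.mp (Nat.pos_of_ne_zero h)).1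
  refine ⟨v 0, v 1, v 2, v 3, ?_⟩
  rw [← hv]
  simp only [Q11]
  unfold nf
  push_cast
  ring

theorem repr_33_prime {p : ℕ} (hp : p.Prime) (h2 : p ≠ 2) : Repr 3 3 p := by
  have : Fact p.Prime := ⟨hp⟩
  rcases lt_or_ge p 20 with h | h
  · have hp' : p = 2 ∨ p = 3 ∨ p = 5 ∨ p = 7 ∨ p = 11 ∨ p = 13 ∨ p = 17 ∨ p = 19 := by
      clear this h2
      interval_cases p <;> first | omega | (exfalso; revert hp; norm_num)
    rcases hp' with rfl | rfl | rfl | rfl | rfl | rfl | rfl | rfl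
    · exact absurd rfl h2
    · exact ⟨0, 1, 0, 0, by norm_num [nf]⟩
    · exact ⟨1, 1, 0, 0, by norm_num [nf]⟩
    · exact ⟨2, 0, 1, 0, by norm_num [nf]⟩
    · exact ⟨1, -2, 0, 0, by norm_num [nf]⟩
    · exact ⟨1, 0, 2, 0, by norm_num [nf]⟩
    · exact ⟨1, 1, 2, 0, by norm_num [nf]⟩
    · exact ⟨2, 0, 1, 1, by norm_num [nf]⟩
  · have h33 : ¬ p ∣ 33 := by
      rw [show (33 : ℕ) = 3 * 11 from rfl, hp.dvd_mul,
        Nat.prime_dvd_prime_iff_eq hp (by norm_num), Nat.prime_dvd_prime_iff_eq hp (by norm_num)]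
      omega
    have h3' : ¬ p ∣ 3 := fun hd => h33 (hd.trans (by norm_num))
    have h11' : ¬ p ∣ 11 := fun hd => h33 (hd.trans (by norm_num))
    have h11 : p ≠ 11 := by omega
    have h3 : ¬ 3 ∣ p := fun hd => by
      have := (Nat.prime_dvd_prime_iff_eq Nat.prime_three hp).mp hd
      omega
    refine repr_of_repc fun h0 => ?_
    obtain ⟨f, g, -, -, hap, hapg, hrel⟩ := exists_newform_thirtythree
    have h1 := hrel p
    rw [hap p hp h33, hapg p hp h11, if_neg h3, eis_prime (by norm_num) hp h3',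
      eis_prime (by norm_num) hp h11', eis_prime (by norm_num) hp h33, h0] at h1
    have h4 : ((9 * ((p : ℤ) + 1) : ℤ) : ℂ) =
        ((-(5 * W33.apOfModel p + 16 * W11.apOfModel p) : ℤ) : ℂ) := by
      push_cast at h1 ⊢
      linear_combination (-1 : ℂ) * h1
    have h5 : 9 * ((p : ℤ) + 1) = -(5 * W33.apOfModel p + 16 * W11.apOfModel p) := by
      exact_mod_cast h4
    have h6 := hasse33 h33
    have h7 := hasse11 h11
    have h8 : (20 : ℤ) ≤ p := by exact_mod_cast h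
    have h9 : (5 * W33.apOfModel p + 16 * W11.apOfModel p) ^ 2 ≤ 21 * (21 * (4 * p)) := by
      nlinarith [sq_nonneg (W33.apOfModel p - W11.apOfModel p)]
    have h10 : (9 * ((p : ℤ) + 1)) ^ 2 ≤ 21 * (21 * (4 * p)) := by
      rw [h5, neg_sq]
      exact h9
    nlinarith

theorem repr_33_two_mul {p : ℕ} (hp : p.Prime) (h2 : p ≠ 2) (h11 : p ≠ 11) :
    Repr 3 3 (2 * p) := by
  have : Fact p.Prime := ⟨hp⟩
  rcases lt_or_ge p 6 with h | h
  · have hp' : p = 2 ∨ p = 3 ∨ p = 5 := by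
      clear this h2 h11
      interval_cases p <;> first | omega | (exfalso; revert hp; norm_num)
    rcases hp' with rfl | rfl | rfl
    · exact absurd rfl h2
    · exact ⟨0, 1, 1, 0, by norm_num [nf]⟩
    · exact ⟨1, 0, 0, 1, by norm_num [nf]⟩
  · have h33 : ¬ p ∣ 33 := by
      rw [show (33 : ℕ) = 3 * 11 from rfl, hp.dvd_mul,
        Nat.prime_dvd_prime_iff_eq hp (by norm_num), Nat.prime_dvd_prime_iff_eq hp (by norm_num)]
      omega
    have h3' : ¬ p ∣ 3 := fun hd => h33 (hd.trans (by norm_num))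
    have h11' : ¬ p ∣ 11 := fun hd => h33 (hd.trans (by norm_num))
    have h3 : ¬ 3 ∣ 2 * p := fun hd => by
      rcases (Nat.prime_three.dvd_mul).mp hd with h4 | h4
      · norm_num at h4
      · have := (Nat.prime_dvd_prime_iff_eq Nat.prime_three hp).mp h4
        omega
    have hc : Nat.Coprime 2 p := (Nat.coprime_primes Nat.prime_two hp).mpr (Ne.symm h2)
    refine repr_of_repc fun h0 => ?_
    obtain ⟨f, g, hf, hg, hap, hapg, hrel⟩ := exists_newform_thirtythree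
    have h1 := hrel (2 * p)
    rw [hf.qCoeff_mul_of_coprime 2 p hc, hg.qCoeff_mul_of_coprime 2 p hc,
      hap 2 Nat.prime_two (by norm_num), hapg 2 Nat.prime_two (by norm_num), ap33_two, ap11_two,
      hap p hp h33, hapg p hp h11, if_neg h3,
      eis_two_mul (by norm_num) (by norm_num) hp h2 h3',
      eis_two_mul (by norm_num) (by norm_num) hp h2 h11',
      eis_two_mul (by norm_num) (by norm_num) hp h2 h33, h0] at h1
    have h4 : ((27 * ((p : ℤ) + 1) : ℤ) : ℂ) =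
        ((32 * W11.apOfModel p - 5 * W33.apOfModel p : ℤ) : ℂ) := by
      push_cast at h1 ⊢
      linear_combination (-1 : ℂ) * h1
    have h5 : 27 * ((p : ℤ) + 1) = 32 * W11.apOfModel p - 5 * W33.apOfModel p := by
      exact_mod_cast h4
    have h6 := hasse33 h33
    have h7 := hasse11 h11
    have h8 : (6 : ℤ) ≤ p := by exact_mod_cast h
    have h9 : (32 * W11.apOfModel p - 5 * W33.apOfModel p) ^ 2 ≤ 37 * (37 * (4 * p)) := by
      nlinarith [sq_nonneg (W33.apOfModel p + W11.apOfModel p)]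
    rw [← h5] at h9
    nlinarith

theorem repr_33_pow {i : ℕ} (hi : i ≠ 1) : Repr 3 3 (2 ^ i) := by
  induction i using Nat.strong_induction_on with
  | _ i ih =>
    rcases i with _ | _ | _ | _ | i
    · exact ⟨1, 0, 0, 0, by simp [nf]⟩
    · exact absurd rfl hi
    · exact ⟨2, 0, 0, 0, by norm_num [nf]⟩
    · exact ⟨1, 1, 1, 0, by norm_num [nf]⟩
    · have h1 : Repr 3 3 (2 ^ (i + 2)) := ih (i + 2) (by omega) (by omega)
      have h2 : Repr 3 3 (2 ^ 2) := ⟨2, 0, 0, 0, by norm_num [nf]⟩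
      have := h1.mul h2
      rw [← pow_add] at this
      exact this

theorem sq_add_three_sq_eleven {a b : ℤ} (h : (11 : ℤ) ∣ a ^ 2 + 3 * b ^ 2) :
    (11 : ℤ) ∣ a ∧ (11 : ℤ) ∣ b := by
  have h1 : ∀ x y : ZMod 11, x ^ 2 + 3 * y ^ 2 = 0 → x = 0 ∧ y = 0 := by decide
  have h2 := (ZMod.intCast_zmod_eq_zero_iff_dvd _ 11).mpr h
  push_cast at h2
  obtain ⟨h3, h4⟩ := h1 _ _ h2
  exact ⟨(ZMod.intCast_zmod_eq_zero_iff_dvd _ 11).mp h3,
    (ZMod.intCast_zmod_eq_zero_iff_dvd _ 11).mp h4⟩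

theorem repr_33_descent {n : ℕ} (hn : Repr 3 3 (11 * n)) : Repr 3 3 n := by
  obtain ⟨x, y, z, w, h⟩ := hn
  unfold nf at h
  push_cast at h
  have h1 : (11 : ℤ) ∣ (2 * x + y) ^ 2 + 3 * (2 * z + w) ^ 2 :=
    ⟨4 * n - y ^ 2 - 3 * w ^ 2, by linear_combination 4 * h⟩
  obtain ⟨⟨u, hu⟩, ⟨s, hs⟩⟩ := sq_add_three_sq_eleven h1
  refine ⟨-x + 6 * u, -u, -z + 6 * s, -s, ?_⟩
  have hy : y = 11 * u - 2 * x := by linear_combination hu
  have hw : w = 11 * s - 2 * z := by linear_combination hs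
  refine mul_left_cancel₀ (show (11 : ℤ) ≠ 0 by norm_num) ?_
  rw [← h, hy, hw]
  unfold nf
  ring

theorem not_repr_33_two : ¬ Repr 3 3 2 := by
  rintro ⟨x, y, z, w, h⟩
  unfold nf at h
  push_cast at h
  have h1 : (2 * x + y) ^ 2 + 11 * y ^ 2 + 3 * ((2 * z + w) ^ 2 + 11 * w ^ 2) = 8 := by
    linear_combination 4 * h
  have hy : y = 0 := by
    by_contra hy
    have : 1 ≤ y ^ 2 := Int.one_le_abs (pow_ne_zero 2 hy) |>.trans_eq (abs_of_nonneg (sq_nonneg y))
    nlinarith [sq_nonneg (2 * x + y), sq_nonneg (2 * z + w), sq_nonneg w]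
  have hw : w = 0 := by
    by_contra hw
    have : 1 ≤ w ^ 2 := Int.one_le_abs (pow_ne_zero 2 hw) |>.trans_eq (abs_of_nonneg (sq_nonneg w))
    nlinarith [sq_nonneg (2 * x + y), sq_nonneg (2 * z + w), sq_nonneg y]
  subst hy hw
  have h2 : x ^ 2 + 3 * z ^ 2 = 2 := by linear_combination h
  have h3 : ∀ a b : ZMod 3, a ^ 2 + 3 * b ^ 2 ≠ 2 := by decide
  refine h3 x z ?_
  have := congrArg (Int.cast : ℤ → ZMod 3) h2
  push_cast at this
  exact this

/-- **`x² + xy + 3y² + 3(z² + zw + 3w²)` represents exactly the natural numbers `≠ 2 · 11 ^ k`.** -/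
theorem thirtythree_iff (n : ℕ) :
    (∃ x y z w : ℤ, x ^ 2 + x * y + 3 * y ^ 2 + 3 * (z ^ 2 + z * w + 3 * w ^ 2) = n) ↔
      ∀ k, n ≠ 2 * 11 ^ k :=
  repr_iff_of (k := 3) (c := 3) Nat.prime_two (fun _ hp h => repr_33_prime hp h)
    (fun _ hp h h' => repr_33_two_mul hp h h') (fun _ hi => repr_33_pow hi)
    (fun _ h => repr_33_descent h) not_repr_33_two n

end Fermat.Agent.Cor.QuatE

end
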