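import Fermat.Agent.Corollaries.QuatE.Base

/-!
# Linear relations between modular forms of weight two on `Γ₀(N)`, on coefficients

`IsMF N a`: the sequence `a` is the sequence of coefficients of a modular form of weight two on
`Γ₀(N)`. These sequences form a vector space, contain the Eisenstein series of the divisors of
`N`, products of binary theta series and cusp forms; such a sequence vanishes as soon as it
vanishes up to Sturm's bound.
-/

set_option autoImplicit false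

noncomputable section

namespace Fermat.Agent.Cor.QuatE

open UpperHalfPlane ModularForm CongruenceSubgroup ModularFormClass
open Fermat.Agent.LTF.Theta
open scoped MatrixGroups

/-- `a` is the sequence of coefficients of a modular form of weight two on `Γ₀(N)` -/
def IsMF (N : ℕ) (a : ℕ → ℂ) : Prop :=
  ∃ F : ModularForm (Gamma0 N) 2, ∀ n, (qExpansion 1 F).coeff n = a n

namespace IsMF

variable {N : ℕ} {a b : ℕ → ℂ}

theorem congr (h : IsMF N a) (hab : ∀ n, a n = b n) : IsMF N b := by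
  obtain ⟨F, hF⟩ := h
  exact ⟨F, fun n => (hF n).trans (hab n)⟩

theorem add [NeZero N] (ha : IsMF N a) (hb : IsMF N b) : IsMF N (fun n => a n + b n) := by
  obtain ⟨F, hF⟩ := ha
  obtain ⟨G, hG⟩ := hb
  refine ⟨F + G, fun n => ?_⟩
  have h1 : qExpansion 1 (F + G) = qExpansion 1 F + qExpansion 1 G :=
    ModularForm.qExpansion_add one_pos (one_mem_strictPeriods_Gamma0 N) F G
  rw [show (qExpansion 1 ((F + G : ModularForm (Gamma0 N) 2) : ℍ → ℂ)) =
    qExpansion 1 F + qExpansion 1 G from h1, map_add, hF, hG]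

theorem smul [NeZero N] (c : ℂ) (ha : IsMF N a) : IsMF N (fun n => c * a n) := by
  obtain ⟨F, hF⟩ := ha
  refine ⟨c • F, fun n => ?_⟩
  have h1 : qExpansion 1 (c • F) = c • qExpansion 1 F :=
    ModularForm.qExpansion_smul one_pos (one_mem_strictPeriods_Gamma0 N) c F
  rw [show (qExpansion 1 ((c • F : ModularForm (Gamma0 N) 2) : ℍ → ℂ)) =
    c • qExpansion 1 F from h1, map_smul, smul_eq_mul, hF]

theorem sub [NeZero N] (ha : IsMF N a) (hb : IsMF N b) : IsMF N (fun n => a n - b n) :=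
  (ha.add (hb.smul (-1))).congr fun n => by ring

/-- a form of level `M` is a form of level `N`, `M ∣ N` -/
theorem of_dvd {M : ℕ} [NeZero M] [NeZero N] (h : M ∣ N) (ha : IsMF M a) : IsMF N a := by
  obtain ⟨F, hF⟩ := ha
  have hle : ∀ γ : SL(2, ℤ), γ ∈ Gamma0 N → γ ∈ Gamma0 M := by
    intro γ hγ
    rw [Gamma0_mem] at hγ ⊢
    rw [ZMod.intCast_zmod_eq_zero_iff_dvd] at hγ ⊢
    exact (Int.natCast_dvd_natCast.mpr h).trans hγ
  refine ⟨{ toFun := F
            slash_action_eq' := ?_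
            holo' := F.holo'
            bdd_at_cusps' := ?_ }, fun n => hF n⟩
  · rintro _ ⟨γ, hγ, rfl⟩
    exact F.slash_action_eq' _ ⟨γ, hle γ hγ, rfl⟩
  · intro c hc
    refine F.bdd_at_cusps' ?_
    rw [Subgroup.IsArithmetic.isCusp_iff_isCusp_SL2Z] at hc ⊢
    exact hc

theorem eis [NeZero N] {D : ℕ} (h : D ∣ N) : IsMF N (eis D) := by
  have : NeZero D := ⟨fun h0 => by
    rw [h0] at h
    exact NeZero.ne N (Nat.eq_zero_of_zero_dvd h)⟩
  exact IsMF.of_dvd h ⟨S16.eisForm D, coeff_eisForm D⟩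

theorem cusp (f : CuspForm (Gamma0 N) 2) : IsMF N (fun n => qCoeff f n) :=
  ⟨CuspForm.toModularFormₗ f, fun _ => rfl⟩

theorem theta [NeZero N] {Q R : BQ} (hQ : Q.Pos) (hR : R.Pos) (hdisc : Q.disc = R.disc) {c : ℕ}
    (hc : 0 < c) (h : (-Q.disc * c : ℤ) ∣ N) : IsMF N (fun n => (cf Q R c n : ℂ)) := by
  have h0 : (0 : ℤ) < -Q.disc * c := by
    have := hQ.neg
    have h2 : (0 : ℤ) < c := by exact_mod_cast hc
    nlinarith
  obtain ⟨M, hM⟩ := Int.eq_ofNat_of_zero_le h0.le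
  have : NeZero M := ⟨by rintro rfl; rw [hM] at h0; simp at h0⟩
  rw [hM] at h
  obtain ⟨F, -, hF⟩ := exists_modularForm_prod (Q := Q) (R := R) hQ hR hdisc hc hM.symm
  exact IsMF.of_dvd (Int.natCast_dvd_natCast.mp h) ⟨F, hF⟩

/-- **Sturm's bound.** -/
theorem eq_zero [NeZero N] (ha : IsMF N a)
    (h : ∀ n : ℕ, n ≤ 2 * ModularCurve.dedekindPsi N / 12 → a n = 0) (n : ℕ) : a n = 0 := by
  obtain ⟨F, hF⟩ := ha
  have hF0 : F = 0 := by
    refine ModularForm.sturm_bound_Gamma0 N F fun m hm => ?_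
    rw [hF, h m ?_]
    rw [P1Count.index_Gamma0] at hm
    refine hm.trans (le_of_eq ?_)
    congr 1
  rw [← hF n, hF0]
  rw [show (((0 : ModularForm (Gamma0 N) 2) : ℍ → ℂ)) = 0 from rfl, qExpansion_zero]
  simp

end IsMF

/-! ### representation numbers -/

/-- the number of representations of `n` by `Q(x, y) + c R(z, w)` -/
def repc (Q R : BQ) (c n : ℕ) : ℕ :=
  Nat.card {x : (ℤ × ℤ) × (ℤ × ℤ) // Q.ev x.1 + c * R.ev x.2 = n}

theorem cf_eq_repc {Q R : BQ} (hQ : Q.Pos) (hR : R.Pos) {c : ℕ} (hc : 0 < c) (n : ℕ) :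
    cf Q R c n = repc Q R c n := by
  classical
  have hfin : ∀ m : ℤ, Finite {x : ℤ × ℤ // Q.ev x = m} := finite_ev hQ
  have hfin' : ∀ m : ℤ, Finite {x : ℤ × ℤ // R.ev x = m} := finite_ev hR
  let S : Finset ℕ := (Finset.range (n + 1)).filter (fun k => c * k ≤ n)
  have hS : ∀ k : ℕ, c * k ≤ n → k ∈ S := by
    intro k hk
    rw [Finset.mem_filter, Finset.mem_range]
    have : k ≤ c * k := Nat.le_mul_of_pos_left _ hc
    exact ⟨by omega, hk⟩
  have h1 : cf Q R c n = ∑ k : S, Q.rep (n - c * k) * R.rep k := by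
    unfold cf
    exact (Finset.sum_coe_sort S fun k => Q.rep (n - c * k) * R.rep k).symm
  rw [h1]
  let β : S → Type := fun k =>
    {x : ℤ × ℤ // Q.ev x = ((n - c * (k : ℕ) : ℕ) : ℤ)} × {x : ℤ × ℤ // R.ev x = ((k : ℕ) : ℤ)}
  have h2 : ∀ k, Nat.card (β k) = Q.rep (n - c * k) * R.rep k := fun k => Nat.card_prod _ _
  have : ∀ k, Finite (β k) := fun k => by
    have := hfin ((n - c * (k : ℕ) : ℕ) : ℤ)
    have := hfin' ((k : ℕ) : ℤ)
    exact Finite.instProd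
  rw [← Finset.sum_congr rfl (fun k _ => h2 k), ← Nat.card_sigma, repc]
  refine Nat.card_congr ?_
  have key : ∀ x : (ℤ × ℤ) × (ℤ × ℤ), Q.ev x.1 + c * R.ev x.2 = n →
      c * (R.ev x.2).toNat ≤ n ∧ Q.ev x.1 = ((n - c * (R.ev x.2).toNat : ℕ) : ℤ) ∧
        R.ev x.2 = ((R.ev x.2).toNat : ℤ) := by
    intro x hx
    have h4 := ev_nonneg hQ x.1
    have h5 := ev_nonneg hR x.2
    have h6 : ((R.ev x.2).toNat : ℤ) = R.ev x.2 := Int.toNat_of_nonneg h5
    have h7 : c * (R.ev x.2).toNat ≤ n := by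
      have : ((c * (R.ev x.2).toNat : ℕ) : ℤ) ≤ n := by
        push_cast
        rw [h6]
        linarith
      exact_mod_cast this
    refine ⟨h7, ?_, h6.symm⟩
    rw [Nat.cast_sub h7]
    push_cast
    rw [h6]
    linarith
  refine
    { toFun := fun p => ⟨(p.2.1.1, p.2.2.1), ?_⟩
      invFun := fun x => ⟨⟨(R.ev x.1.2).toNat, hS _ (key x.1 x.2).1⟩,
        ⟨x.1.1, (key x.1 x.2).2.1⟩, ⟨x.1.2, (key x.1 x.2).2.2⟩⟩
      left_inv := ?_
      right_inv := ?_ }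
  · have h3 := p.2.1.2
    have h4 := p.2.2.2
    have h5 := (Finset.mem_filter.mp p.1.2).2
    simp only
    rw [h3, h4, Nat.cast_sub h5]
    push_cast
    ring
  · rintro ⟨⟨k, hk⟩, ⟨x, hx⟩, ⟨y, hy⟩⟩
    have h3 : (R.ev y).toNat = k := by
      simp only at hy
      rw [hy, Int.toNat_natCast]
    subst h3
    rfl
  · rintro ⟨⟨x, y⟩, h⟩
    rfl

theorem repc_eq_card (Q R : BQ) (c n : ℕ) :
    repc Q R c n = Nat.card {v : Fin 4 → ℤ // (Q.a * v 0 ^ 2 + Q.b * v 0 * v 1 + Q.c * v 1 ^ 2) +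
      c * (R.a * v 2 ^ 2 + R.b * v 2 * v 3 + R.c * v 3 ^ 2) = n} := by
  refine (Nat.card_congr (vecEquiv.subtypeEquiv fun v => ?_)).symm
  simp only [vecEquiv, Equiv.coe_fn_mk, BQ.ev, Int.cast_id]

theorem four_c_ev (Q : BQ) (x : ℤ × ℤ) :
    4 * Q.c * Q.ev x = (2 * Q.c * x.2 + Q.b * x.1) ^ 2 - Q.disc * x.1 ^ 2 := by
  simp only [BQ.ev, BQ.disc, Int.cast_id]
  ring

/-- computation of representation numbers in a box -/
theorem rep_eq_card {Q : BQ} (hQ : Q.Pos) (B n : ℕ)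
    (hx : 4 * Q.c * n < -Q.disc * (B + 1) ^ 2) (hy : 4 * Q.a * n < -Q.disc * (B + 1) ^ 2) :
    Q.rep n = ((Finset.Icc (-(B : ℤ)) B ×ˢ Finset.Icc (-(B : ℤ)) B).filter
      (fun x : ℤ × ℤ => Q.a * x.1 ^ 2 + Q.b * x.1 * x.2 + Q.c * x.2 ^ 2 = n)).card := by
  have hD := hQ.neg
  have hb : ∀ y : ℤ, -Q.disc * y ^ 2 < -Q.disc * (B + 1) ^ 2 → -(B : ℤ) ≤ y ∧ y ≤ B := by
    intro y h
    have h1 : y ^ 2 < ((B : ℤ) + 1) ^ 2 := lt_of_mul_lt_mul_left h (by linarith)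
    have h2 := abs_lt_of_sq_lt_sq h1 (by positivity)
    rw [abs_lt] at h2
    constructor <;> linarith [h2.1, h2.2]
  unfold BQ.rep
  rw [Nat.card_congr (Equiv.subtypeEquivRight (p := fun x : ℤ × ℤ => Q.ev x = (n : ℤ))
    (q := fun x => x ∈ (Finset.Icc (-(B : ℤ)) B ×ˢ Finset.Icc (-(B : ℤ)) B).filter
      (fun x : ℤ × ℤ => Q.a * x.1 ^ 2 + Q.b * x.1 * x.2 + Q.c * x.2 ^ 2 = n)) fun x => ?_),
    Nat.card_eq_fintype_card, Fintype.card_coe]
  have he : Q.ev x = Q.a * x.1 ^ 2 + Q.b * x.1 * x.2 + Q.c * x.2 ^ 2 := by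
    simp only [BQ.ev, Int.cast_id]
  rw [Finset.mem_filter, Finset.mem_product, Finset.mem_Icc, Finset.mem_Icc, ← he]
  refine ⟨fun h => ⟨⟨hb _ ?_, hb _ ?_⟩, h⟩, fun h => h.2⟩
  · have h1 := four_c_ev Q x
    rw [h] at h1
    nlinarith [sq_nonneg (2 * Q.c * x.2 + Q.b * x.1)]
  · have h1 := four_a_ev Q x
    rw [h] at h1
    nlinarith [sq_nonneg (2 * Q.a * x.1 + Q.b * x.2)]

/-! ### forms of semistable curves -/

/-- the newform of a semistable curve, at the product of the bad primes -/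
theorem exists_form {W : WeierstrassCurve ℤ} {N : ℕ} (hN : Squarefree N) (hΔ : W.Δ ≠ 0)
    (hW : W.IsSemistableModel) (h : ∀ q : ℕ, q.Prime → (q ∣ N ↔ (q : ℤ) ∣ W.Δ)) :
    ∃ f : CuspForm (Gamma0 N) 2, f.IsNormalizedEigenform ∧
      ∀ q : ℕ, q.Prime → ¬ q ∣ N → qCoeff f q = (W.apOfModel q : ℂ) := by
  obtain ⟨M, hM, hsq, hq, f, hf, hap⟩ := Classic.exact_of_semistable hΔ hW
  have hMN : M = N := by
    rw [← Nat.prod_primeFactors_of_squarefree hsq, ← Nat.prod_primeFactors_of_squarefree hN]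
    congr 1
    ext q
    rw [Nat.mem_primeFactors, Nat.mem_primeFactors]
    constructor
    · rintro ⟨h1, h2, -⟩
      exact ⟨h1, (h q h1).mpr ((hq q h1).mp h2), hN.ne_zero⟩
    · rintro ⟨h1, h2, -⟩
      exact ⟨h1, (hq q h1).mpr ((h q h1).mp h2), hM.ne'⟩
  subst hMN
  exact ⟨f, hf, fun q hq1 hq2 => hap q hq1 (fun hd => hq2 ((h q hq1).mpr hd)) hq2⟩

/-- `apOfModel` as `p - #(affine points)` -/
theorem apOfModel_eq {W : WeierstrassCurve ℤ} {p : ℕ} [hp : Fact p.Prime] (h : ¬ (p : ℤ) ∣ W.Δ) :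
    W.apOfModel p = p - Nat.card {q : ZMod p × ZMod p //
      q.2 ^ 2 + (W.a₁ : ZMod p) * q.1 * q.2 + (W.a₃ : ZMod p) * q.2 =
        q.1 ^ 3 + (W.a₂ : ZMod p) * q.1 ^ 2 + (W.a₄ : ZMod p) * q.1 + (W.a₆ : ZMod p)} := by
  have hΔ : (W.reductionMod p).Δ ≠ 0 := by
    unfold WeierstrassCurve.reductionMod
    rw [WeierstrassCurve.map_Δ]
    intro h0
    exact h ((ZMod.intCast_zmod_eq_zero_iff_dvd _ _).mp h0)
  unfold WeierstrassCurve.apOfModel WeierstrassCurve.traceOfFrobenius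
  rw [card_eq _ hΔ, Nat.card_zmod]
  have h2 : Nat.card {q : ZMod p × ZMod p // q.2 ^ 2 + (W.reductionMod p).a₁ * q.1 * q.2 +
      (W.reductionMod p).a₃ * q.2 = q.1 ^ 3 + (W.reductionMod p).a₂ * q.1 ^ 2 +
      (W.reductionMod p).a₄ * q.1 + (W.reductionMod p).a₆} = Nat.card {q : ZMod p × ZMod p //
      q.2 ^ 2 + (W.a₁ : ZMod p) * q.1 * q.2 + (W.a₃ : ZMod p) * q.2 =
        q.1 ^ 3 + (W.a₂ : ZMod p) * q.1 ^ 2 + (W.a₄ : ZMod p) * q.1 + (W.a₆ : ZMod p)} := rfl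
  rw [h2]
  push_cast
  ring

theorem eis_val {D n s : ℕ} (hn : n ≠ 0) (h : ∑ d ∈ n.divisors with ¬ D ∣ d, d = s) :
    eis D n = 24 * (s : ℂ) := by
  rw [eis, if_neg hn, ← h]
  push_cast
  rfl

/-- the divisor sum of the Eisenstein series at a prime of good reduction -/
theorem eis_prime {D p : ℕ} (hD : D ≠ 1) (hp : p.Prime) (h : ¬ p ∣ D) :
    eis D p = 24 * ((p : ℂ) + 1) := by
  have h1 : ¬ D ∣ 1 := fun h1 => hD (Nat.dvd_one.mp h1)
  have h2 : ¬ D ∣ p := fun h2 => by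
    rcases (Nat.dvd_prime hp).mp h2 with h3 | h3
    · exact hD h3
    · exact h (h3 ▸ dvd_rfl)
  rw [eis, if_neg hp.ne_zero, hp.divisors, Finset.filter_insert, Finset.filter_singleton,
    if_pos h1, if_pos h2, Finset.sum_insert (by rw [Finset.mem_singleton]; exact hp.one_lt.ne),
    Finset.sum_singleton]
  push_cast
  ring

end Fermat.Agent.Cor.QuatE

end
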